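import Fermat.Agent.DS.G1.Core.Place
import Mathlib.RingTheory.Algebraic.Integral
import Mathlib.RingTheory.Polynomial.Content
import Mathlib.RingTheory.HahnSeries.Summable
import Mathlib.RingTheory.Ideal.Quotient.Operations
import Mathlib.RingTheory.Nilpotent.Lemmas
import Mathlib.RingTheory.PowerSeries.Basic
import Mathlib.FieldTheory.AlgebraicClosure

/-!
# Places of the algebraic numbers: rank one, inversion of series modulo powers of `π`
-/

set_option autoImplicit false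

noncomputable section

open Polynomial

namespace Fermat.Agent.DS.G1.PlaceRing

variable {p : ℕ} (P : PlaceRing p)

theorem zero_mem_maxIdeal : (0 : ℂ) ∈ P.maxIdeal := ⟨zero_mem _, Or.inl rfl⟩

theorem maxIdeal_subset {x : ℂ} (h : x ∈ P.maxIdeal) : x ∈ P.A := h.1

theorem inv_mem_of_not_mem {x : ℂ} (hx : x ∈ P.A) (h : x ∉ P.maxIdeal) : x⁻¹ ∈ P.A := by
  by_contra hc
  exact h ⟨hx, Or.inr hc⟩

theorem ne_zero_of_not_mem {x : ℂ} (h : x ∉ P.maxIdeal) : x ≠ 0 :=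
  fun h0 => h (h0 ▸ P.zero_mem_maxIdeal)

theorem not_mem_maxIdeal_of_inv {x : ℂ} (h0 : x ≠ 0) (h : x⁻¹ ∈ P.A) : x ∉ P.maxIdeal :=
  fun hx => hx.2.elim h0 fun hn => hn h

theorem one_not_mem_maxIdeal : (1 : ℂ) ∉ P.maxIdeal :=
  P.not_mem_maxIdeal_of_inv one_ne_zero (by simp)

theorem natCast_mem_maxIdeal : (p : ℂ) ∈ P.maxIdeal := ⟨natCast_mem _ p, Or.inr P.not_unit⟩

theorem mul_mem_maxIdeal {a x : ℂ} (ha : a ∈ P.A) (hx : x ∈ P.maxIdeal) :
    a * x ∈ P.maxIdeal := by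
  refine ⟨mul_mem ha hx.1, ?_⟩
  rcases eq_or_ne (a * x) 0 with h | h
  · exact Or.inl h
  refine Or.inr fun hinv => hx.2.elim (right_ne_zero_of_mul h) fun hn => hn ?_
  have ha0 := left_ne_zero_of_mul h
  have : x⁻¹ = a * (a * x)⁻¹ := by field_simp
  rw [this]
  exact mul_mem ha hinv

theorem neg_mem_maxIdeal {x : ℂ} (hx : x ∈ P.maxIdeal) : -x ∈ P.maxIdeal := by
  simpa using P.mul_mem_maxIdeal (neg_mem (one_mem P.A)) hx

theorem add_mem_maxIdeal {x y : ℂ} (hx : x ∈ P.maxIdeal) (hy : y ∈ P.maxIdeal) :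
    x + y ∈ P.maxIdeal := by
  rcases eq_or_ne y 0 with rfl | hy0
  · simpa using hx
  rcases eq_or_ne x 0 with rfl | hx0
  · simpa using hy
  rcases P.total (x * y⁻¹) ((P.algebraic x hx.1).mul (P.algebraic y hy.1).inv) with h | h
  · have := P.mul_mem_maxIdeal (add_mem h (one_mem P.A)) hy
    rwa [add_mul, one_mul, inv_mul_cancel_right₀ hy0] at this
  · rw [mul_inv, inv_inv, mul_comm] at h
    have := P.mul_mem_maxIdeal (add_mem (one_mem P.A) h) hx
    rwa [add_mul, one_mul, inv_mul_cancel_right₀ hx0] at this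

theorem sub_mem_maxIdeal {x y : ℂ} (hx : x ∈ P.maxIdeal) (hy : y ∈ P.maxIdeal) :
    x - y ∈ P.maxIdeal := by
  rw [sub_eq_add_neg]
  exact P.add_mem_maxIdeal hx (P.neg_mem_maxIdeal hy)

theorem sum_mem_maxIdeal {ι : Type*} (s : Finset ι) {f : ι → ℂ}
    (h : ∀ i ∈ s, f i ∈ P.maxIdeal) : ∑ i ∈ s, f i ∈ P.maxIdeal := by
  classical
  induction s using Finset.induction with
  | empty => simpa using P.zero_mem_maxIdeal
  | @insert a s ha ih =>
    rw [Finset.sum_insert ha]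
    exact P.add_mem_maxIdeal (h a (Finset.mem_insert_self a s))
      (ih fun i hi => h i (Finset.mem_insert_of_mem hi))

/-- Sums with exactly one unit term are units. -/
theorem add_not_mem_maxIdeal {x y : ℂ} (hx : x ∉ P.maxIdeal) (hy : y ∈ P.maxIdeal) :
    x + y ∉ P.maxIdeal :=
  fun h => hx (by simpa using P.sub_mem_maxIdeal h hy)

theorem mul_not_mem_maxIdeal {x y : ℂ} (hx : x ∈ P.A) (hy : y ∈ P.A) (hx' : x ∉ P.maxIdeal)
    (hy' : y ∉ P.maxIdeal) : x * y ∉ P.maxIdeal :=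
  P.not_mem_maxIdeal_of_inv (mul_ne_zero (P.ne_zero_of_not_mem hx') (P.ne_zero_of_not_mem hy'))
    (by rw [mul_inv]; exact mul_mem (P.inv_mem_of_not_mem hx hx') (P.inv_mem_of_not_mem hy hy'))

theorem intCast_not_mem_maxIdeal (hp : p.Prime) {a : ℤ} (ha : ¬ (p : ℤ) ∣ a) :
    (a : ℂ) ∉ P.maxIdeal := by
  obtain ⟨u, v, huv⟩ := ((Nat.prime_iff_prime_int.mp hp).irreducible.coprime_iff_not_dvd).mpr ha
  intro h
  refine P.one_not_mem_maxIdeal ?_
  have := P.add_mem_maxIdeal (P.mul_mem_maxIdeal (intCast_mem P.A u) P.natCast_mem_maxIdeal)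
    (P.mul_mem_maxIdeal (intCast_mem P.A v) h)
  convert this using 1
  exact_mod_cast huv.symm

/-- An integral relation split at one of its coefficients. -/
theorem exists_split {x : ℂ} (hx : x ∈ P.A) (Q : ℤ[X]) {i : ℕ} (hi : Q.coeff i ≠ 0) :
    ∃ c ∈ P.A, aeval x Q =
      (∑ k ∈ Finset.range i, (Q.coeff k : ℂ) * x ^ k) + x ^ i * ((Q.coeff i : ℂ) + x * c) := by
  obtain ⟨n, hn⟩ : ∃ n, Q.natDegree + 1 = i + (n + 1) :=
    ⟨Q.natDegree - i, by have := le_natDegree_of_ne_zero hi; omega⟩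
  refine ⟨∑ k ∈ Finset.range n, (Q.coeff (i + (k + 1)) : ℂ) * x ^ k,
    sum_mem fun k _ => mul_mem (intCast_mem _ _) (pow_mem hx k), ?_⟩
  rw [aeval_eq_sum_range, hn, Finset.sum_range_add, Finset.sum_range_succ']
  simp only [zsmul_eq_mul, Finset.mul_sum, mul_add, add_zero]
  rw [add_comm (∑ k ∈ Finset.range n, _)]
  refine congrArg₂ (· + ·) rfl (congrArg₂ (· + ·) (mul_comm _ _)
    (Finset.sum_congr rfl fun k _ => ?_))
  ring

/-- `p` divides a power of every element of the maximal ideal. -/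
theorem exists_natCast_dvd_pow (hp : p.Prime) {x : ℂ} (hx : x ∈ P.maxIdeal) :
    ∃ i : ℕ, ∃ c ∈ P.A, x ^ i = (p : ℂ) * c := by
  obtain ⟨Q, hQ0, hQx⟩ := (IsFractionRing.isAlgebraic_iff ℤ ℚ ℂ).mpr (P.algebraic x hx.1)
  have hprim := Q.isPrimitive_primPart
  have hQ'x : aeval x Q.primPart = 0 := aeval_primPart_eq_zero hQ0 hQx
  have hex : ∃ k, ¬ (p : ℤ) ∣ Q.primPart.coeff k := by
    by_contra hall
    push Not at hall
    exact (Nat.prime_iff_prime_int.mp hp).not_isUnit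
      (hprim _ (C_dvd_iff_dvd_coeff _ _ |>.mpr hall))
  classical
  set i := Nat.find hex
  have hi : ¬ (p : ℤ) ∣ Q.primPart.coeff i := Nat.find_spec hex
  obtain ⟨c, hc, hsplit⟩ := P.exists_split hx.1 Q.primPart
    (fun h : Q.primPart.coeff i = 0 => hi (h ▸ dvd_zero _))
  have hu : ((Q.primPart.coeff i : ℂ) + x * c) ∉ P.maxIdeal :=
    P.add_not_mem_maxIdeal (P.intCast_not_mem_maxIdeal hp hi)
      (by rw [mul_comm]; exact P.mul_mem_maxIdeal hc hx)
  have huA : ((Q.primPart.coeff i : ℂ) + x * c) ∈ P.A :=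
    add_mem (intCast_mem _ _) (mul_mem hx.1 hc)
  choose q hq using fun k : Finset.range i =>
    not_not.mp (Nat.find_min hex (Finset.mem_range.mp k.2))
  refine ⟨i, -(∑ k : Finset.range i, (q k : ℂ) * x ^ (k : ℕ)) *
    ((Q.primPart.coeff i : ℂ) + x * c)⁻¹,
    mul_mem (neg_mem (sum_mem fun k _ => mul_mem (intCast_mem _ _) (pow_mem hx.1 _)))
      (P.inv_mem_of_not_mem huA hu), ?_⟩
  have hsum : ∑ k ∈ Finset.range i, (Q.primPart.coeff k : ℂ) * x ^ k =
      (p : ℂ) * ∑ k : Finset.range i, (q k : ℂ) * x ^ (k : ℕ) := by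
    rw [Finset.mul_sum, ← Finset.sum_coe_sort]
    refine Finset.sum_congr rfl fun k _ => ?_
    rw [hq k]
    push_cast
    ring
  rw [hQ'x, hsum] at hsplit
  rw [← mul_assoc, mul_neg, eq_mul_inv_iff_mul_eq₀ (P.ne_zero_of_not_mem hu)]
  linear_combination -hsplit

/-- Every nonzero element divides a power of `p`. -/
theorem exists_dvd_natCast_pow (hp : p.Prime) {y : ℂ} (hy : y ∈ P.A) (hy0 : y ≠ 0) :
    ∃ k : ℕ, ∃ c ∈ P.A, (p : ℂ) ^ k = y * c := by
  obtain ⟨Q, hQ0, hQy⟩ := (IsFractionRing.isAlgebraic_iff ℤ ℚ ℂ).mpr (P.algebraic y hy)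
  have hex : ∃ k, Q.coeff k ≠ 0 := ⟨_, leadingCoeff_ne_zero.mpr hQ0⟩
  classical
  set i := Nat.find hex
  obtain ⟨c, hc, hsplit⟩ := P.exists_split hy Q (Nat.find_spec hex)
  rw [hQy, Finset.sum_eq_zero fun k hk => ?_, zero_add, eq_comm, mul_eq_zero] at hsplit
  swap
  · rw [not_not.mp (Nat.find_min hex (Finset.mem_range.mp hk))]; simp
  have h := hsplit.resolve_left (pow_ne_zero _ hy0)
  obtain ⟨k, u, hu, hk⟩ := Nat.exists_eq_pow_mul_and_not_dvd
    (Int.natAbs_ne_zero.mpr (Nat.find_spec hex)) p hp.ne_one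
  have hu' : ((u : ℤ) : ℂ) ∉ P.maxIdeal :=
    P.intCast_not_mem_maxIdeal hp fun hd => hu (Int.natCast_dvd_natCast.mp hd)
  obtain ⟨ε, hε, hεQ⟩ : ∃ ε : ℂ, ε ∈ P.A ∧
      ((Q.coeff i).natAbs : ℂ) = ε * (Q.coeff i : ℂ) := by
    rcases Int.natAbs_eq (Q.coeff i) with e | e
    · exact ⟨1, one_mem _, by conv_rhs => rw [e, Int.cast_natCast, one_mul]⟩
    · exact ⟨-1, neg_mem (one_mem _), by
        conv_rhs => rw [e, Int.cast_neg, Int.cast_natCast, neg_mul_neg, one_mul]⟩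
  refine ⟨k, -(ε * c) * ((u : ℤ) : ℂ)⁻¹,
    mul_mem (neg_mem (mul_mem hε hc)) (P.inv_mem_of_not_mem (intCast_mem _ _) hu'), ?_⟩
  have hcast : ((Q.coeff i).natAbs : ℂ) = (p : ℂ) ^ k * ((u : ℤ) : ℂ) := by
    rw [hk]; push_cast; ring
  rw [← mul_assoc, eq_mul_inv_iff_mul_eq₀ (P.ne_zero_of_not_mem hu'), ← hcast, hεQ]
  linear_combination ε * h

/-- Rank one: a nonzero element divides a power of every element of the maximal ideal. -/
theorem exists_dvd_pow (hp : p.Prime) {x y : ℂ} (hx : x ∈ P.maxIdeal) (hy : y ∈ P.A)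
    (hy0 : y ≠ 0) : ∃ k : ℕ, ∃ c ∈ P.A, x ^ k = y * c := by
  obtain ⟨k, c, hc, hk⟩ := P.exists_dvd_natCast_pow hp hy hy0
  obtain ⟨i, d, hd, hi⟩ := P.exists_natCast_dvd_pow hp hx
  exact ⟨i * k, c * d ^ k, mul_mem hc (pow_mem hd k), by rw [pow_mul, hi, mul_pow, hk]; ring⟩

/-- An element divisible by all powers of `π` is zero. -/
theorem eq_zero_of_forall_dvd (hp : p.Prime) {π x : ℂ} (hπ : π ∈ P.maxIdeal) (hx : x ∈ P.A)
    (h : ∀ n : ℕ, ∃ c ∈ P.A, x = π ^ n * c) : x = 0 := by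
  by_contra hx0
  obtain ⟨k, c, hc, hk⟩ := P.exists_dvd_natCast_pow hp hx hx0
  obtain ⟨i, d, hd, hi⟩ := P.exists_natCast_dvd_pow hp hπ
  obtain ⟨e, he, hxe⟩ := h (i * (k + 1))
  refine P.not_unit ?_
  have hp0 : (p : ℂ) ≠ 0 := Nat.cast_ne_zero.mpr hp.ne_zero
  have hkey : (p : ℂ) ^ k = (p : ℂ) ^ k * ((p : ℂ) * (d ^ (k + 1) * e * c)) := by
    conv_lhs => rw [hk, hxe, pow_mul, hi]
    ring
  have h1 := mul_left_cancel₀ (pow_ne_zero k hp0) (hkey.symm.trans (mul_one _).symm)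
  rw [inv_eq_of_mul_eq_one_right h1]
  exact mul_mem (mul_mem (pow_mem hd _) he) hc

/-- Roots of polynomials with coefficients in the place are algebraic. -/
theorem isAlgebraic_root {G : ℂ[X]} (hG : ∀ k, G.coeff k ∈ P.A) (hG0 : G ≠ 0) {x : ℂ}
    (hx : G.eval x = 0) : IsAlgebraic ℚ x := by
  let K := algebraicClosure ℚ ℂ
  obtain ⟨G₀, hG₀⟩ := (Polynomial.mem_lifts (f := algebraMap K ℂ) G).mp
    ((Polynomial.lifts_iff_coeff_lifts G).mpr fun k => ⟨(⟨G.coeff k,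
      (mem_algebraicClosure_iff).mpr (P.algebraic _ (hG k))⟩ : K), rfl⟩)
  have hne : G₀ ≠ 0 := fun h => hG0 (by rw [← hG₀, h, Polynomial.map_zero])
  have h1 : IsAlgebraic K x := ⟨G₀, hne, by rw [aeval_def, ← eval_map]; exact hG₀.symm ▸ hx⟩
  have : Algebra.IsAlgebraic ℚ K := algebraicClosure.isAlgebraic ℚ ℂ
  exact h1.restrictScalars ℚ

/-- The place is integrally closed. -/
theorem mem_of_isRoot_monic {G : ℂ[X]} (hG : ∀ k, G.coeff k ∈ P.A) (hm : G.Monic) {x : ℂ}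
    (hx : G.eval x = 0) : x ∈ P.A := by
  by_contra hxA
  have hx0 : x ≠ 0 := fun h => hxA (h ▸ zero_mem _)
  have hy : x⁻¹ ∈ P.A :=
    (P.total x (P.isAlgebraic_root hG hm.ne_zero hx)).resolve_left hxA
  have hym : x⁻¹ ∈ P.maxIdeal := ⟨hy, Or.inr (by rwa [inv_inv])⟩
  refine P.one_not_mem_maxIdeal ?_
  rw [eval_eq_sum_range, Finset.sum_range_succ, hm.coeff_natDegree, one_mul] at hx
  have h1 : (1 : ℂ) =
      ∑ i ∈ Finset.range G.natDegree, -G.coeff i * x⁻¹ ^ (G.natDegree - i) := by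
    calc (1 : ℂ) = x ^ G.natDegree * x⁻¹ ^ G.natDegree := by
          rw [← mul_pow, mul_inv_cancel₀ hx0, one_pow]
      _ = (∑ i ∈ Finset.range G.natDegree, -(G.coeff i * x ^ i)) * x⁻¹ ^ G.natDegree := by
          rw [Finset.sum_neg_distrib, eq_neg_of_add_eq_zero_right hx]
      _ = _ := by
          rw [Finset.sum_mul]
          refine Finset.sum_congr rfl fun i hi => ?_
          obtain ⟨j, hj⟩ := Nat.exists_eq_add_of_le (Finset.mem_range.mp hi).le
          rw [hj, Nat.add_sub_cancel_left, pow_add, inv_pow, inv_pow]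
          field_simp
  rw [h1]
  refine P.sum_mem_maxIdeal _ fun i hi => ?_
  obtain ⟨j, hj⟩ : ∃ j, G.natDegree - i = j + 1 :=
    ⟨G.natDegree - i - 1, by have := Finset.mem_range.mp hi; omega⟩
  rw [hj, pow_succ, ← mul_assoc]
  exact P.mul_mem_maxIdeal (mul_mem (neg_mem (hG i)) (pow_mem hy j)) hym

/-! ### Series -/

theorem serDvd_iff {c : ℂ} (hc : c ≠ 0) {s : LaurentSeries ℂ} :
    P.SerDvd c s ↔ ∀ i, ∃ a ∈ P.A, s.coeff i = c * a := by
  constructor
  · rintro ⟨t, ht, rfl⟩ i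
    exact ⟨t.coeff i, mem_serIn.mp ht i,
      by rw [HahnSeries.C_mul_eq_smul, HahnSeries.coeff_smul, smul_eq_mul]⟩
  · intro h
    refine ⟨HahnSeries.C c⁻¹ * s, mem_serIn.mpr fun i => ?_, ?_⟩
    · obtain ⟨a, ha, hi⟩ := h i
      rwa [HahnSeries.C_mul_eq_smul, HahnSeries.coeff_smul, hi, smul_eq_mul,
        inv_mul_cancel_left₀ hc]
    · rw [← mul_assoc, ← map_mul, mul_inv_cancel₀ hc, map_one, one_mul]

theorem serDvd_zero (c : ℂ) : P.SerDvd c 0 := ⟨0, zero_mem _, (mul_zero _).symm⟩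

variable {P} in
theorem SerDvd.add {c : ℂ} {s t : LaurentSeries ℂ} (hs : P.SerDvd c s) (ht : P.SerDvd c t) :
    P.SerDvd c (s + t) := by
  obtain ⟨a, ha, rfl⟩ := hs
  obtain ⟨b, hb, rfl⟩ := ht
  exact ⟨a + b, add_mem ha hb, (mul_add _ _ _).symm⟩

variable {P} in
theorem SerDvd.sub {c : ℂ} {s t : LaurentSeries ℂ} (hs : P.SerDvd c s) (ht : P.SerDvd c t) :
    P.SerDvd c (s - t) := by
  obtain ⟨a, ha, rfl⟩ := hs
  obtain ⟨b, hb, rfl⟩ := ht
  exact ⟨a - b, sub_mem ha hb, (mul_sub _ _ _).symm⟩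

variable {P} in
theorem SerDvd.mul_left {c : ℂ} {s t : LaurentSeries ℂ} (hs : P.SerDvd c s)
    (ht : t ∈ serIn P.A) : P.SerDvd c (t * s) := by
  obtain ⟨a, ha, rfl⟩ := hs
  exact ⟨t * a, mul_mem ht ha, by ring⟩

theorem serDvd_sum {ι : Type*} (c : ℂ) (s : Finset ι) {f : ι → LaurentSeries ℂ}
    (h : ∀ i ∈ s, P.SerDvd c (f i)) : P.SerDvd c (∑ i ∈ s, f i) :=
  Finset.sum_induction f (P.SerDvd c) (fun _ _ => SerDvd.add) (P.serDvd_zero c) h

theorem serDvd_const_mul (c : ℂ) {t : LaurentSeries ℂ} (ht : t ∈ serIn P.A) :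
    P.SerDvd c (HahnSeries.C c * t) := ⟨t, ht, rfl⟩

theorem serDvd_sub_trans {c : ℂ} {x y z : LaurentSeries ℂ} (hxy : P.SerDvd c (x - y))
    (hzy : P.SerDvd c (z - y)) : P.SerDvd c (x - z) := by
  rw [← sub_sub_sub_cancel_right x z y]
  exact hxy.sub hzy

/-- A series congruent to zero modulo all powers of `π` vanishes. -/
theorem series_eq_zero (hp : p.Prime) {π : ℂ} (hπ : π ∈ P.maxIdeal) (hπ0 : π ≠ 0)
    {s : LaurentSeries ℂ} (hs : s ∈ serIn P.A) (h : ∀ n : ℕ, P.SerDvd (π ^ n) s) : s = 0 := by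
  ext i
  exact P.eq_zero_of_forall_dvd hp hπ (mem_serIn.mp hs i)
    fun n => (P.serDvd_iff (pow_ne_zero n hπ0)).mp (h n) i

/-- A series with a unit coefficient is invertible modulo every power of `π`. -/
theorem exists_serDvd_inv (hp : p.Prime) {π : ℂ} (hπ : π ∈ P.maxIdeal) (hπ0 : π ≠ 0) (n : ℕ)
    {s : LaurentSeries ℂ} (hs : s ∈ serIn P.A) (hu : P.HasUnitCoeff s) :
    ∃ t ∈ serIn P.A, P.SerDvd (π ^ n) (s * t - 1) := by
  classical
  have hπA : π ∈ P.A := hπ.1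
  set I : Ideal P.A := Ideal.span {(⟨π, hπA⟩ : P.A) ^ n}
  set mk := Ideal.Quotient.mk I
  obtain ⟨s₀, rfl⟩ := hs
  obtain ⟨i₁, hi₁⟩ := hu
  set e := ModularCurve.coeffMap P.A.subtype
  have hcoe : ∀ (x : LaurentSeries P.A) (i : ℤ), (e x).coeff i = (x.coeff i : ℂ) :=
    fun x i => ModularCurve.coeffMap_coeff _ _ _
  -- the first unit coefficient
  obtain ⟨i₀, hi₀, hmin⟩ : ∃ i₀, (s₀.coeff i₀ : ℂ) ∉ P.maxIdeal ∧
      ∀ i < i₀, (s₀.coeff i : ℂ) ∈ P.maxIdeal := by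
    have hi₁' : (s₀.coeff i₁ : ℂ) ∉ P.maxIdeal := by rwa [← hcoe]
    obtain ⟨lb, hlb, hmin⟩ := Int.exists_least_of_bdd (P := fun i => (s₀.coeff i : ℂ) ∉ P.maxIdeal)
      ⟨s₀.order, fun i hi => HahnSeries.order_le_of_coeff_ne_zero fun h0 => hi (by
        rw [h0]; exact P.zero_mem_maxIdeal)⟩ ⟨i₁, hi₁'⟩
    exact ⟨lb, hlb, fun i hi => not_not.mp fun h => absurd (hmin i h) (not_le.mpr hi)⟩
  have hnil : ∀ i < i₀, IsNilpotent (mk (s₀.coeff i)) := by
    intro i hi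
    obtain ⟨k, c, hc, hk⟩ := P.exists_dvd_pow hp (hmin i hi) (pow_mem hπA n) (pow_ne_zero n hπ0)
    refine ⟨k, ?_⟩
    rw [← map_pow, Ideal.Quotient.eq_zero_iff_mem, Ideal.mem_span_singleton]
    exact ⟨⟨c, hc⟩, Subtype.ext (by simpa using hk)⟩
  set u := ModularCurve.coeffMap mk s₀
  have hucoe : ∀ i, u.coeff i = mk (s₀.coeff i) := fun i => ModularCurve.coeffMap_coeff _ _ _
  -- split off the nilpotent head
  set low : LaurentSeries (P.A ⧸ I) :=
    ∑ i ∈ Finset.Ico s₀.order i₀, HahnSeries.single i (u.coeff i)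
  have hlow : IsNilpotent low := by
    refine isNilpotent_sum (R := LaurentSeries (P.A ⧸ I)) fun i hi => ?_
    obtain ⟨k, hk⟩ := hnil i (Finset.mem_Ico.mp hi).2
    exact ⟨k, by rw [HahnSeries.single_pow, hucoe, hk, HahnSeries.single_eq_zero]⟩
  have hlowcoe : ∀ i, low.coeff i = if i < i₀ then u.coeff i else 0 := by
    intro i
    rw [HahnSeries.coeff_sum]
    simp only [HahnSeries.coeff_single]
    by_cases hm : i ∈ Finset.Ico s₀.order i₀
    · refine (Finset.sum_eq_single_of_mem i hm fun b _ hb => if_neg (Ne.symm hb)).trans ?_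
      rw [if_pos rfl, if_pos (Finset.mem_Ico.mp hm).2]
    · refine (Finset.sum_eq_zero fun b hb => if_neg (fun h : i = b => hm (h ▸ hb))).trans ?_
      split_ifs with hi
      · rw [hucoe, HahnSeries.coeff_eq_zero_of_lt_order
          (not_le.mp fun ho => hm (Finset.mem_Ico.mpr ⟨ho, hi⟩)), map_zero]
      · rfl
  set high := u - low with hhigh
  have hhighcoe : ∀ i, high.coeff i = if i < i₀ then 0 else u.coeff i := by
    intro i
    rw [hhigh, HahnSeries.coeff_sub, hlowcoe]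
    split_ifs <;> simp
  have hunit : IsUnit (u.coeff i₀) := by
    rw [hucoe]
    refine IsUnit.map mk ⟨⟨s₀.coeff i₀, ⟨_, P.inv_mem_of_not_mem (s₀.coeff i₀).2 hi₀⟩,
      Subtype.ext (mul_inv_cancel₀ (P.ne_zero_of_not_mem hi₀)),
      Subtype.ext (inv_mul_cancel₀ (P.ne_zero_of_not_mem hi₀))⟩, rfl⟩
  have hu_unit : IsUnit u := by
    rcases subsingleton_or_nontrivial (P.A ⧸ I) with hss | hnt
    · exact isUnit_of_subsingleton _
    have h0 : high.coeff i₀ ≠ 0 := by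
      rw [hhighcoe, if_neg (lt_irrefl _)]; exact hunit.ne_zero
    have hord : high.order = i₀ := by
      refine le_antisymm (HahnSeries.order_le_of_coeff_ne_zero h0) ?_
      by_contra hlt
      refine HahnSeries.coeff_order_eq_zero.not.mpr
        (fun hz : high = 0 => h0 (by rw [hz]; rfl)) ?_
      rw [hhighcoe, if_pos (not_le.mp hlt)]
    have hhu : IsUnit high := by
      refine HahnSeries.isUnit_of_isUnit_leadingCoeff_AddUnitOrder ?_ (AddGroup.isAddUnit _)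
      rw [HahnSeries.leadingCoeff_eq, hord, hhighcoe, if_neg (lt_irrefl _)]
      exact hunit
    have : u = low + high := by rw [hhigh, add_sub_cancel]
    rw [this]
    exact hlow.isUnit_add_right_of_commute hhu (mul_comm low high)
  obtain ⟨v, hv⟩ := hu_unit.exists_right_inv
  -- lift the inverse
  let t₀ : LaurentSeries P.A :=
    ⟨fun i => if v.coeff i = 0 then 0 else Quotient.out (v.coeff i),
      v.isPWO_support.mono fun i hi h0 => hi (by simp [h0])⟩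
  have ht₀ : ModularCurve.coeffMap mk t₀ = v := by
    ext i
    rw [ModularCurve.coeffMap_coeff]
    show mk (if v.coeff i = 0 then 0 else Quotient.out (v.coeff i)) = _
    split_ifs with h
    · rw [h, map_zero]
    · exact Quotient.out_eq _
  refine ⟨e t₀, ⟨t₀, rfl⟩, (P.serDvd_iff (pow_ne_zero n hπ0)).mpr fun i => ?_⟩
  have h1 : ModularCurve.coeffMap mk (s₀ * t₀ - 1) = 0 := by
    rw [map_sub, map_mul, map_one, ht₀, hv, sub_self]
  have h2 : mk ((s₀ * t₀ - 1).coeff i) = 0 := by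
    rw [← ModularCurve.coeffMap_coeff, h1, HahnSeries.coeff_zero]
  rw [Ideal.Quotient.eq_zero_iff_mem, Ideal.mem_span_singleton] at h2
  obtain ⟨a, ha⟩ := h2
  refine ⟨a, a.2, ?_⟩
  rw [← map_mul, ← map_one e, ← map_sub, hcoe, ha]
  rfl

/-- A series with a unit coefficient can be cancelled modulo `π ^ n`. -/
theorem serDvd_of_mul (hp : p.Prime) {π : ℂ} (hπ : π ∈ P.maxIdeal) (hπ0 : π ≠ 0) (n : ℕ)
    {s x : LaurentSeries ℂ} (hs : s ∈ serIn P.A) (hu : P.HasUnitCoeff s) (hx : x ∈ serIn P.A)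
    (h : P.SerDvd (π ^ n) (s * x)) : P.SerDvd (π ^ n) x := by
  obtain ⟨t, ht, hst⟩ := P.exists_serDvd_inv hp hπ hπ0 n hs hu
  have : x = t * (s * x) - x * (s * t - 1) := by ring
  rw [this]
  exact (h.mul_left ht).sub (hst.mul_left hx)

end Fermat.Agent.DS.G1.PlaceRing
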