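import Fermat.Agent.DS.G1.Core.Coord
import Fermat.Agent.DS.G1.Core.PlaceLemmas

/-!
# Algebraisation of series approximated by level `r` families modulo all powers of `π`
-/

set_option autoImplicit false

noncomputable section

open Polynomial

namespace Fermat.Agent.DS.G1.BaseSys

variable {r N : ℕ} [NeZero N] (B : BaseSys r N) {p : ℕ} {P : PlaceRing p}

/-! ### Power series -/

theorem mem_psIn_iff {S : Subring ℂ} {f : PowerSeries ℂ} :
    f ∈ psIn S ↔ ∀ k, PowerSeries.coeff k f ∈ S := by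
  constructor
  · rintro ⟨g, rfl⟩ k
    rw [PowerSeries.coeff_map]
    exact (PowerSeries.coeff k g).2
  · exact fun h => ⟨PowerSeries.mk fun k => ⟨_, h k⟩, by ext k; simp⟩

theorem taylorAt_mem_psIn {S : Subring ℂ} {β : ℂ} (hβ : β ∈ S) {Q : ℂ[X]} (hQ : Q ∈ polyIn S) :
    taylorAt β Q ∈ psIn S := by
  have h : Polynomial.taylor β Q ∈ polyIn S := by
    obtain ⟨Q₀, rfl⟩ := hQ
    exact ⟨Q₀.comp (X + C ⟨β, hβ⟩), by simp [Polynomial.map_comp, taylor_apply]⟩
  exact mem_psIn_iff.mpr fun k => by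
    rw [taylorAt, Polynomial.coeff_coe]
    exact mem_polyIn.mp h k

theorem taylorAt_mul' (β : ℂ) (Q R : ℂ[X]) :
    taylorAt β (Q * R) = taylorAt β Q * taylorAt β R := by
  rw [taylorAt, taylor_mul, Polynomial.coe_mul]; rfl

theorem taylorAt_add' (β : ℂ) (Q R : ℂ[X]) :
    taylorAt β (Q + R) = taylorAt β Q + taylorAt β R := by
  rw [taylorAt, map_add, Polynomial.coe_add]; rfl

theorem taylorAt_C' (β c : ℂ) : taylorAt β (C c) = PowerSeries.C c := by
  rw [taylorAt, taylor_C, Polynomial.coe_C]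

theorem taylorAt_linear (β' β : ℂ) :
    taylorAt β' (X - C β) = PowerSeries.X + PowerSeries.C (β' - β) := by
  rw [taylorAt, map_sub, taylor_X, taylor_C, add_sub_assoc, ← C_sub, Polynomial.coe_add,
    Polynomial.coe_X, Polynomial.coe_C]

/-- Divisibility of power series among those with coefficients in `A`. -/
def PsDvd (P : PlaceRing p) (c : ℂ) (x : PowerSeries ℂ) : Prop :=
  ∀ k, ∃ a ∈ P.A, PowerSeries.coeff k x = c * a

theorem psDvd_iff {c : ℂ} {x : PowerSeries ℂ} :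
    PsDvd P c x ↔ ∃ y ∈ psIn P.A, x = PowerSeries.C c * y := by
  constructor
  · intro h
    choose f hf hx using h
    exact ⟨PowerSeries.mk f, mem_psIn_iff.mpr (by simpa using hf), by ext k; simp [hx]⟩
  · rintro ⟨y, hy, rfl⟩ k
    exact ⟨_, mem_psIn_iff.mp hy k, PowerSeries.coeff_C_mul _ _ _⟩

/-- `t + ν` is a nonzerodivisor modulo powers of `π`. -/
theorem psDvd_cancel (hp : p.Prime) {c ν : ℂ} (hc : c ∈ P.A) (hc0 : c ≠ 0) (hν : ν ∈ P.A)
    {x : PowerSeries ℂ} (hx : x ∈ psIn P.A)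
    (h : PsDvd P c ((PowerSeries.X + PowerSeries.C ν) * x)) : PsDvd P c x := by
  have hrec : ∀ k, ∃ a ∈ P.A,
      PowerSeries.coeff k x + ν * PowerSeries.coeff (k + 1) x = c * a := fun k => by
    obtain ⟨a, ha, hk⟩ := h (k + 1)
    exact ⟨a, ha, by rwa [add_mul, map_add, PowerSeries.coeff_succ_X_mul,
      PowerSeries.coeff_C_mul] at hk⟩
  by_cases hu : ν ∈ P.maxIdeal
  · obtain ⟨j, d, hd, hj⟩ := P.exists_dvd_pow hp hu hc hc0
    have key : ∀ (i k : ℕ), ∃ a ∈ P.A,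
        PowerSeries.coeff k x = c * a + (-ν) ^ i * PowerSeries.coeff (k + i) x := by
      intro i
      induction i with
      | zero => exact fun k => ⟨0, zero_mem _, by simp⟩
      | succ i ih =>
        intro k
        obtain ⟨a, ha, hk⟩ := ih k
        obtain ⟨b, hb, hki⟩ := hrec (k + i)
        refine ⟨a + (-ν) ^ i * b, add_mem ha (mul_mem (pow_mem (neg_mem hν) i) hb), ?_⟩
        rw [hk, ← add_assoc k i 1, pow_succ]
        linear_combination (-ν) ^ i * hki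
    intro k
    obtain ⟨a, ha, hk⟩ := key j k
    refine ⟨a + (-1) ^ j * d * PowerSeries.coeff (k + j) x, add_mem ha
      (mul_mem (mul_mem (pow_mem (neg_mem (one_mem _)) j) hd) (mem_psIn_iff.mp hx _)), ?_⟩
    rw [hk, neg_pow, hj]
    ring
  · have hν0 := P.ne_zero_of_not_mem hu
    have hinv := P.inv_mem_of_not_mem hν hu
    intro k
    induction k with
    | zero =>
      obtain ⟨a, ha, hk⟩ := h 0
      rw [add_mul, map_add, PowerSeries.coeff_zero_X_mul, zero_add, PowerSeries.coeff_C_mul] at hk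
      exact ⟨ν⁻¹ * a, mul_mem hinv ha, by
        rw [mul_left_comm, eq_inv_mul_iff_mul_eq₀ hν0, hk]⟩
    | succ k ih =>
      obtain ⟨a, ha, hk⟩ := hrec k
      obtain ⟨b, hb, hkb⟩ := ih
      exact ⟨ν⁻¹ * (a - b), mul_mem hinv (sub_mem ha hb), by
        rw [mul_left_comm, eq_inv_mul_iff_mul_eq₀ hν0]
        linear_combination hk - hkb⟩

/-! ### Series of polynomials in `b` -/

/-- The series of `Q(b_w)`. -/
def evbSer (w : PrimVec r) : ℂ[X] →+* LaurentSeries ℂ := (famExp w).comp B.evb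

theorem evbSer_C (w : PrimVec r) (c : ℂ) : B.evbSer w (C c) = HahnSeries.C c := by
  rw [evbSer, RingHom.comp_apply, evb_C, famExp_famConst]

theorem evbSer_mem (hS : zetaRing N ≤ P.A) (w : PrimVec r) {Q : ℂ[X]} (hQ : Q ∈ polyIn P.A) :
    B.evbSer w Q ∈ serIn P.A :=
  mem_serIn.mpr (mem_intFam.mp (B.repRing_le hS (B.evb_mem_repRing hQ)) w)

theorem jS_mul_evbSer_dP (w : PrimVec r) :
    jS N * B.evbSer w B.dP = B.evbSer w (B.c4P ^ 3) := by
  have h : jFam r N * B.evb B.dP = B.evb (B.c4P ^ 3) := by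
    rw [B.jFam_eq, mul_assoc, mul_comm B.dInv, evb_dP_mul_dInv, mul_one]
  rw [jS, ← famExp_jFam w, evbSer, RingHom.comp_apply, RingHom.comp_apply, ← map_mul, h]

theorem serMul_mem_maxIdeal {x y : LaurentSeries ℂ} (hx : x ∈ serIn P.A)
    (hy : ∀ i, y.coeff i ∈ P.maxIdeal) (i : ℤ) : (x * y).coeff i ∈ P.maxIdeal := by
  rw [HahnSeries.coeff_mul]
  exact P.sum_mem_maxIdeal _ fun ij _ => P.mul_mem_maxIdeal (mem_serIn.mp hx _) (hy _)

/-- `b_w - β` has a unit coefficient unless `Δ(β)` is in the maximal ideal. -/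
theorem hasUnitCoeff_linear (hS : zetaRing N ≤ P.A) (w : PrimVec r) {β : ℂ} (hβ : β ∈ P.A)
    (hd : B.dP.eval β ∉ P.maxIdeal) : P.HasUnitCoeff (B.evbSer w (X - C β)) := by
  by_contra hu
  have hy : ∀ i, (B.evbSer w (X - C β)).coeff i ∈ P.maxIdeal := fun i => by
    by_contra h
    exact hu ⟨i, h⟩
  have hlin : X - C β ∈ polyIn P.A := sub_mem X_mem_polyIn (C_mem_polyIn hβ)
  have hQ : ∀ Q ∈ polyIn P.A, ∀ i,
      (B.evbSer w Q - HahnSeries.C (Q.eval β)).coeff i ∈ P.maxIdeal := fun Q hQ i => by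
    have e : B.evbSer w Q - HahnSeries.C (Q.eval β) =
        B.evbSer w (Q /ₘ (X - C β)) * B.evbSer w (X - C β) := by
      rw [← B.evbSer_C w, ← map_sub, ← map_mul, mul_comm]
      refine congrArg _ (sub_eq_iff_eq_add.mpr ?_)
      rw [← modByMonic_X_sub_C_eq_C_eval, add_comm, modByMonic_add_div]
    rw [e]
    exact serMul_mem_maxIdeal
      (B.evbSer_mem hS w (divByMonic_mem_polyIn hQ hlin (monic_X_sub_C β)).1) hy i
  have hN : (-((N : ℤ) * (1 : ℕ))) ≠ 0 := by simp [NeZero.ne N]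
  have key : jS N * HahnSeries.C (B.dP.eval β) =
      HahnSeries.C ((B.c4P ^ 3).eval β) +
        (B.evbSer w (B.c4P ^ 3) - HahnSeries.C ((B.c4P ^ 3).eval β)) -
        jS N * (B.evbSer w B.dP - HahnSeries.C (B.dP.eval β)) := by
    linear_combination (B.jS_mul_evbSer_dP w)
  have h := congrArg (fun s : LaurentSeries ℂ => s.coeff (-((N : ℤ) * (1 : ℕ)))) key
  simp only [HahnSeries.coeff_sub, HahnSeries.coeff_add] at h
  rw [mul_comm, HahnSeries.C_mul_eq_smul, HahnSeries.coeff_smul,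
    show (jS N).coeff (-((N : ℤ) * (1 : ℕ))) = 1 by
      simpa using (hasLead_jS_pow (N := N) 1).coeff_eq,
    HahnSeries.C_apply, HahnSeries.coeff_single_of_ne hN, smul_eq_mul, mul_one, zero_add,
    sub_zero] at h
  refine hd (h ▸ P.sub_mem_maxIdeal ?_ (serMul_mem_maxIdeal (jS_mem _)
    (hQ _ B.dP_mem_polyIn) _))
  have := hQ _ (pow_mem (B.c4P_mem_polyIn (S := P.A)) 3) (-((N : ℤ) * (1 : ℕ)))
  rwa [HahnSeries.coeff_sub, HahnSeries.C_apply, HahnSeries.coeff_single_of_ne hN, sub_zero] at this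

/-! ### Removing factors of the denominator -/

/-- Approximation of `a` by `T(b) / (S Δ^m)(b)` modulo `c`, regular at the roots of `s`. -/
def SApprox (P : PlaceRing p) (a : PrimVec r → LaurentSeries ℂ) (s : ℂ[X]) (c : ℂ)
    (S : ℂ[X]) : Prop :=
  ∃ (m : ℕ) (T : ℂ[X]), T ∈ polyIn P.A ∧
    (∀ w, P.SerDvd c (B.evbSer w (S * B.dP ^ m) * a w - B.evbSer w T)) ∧
    ∀ β ∈ P.A, s.eval β = 0 → B.dP.eval β ≠ 0 → (B.dP.eval β)⁻¹ ∈ P.A →
      ∃ g ∈ psIn P.A, PsDvd P c (taylorAt β (S * B.dP ^ m) * g - taylorAt β T)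

/-- `F` can be removed from the denominator. -/
def Removable (P : PlaceRing p) (a : PrimVec r → LaurentSeries ℂ) (s : ℂ[X]) (c : ℂ)
    (F : ℂ[X]) : Prop :=
  F ∈ polyIn P.A ∧ ∀ S ∈ polyIn P.A, B.SApprox P a s c (F * S) → B.SApprox P a s c S

variable {a : PrimVec r → LaurentSeries ℂ} {s : ℂ[X]} {c : ℂ}

theorem removable_one : B.Removable P a s c 1 :=
  ⟨one_mem _, fun S _ h => by rwa [one_mul] at h⟩

variable {B} in
theorem Removable.mul {F G : ℂ[X]} (hF : B.Removable P a s c F) (hG : B.Removable P a s c G) :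
    B.Removable P a s c (F * G) :=
  ⟨mul_mem hF.1 hG.1,
    fun S hS h => hG.2 S hS (hF.2 (G * S) (mul_mem hG.1 hS) (by rwa [← mul_assoc]))⟩

variable {B} in
theorem Removable.pow {F : ℂ[X]} (hF : B.Removable P a s c F) (e : ℕ) :
    B.Removable P a s c (F ^ e) := by
  induction e with
  | zero => rw [pow_zero]; exact B.removable_one
  | succ e ih => rw [pow_succ]; exact ih.mul hF

/-- Factors dividing a power of `Δ` modulo `c`. -/
theorem removable_of_inv (hS : zetaRing N ≤ P.A) (ha : ∀ w, a w ∈ serIn P.A) {F U W : ℂ[X]}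
    {k : ℕ} (hF : F ∈ polyIn P.A) (hU : U ∈ polyIn P.A) (hW : W ∈ polyIn P.A)
    (h : F * U = B.dP ^ k + C c * W) : B.Removable P a s c F := by
  refine ⟨hF, fun S hS' => ?_⟩
  rintro ⟨m, T, hT, hser, hloc⟩
  have hV : W * S * B.dP ^ m ∈ polyIn P.A :=
    mul_mem (mul_mem hW hS') (pow_mem B.dP_mem_polyIn m)
  have e : S * B.dP ^ (m + k) = U * (F * S * B.dP ^ m) + C c * -(W * S * B.dP ^ m) := by
    rw [pow_add]
    linear_combination (-(S * B.dP ^ m)) * h
  refine ⟨m + k, U * T, mul_mem hU hT, fun w => ?_, fun β hβ hs hne hd => ?_⟩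
  · rw [e, map_add, map_mul, map_mul _ (C c), evbSer_C, map_mul _ U T,
      show (B.evbSer w U * B.evbSer w (F * S * B.dP ^ m) +
          HahnSeries.C c * B.evbSer w (-(W * S * B.dP ^ m))) * a w -
          B.evbSer w U * B.evbSer w T =
        B.evbSer w U * (B.evbSer w (F * S * B.dP ^ m) * a w - B.evbSer w T) +
          HahnSeries.C c * (B.evbSer w (-(W * S * B.dP ^ m)) * a w) by ring]
    exact ((hser w).mul_left (B.evbSer_mem hS w hU)).add
      (P.serDvd_const_mul c (mul_mem (B.evbSer_mem hS w (neg_mem hV)) (ha w)))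
  · obtain ⟨g, hg, hgd⟩ := hloc β hβ hs hne hd
    obtain ⟨y, hy, hy'⟩ := psDvd_iff.mp hgd
    refine ⟨g, hg, psDvd_iff.mpr ⟨taylorAt β U * y + taylorAt β (-(W * S * B.dP ^ m)) * g,
      add_mem (mul_mem (taylorAt_mem_psIn hβ hU) hy)
        (mul_mem (taylorAt_mem_psIn hβ (neg_mem hV)) hg), ?_⟩⟩
    rw [e, taylorAt_add', taylorAt_mul' β U, taylorAt_mul' β (C c), taylorAt_C', taylorAt_mul' β U T]
    linear_combination taylorAt β U * hy'

theorem removable_C (hS : zetaRing N ≤ P.A) (ha : ∀ w, a w ∈ serIn P.A) {u : ℂ} (hu : u ∈ P.A)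
    (hu' : u ∉ P.maxIdeal) : B.Removable P a s c (C u) :=
  B.removable_of_inv hS ha (k := 0) (U := C u⁻¹) (W := 0) (C_mem_polyIn hu)
    (C_mem_polyIn (P.inv_mem_of_not_mem hu hu')) (zero_mem _)
    (by rw [← C_mul, mul_inv_cancel₀ (P.ne_zero_of_not_mem hu'), C_1, mul_zero, add_zero, pow_zero])

theorem removable_one_sub (hS : zetaRing N ≤ P.A) (ha : ∀ w, a w ∈ serIn P.A) (hp : p.Prime)
    (hc : c ∈ P.A) (hc0 : c ≠ 0) {γ : ℂ} (hγ : γ ∈ P.maxIdeal) :
    B.Removable P a s c (1 - C γ * X) := by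
  obtain ⟨k, d, hd, hk⟩ := P.exists_dvd_pow hp hγ hc hc0
  have hX : C γ * X ∈ polyIn P.A := mul_mem (C_mem_polyIn hγ.1) X_mem_polyIn
  refine B.removable_of_inv hS ha (k := 0) (U := ∑ i ∈ Finset.range k, (C γ * X) ^ i)
    (W := -(C d * X ^ k)) (sub_mem (one_mem _) hX) (sum_mem fun i _ => pow_mem hX i)
    (neg_mem (mul_mem (C_mem_polyIn hd) (pow_mem X_mem_polyIn k))) ?_
  rw [mul_neg_geom_sum, mul_pow, ← C_pow, hk, C_mul, pow_zero]
  ring

theorem removable_linear (hS : zetaRing N ≤ P.A) (ha : ∀ w, a w ∈ serIn P.A) (hp : p.Prime)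
    {π : ℂ} (hπ : π ∈ P.maxIdeal) (hπ0 : π ≠ 0) (n : ℕ) {β : ℂ} (hβ : β ∈ P.A)
    (hsβ : s.eval β = 0) : B.Removable P a s (π ^ n) (X - C β) := by
  have hc : π ^ n ∈ P.A := pow_mem hπ.1 n
  have hc0 : π ^ n ≠ 0 := pow_ne_zero n hπ0
  have hlin : X - C β ∈ polyIn P.A := sub_mem X_mem_polyIn (C_mem_polyIn hβ)
  by_cases hd : B.dP.eval β ∈ P.maxIdeal
  · obtain ⟨j, d, hdA, hj⟩ := P.exists_dvd_pow hp hd hc hc0
    refine B.removable_of_inv hS ha (k := j) (U := B.dP ^ j /ₘ (X - C β)) (W := -C d) hlin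
      (divByMonic_mem_polyIn (pow_mem B.dP_mem_polyIn j) hlin (monic_X_sub_C β)).1
      (neg_mem (C_mem_polyIn hdA)) ?_
    have h := modByMonic_add_div (B.dP ^ j) (X - C β)
    rw [modByMonic_X_sub_C_eq_C_eval, eval_pow, hj, C_mul] at h
    linear_combination h
  refine ⟨hlin, fun S hS' => ?_⟩
  rintro ⟨m, T, hT, hser, hloc⟩
  have hd' : (B.dP.eval β)⁻¹ ∈ P.A :=
    P.inv_mem_of_not_mem (eval_mem_of_polyIn B.dP_mem_polyIn hβ) hd
  obtain ⟨g, hg, hgd⟩ := hloc β hβ hsβ (P.ne_zero_of_not_mem hd) hd'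
  obtain ⟨x, hx, hx0⟩ := hgd 0
  -- `T(β)` is divisible
  have hTβ : T.eval β = π ^ n * -x := by
    rw [mul_assoc, taylorAt_mul', taylorAt_linear, sub_self, map_zero, add_zero, map_sub,
      mul_assoc, PowerSeries.coeff_zero_X_mul, taylorAt, Polynomial.coeff_coe,
      taylor_coeff_zero] at hx0
    linear_combination -hx0
  set T' := T /ₘ (X - C β)
  have hT' : T' ∈ polyIn P.A := (divByMonic_mem_polyIn hT hlin (monic_X_sub_C β)).1
  have hTe : T = C (π ^ n) * C (-x) + (X - C β) * T' := by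
    rw [← C_mul, ← hTβ, ← modByMonic_X_sub_C_eq_C_eval, modByMonic_add_div]
  refine ⟨m, T', hT', fun w => ?_, fun β' hβ' hs' hne' hd'' => ?_⟩
  · refine P.serDvd_of_mul hp hπ hπ0 n (B.evbSer_mem hS w hlin)
      (B.hasUnitCoeff_linear hS w hβ hd)
      (sub_mem (mul_mem (B.evbSer_mem hS w (mul_mem hS' (pow_mem B.dP_mem_polyIn m))) (ha w))
        (B.evbSer_mem hS w hT')) ?_
    have h := (hser w).add (P.serDvd_const_mul (π ^ n) (B.evbSer_mem hS w (C_mem_polyIn (neg_mem hx))))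
    rw [mul_assoc, map_mul _ (X - C β), hTe, map_add, map_mul _ (C (π ^ n)), evbSer_C,
      map_mul _ (X - C β) T'] at h
    convert h using 1
    ring
  · obtain ⟨g', hg', hgd'⟩ := hloc β' hβ' hs' hne' hd''
    obtain ⟨y, hy, hy'⟩ := psDvd_iff.mp hgd'
    refine ⟨g', hg', psDvd_cancel hp hc hc0 (sub_mem hβ' hβ)
      (sub_mem (mul_mem (taylorAt_mem_psIn hβ' (mul_mem hS' (pow_mem B.dP_mem_polyIn m))) hg')
        (taylorAt_mem_psIn hβ' hT'))
      (psDvd_iff.mpr ⟨y + PowerSeries.C (-x), add_mem hy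
        (mem_psIn_iff.mpr fun k => by
          rw [PowerSeries.coeff_C]; split_ifs
          · exact neg_mem hx
          · exact zero_mem _), ?_⟩)⟩
    rw [mul_assoc, taylorAt_mul' β' (X - C β), hTe, taylorAt_add', taylorAt_mul' β' (C (π ^ n)),
      taylorAt_C', taylorAt_C', taylorAt_mul' β' (X - C β) T', taylorAt_linear] at hy'
    linear_combination hy'

/-- The splitting of a product of linear factors. -/
theorem exists_split_prod (hS : zetaRing N ≤ P.A) (ha : ∀ w, a w ∈ serIn P.A) (hp : p.Prime)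
    {π : ℂ} (hπ : π ∈ P.maxIdeal) (hπ0 : π ≠ 0) (n : ℕ) (R : Multiset ℂ)
    (halg : ∀ β ∈ R, IsAlgebraic ℚ β) (hroot : ∀ β ∈ R, s.eval β = 0) :
    ∃ (c₀ : ℂ) (Q : ℂ[X]), (R.map fun β => X - C β).prod = C c₀ * Q ∧
      B.Removable P a s (π ^ n) Q ∧ ∃ k, Q.coeff k ∉ P.maxIdeal := by
  classical
  induction R using Multiset.induction with
  | empty => exact ⟨1, 1, by simp, B.removable_one, 0, by simpa using P.one_not_mem_maxIdeal⟩
  | cons β R ih =>
    obtain ⟨c₀, Q, hQ, hrem, k₁, hk₁⟩ := ih (fun x hx => halg x (Multiset.mem_cons_of_mem hx))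
      (fun x hx => hroot x (Multiset.mem_cons_of_mem hx))
    rw [Multiset.map_cons, Multiset.prod_cons, hQ]
    have hQA := mem_polyIn.mp hrem.1
    by_cases hβ : β ∈ P.A
    · refine ⟨c₀, (X - C β) * Q, by ring,
        (B.removable_linear hS ha hp hπ hπ0 n hβ (hroot β (Multiset.mem_cons_self _ _))).mul hrem, ?_⟩
      set E := Q.support.filter fun k => Q.coeff k ∉ P.maxIdeal
      have hE : E.Nonempty := ⟨k₁, Finset.mem_filter.mpr ⟨mem_support_iff.mpr
        (P.ne_zero_of_not_mem hk₁), hk₁⟩⟩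
      refine ⟨E.max' hE + 1, ?_⟩
      have hmax := (Finset.mem_filter.mp (E.max'_mem hE)).2
      have hnext : Q.coeff (E.max' hE + 1) ∈ P.maxIdeal := by
        by_contra h
        have := E.le_max' _ (Finset.mem_filter.mpr
          ⟨mem_support_iff.mpr (P.ne_zero_of_not_mem h), h⟩)
        omega
      rw [sub_mul, coeff_sub, coeff_X_mul, coeff_C_mul, sub_eq_add_neg]
      exact P.add_not_mem_maxIdeal hmax (P.neg_mem_maxIdeal (P.mul_mem_maxIdeal hβ hnext))
    · have hβ0 : β ≠ 0 := fun h => hβ (h ▸ zero_mem _)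
      have hγA : β⁻¹ ∈ P.A := (P.total β (halg β (Multiset.mem_cons_self _ _))).resolve_left hβ
      have hγ : β⁻¹ ∈ P.maxIdeal := ⟨hγA, Or.inr (by rwa [inv_inv])⟩
      refine ⟨-β * c₀, (1 - C β⁻¹ * X) * Q, ?_,
        (B.removable_one_sub hS ha hp (pow_mem hπ.1 n) (pow_ne_zero n hπ0) hγ).mul hrem, ?_⟩
      · have h1 : C β * C β⁻¹ = (1 : ℂ[X]) := by rw [← C_mul, mul_inv_cancel₀ hβ0, C_1]
        rw [C_mul, C_neg]
        linear_combination (-(C c₀ * X * Q)) * h1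
      · have hex : ∃ k, Q.coeff k ∉ P.maxIdeal := ⟨k₁, hk₁⟩
        have hk : Q.coeff (Nat.find hex) ∉ P.maxIdeal := Nat.find_spec hex
        generalize Nat.find hex = k₀ at hk
        refine ⟨k₀, ?_⟩
        rw [sub_mul, one_mul, coeff_sub, mul_assoc, coeff_C_mul, sub_eq_add_neg]
        refine P.add_not_mem_maxIdeal hk (P.neg_mem_maxIdeal ?_)
        rw [mul_comm]
        refine P.mul_mem_maxIdeal ?_ hγ
        rcases k₀ with _ | k₀
        · simp
        · rw [coeff_X_mul]; exact hQA _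

/-- A primitive polynomial over `A` can be removed. -/
theorem removable_of_primitive (hS : zetaRing N ≤ P.A) (ha : ∀ w, a w ∈ serIn P.A) (hp : p.Prime)
    {π : ℂ} (hπ : π ∈ P.maxIdeal) (hπ0 : π ≠ 0) (n : ℕ) (hs : s ∈ polyIn P.A)
    (hs0 : ∃ k, s.coeff k ∉ P.maxIdeal) : B.Removable P a s (π ^ n) s := by
  obtain ⟨k₀, hk₀⟩ := hs0
  have hsne : s ≠ 0 := fun h => hk₀ (by rw [h, coeff_zero]; exact P.zero_mem_maxIdeal)
  have halg : ∀ β ∈ s.roots, IsAlgebraic ℚ β := by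
    exact fun β hβ => P.isAlgebraic_root (mem_polyIn.mp hs) hsne ((mem_roots hsne).mp hβ)
  obtain ⟨c₀, Q, hQ, hrem, k, hk⟩ := B.exists_split_prod hS ha hp hπ hπ0 n s.roots halg
    fun β hβ => (mem_roots hsne).mp hβ
  have hsQ : s = C (s.leadingCoeff * c₀) * Q := by
    rw [C_mul, mul_assoc, ← hQ]
    exact Splits.eq_prod_roots (IsAlgClosed.splits s)
  set u := s.leadingCoeff * c₀
  have hsk : ∀ i, s.coeff i = u * Q.coeff i := fun i => by
    conv_lhs => rw [hsQ, coeff_C_mul]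
  have hu : u ∈ P.A := by
    have : u = s.coeff k * (Q.coeff k)⁻¹ := by
      rw [hsk, mul_inv_cancel_right₀ (P.ne_zero_of_not_mem hk)]
    rw [this]
    exact mul_mem (mem_polyIn.mp hs k) (P.inv_mem_of_not_mem (mem_polyIn.mp hrem.1 k) hk)
  have hu' : u ∉ P.maxIdeal := fun h => hk₀ (by
    rw [hsk, mul_comm]; exact P.mul_mem_maxIdeal (mem_polyIn.mp hrem.1 k₀) h)
  have := (B.removable_C hS ha (s := s) (c := π ^ n) hu hu').mul hrem
  rwa [← hsQ] at this

/-! ### The algebraisation -/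

/-- The family `Q(j)`. -/
def jEval (Q : ℂ[X]) : Fam r N := Q.eval₂ (famConst r N) (jFam r N)

omit B in
theorem famExp_jEval (Q : ℂ[X]) (v : PrimVec r) : famExp v (jEval (r := r) (N := N) Q) = evJS N Q := by
  rw [jEval, Polynomial.hom_eval₂, evJS, Polynomial.coe_eval₂RingHom, famExp_jFam]
  congr 1
  exact RingHom.ext fun c => famExp_famConst c v

/-- Series `a w` that are, after multiplication by powers of `s`, congruent to polynomials in `b`
modulo every power of `π`, and regular at the zeros of `s`, become a level `r` family after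
multiplication by `relDeriv`. -/
theorem exists_fam_of_congr {p : ℕ} (hp : p.Prime) (P : PlaceRing p) (hS : zetaRing N ≤ P.A)
    {π : ℂ} (hπ : π ∈ P.maxIdeal) (hπ0 : π ≠ 0)
    (a : PrimVec r → LaurentSeries ℂ) (ha : ∀ w, a w ∈ serIn P.A)
    {s : ℂ[X]} (hs : s ∈ polyIn P.A) (hs0 : ∃ k, s.coeff k ∉ P.maxIdeal)
    (h : ∀ n : ℕ, ∃ (e m : ℕ) (T : ℂ[X]), T ∈ polyIn P.A ∧
      (∀ w, P.SerDvd (π ^ n) (famExp w (B.evb (s ^ e * B.dP ^ m)) * a w - famExp w (B.evb T))) ∧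
      ∀ β ∈ P.A, s.eval β = 0 → B.dP.eval β ≠ 0 → (B.dP.eval β)⁻¹ ∈ P.A →
        ∃ g ∈ psIn P.A, ∀ k, ∃ c ∈ P.A,
          PowerSeries.coeff k (taylorAt β (s ^ e * B.dP ^ m) * g - taylorAt β T) = π ^ n * c) :
    ∃ G ∈ intFam r N P.A, ∀ w, famExp w G = famExp w B.relDeriv * a w := by
  have := B.neZero_r
  -- approximations by families
  have happ : ∀ n, ∃ Y ∈ intFam r N P.A, ∀ w, P.SerDvd (π ^ n) (a w - famExp w Y) := by
    intro n
    obtain ⟨e, m₀, T₀, hT₀, hser₀, hloc₀⟩ := h n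
    obtain ⟨m, T, hT, hser, -⟩ :=
      ((B.removable_of_primitive hS ha hp hπ hπ0 n hs hs0).pow e).2 1 (one_mem _)
        ⟨m₀, T₀, hT₀, fun w => by rw [mul_one]; exact hser₀ w,
          fun β hβ hb hne hd => by rw [mul_one]; exact hloc₀ β hβ hb hne hd⟩
    have hD := intFam_mono hS B.dInv_mem_intFam
    refine ⟨B.evb T * B.dInv ^ m,
      mul_mem (B.repRing_le hS (B.evb_mem_repRing hT)) (pow_mem hD m), fun w => ?_⟩
    have h1 := (hser w).mul_left (mem_serIn.mpr (mem_intFam.mp (pow_mem hD m) w))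
    have h2 : famExp w (B.dInv ^ m) * B.evbSer w (B.dP ^ m) = 1 := by
      rw [evbSer, RingHom.comp_apply, ← map_mul, map_pow, ← mul_pow, mul_comm,
        evb_dP_mul_dInv, one_pow, map_one]
    convert h1 using 1
    rw [one_mul, map_mul, mul_sub, ← mul_assoc, h2, one_mul]
    show a w - famExp w (B.evb T) * _ = a w - _ * famExp w (B.evb T)
    ring
  choose Y hY hYa using happ
  have hbS : B.b ∈ intFam r N P.A := intFam_mono hS B.b_mem
  have hbser : ∀ w, famExp w B.b ∈ serIn P.A := fun w => mem_serIn.mpr (mem_intFam.mp hbS w)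
  -- power sums
  let cs : ℕ → LaurentSeries ℂ := fun i => ∑ w ∈ B.half, a w * famExp w B.b ^ i
  have hcs : ∀ i, cs i ∈ serIn P.A :=
    fun i => sum_mem fun w _ => mul_mem (ha w) (pow_mem (hbser w) i)
  have hdiff : ∀ i n (z : PrimVec 1),
      P.SerDvd (π ^ n) (cs i - famExp z (B.halfTrace (Y n * B.b ^ i))) := fun i n z => by
    rw [famExp_halfTrace, ← Finset.sum_sub_distrib]
    refine P.serDvd_sum _ _ fun w _ => ?_
    rw [map_mul, map_pow, ← sub_mul, mul_comm]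
    exact (hYa n w).mul_left (pow_mem (hbser w) i)
  have hpoly : ∀ i, ∃ Q : ℂ[X], (∀ k, Q.coeff k ∈ P.A) ∧ cs i = evJS N Q := fun i => by
    refine exists_evJS_of_forall_congr hπ.1 (fun x hx => P.eq_zero_of_forall_dvd hp hπ hx) (hcs i)
      fun n => ?_
    obtain ⟨Q, hQ, -, hQe⟩ := exists_evJS_eq (B.halfTrace (Y n * B.b ^ i)) (base 1)
      (B.halfTrace_mem hS (mul_mem (hY n) (pow_mem hbS i)) _)
    exact ⟨Q, hQ, by rw [← hQe]; exact hdiff i n (base 1)⟩
  choose Pi hPi hcsPi using hpoly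
  let coef : ℕ → Fam r N := fun k =>
    famConst r N ((B.c4P ^ 3).coeff k) - jFam r N * famConst r N (B.dP.coeff k)
  set D := (B.c4P ^ 3).natDegree + B.dP.natDegree + 1
  have hconst : ∀ x ∈ P.A, famConst r N x ∈ intFam r N P.A :=
    fun x hx => B.repRing_le hS (B.const_mem_repRing hx)
  have hj : jFam r N ∈ intFam r N P.A := B.repRing_le hS B.jFam_mem_repRing
  have hcoef : ∀ k, coef k ∈ intFam r N P.A := fun k =>
    sub_mem (hconst _ (mem_polyIn.mp (pow_mem B.c4P_mem_polyIn 3) k))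
      (mul_mem hj (hconst _ (mem_polyIn.mp B.dP_mem_polyIn k)))
  refine ⟨∑ k ∈ Finset.range D, coef k * ∑ i ∈ Finset.range k, B.b ^ i * jEval (Pi (k - 1 - i)),
    sum_mem fun k _ => mul_mem (hcoef k) (sum_mem fun i _ => mul_mem (pow_mem hbS i) ?_),
    fun w => ?_⟩
  · exact mem_intFam.mpr fun v => mem_serIn.mp (by rw [famExp_jEval]; exact evJS_mem (hPi _))
  have hrel : B.relDeriv ∈ intFam r N P.A := by
    have hder : ∀ {Q : ℂ[X]}, Q ∈ polyIn P.A → B.evb (derivative Q) ∈ intFam r N P.A := fun hQ => by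
      obtain ⟨Q₀, rfl⟩ := hQ
      exact B.repRing_le hS (B.evb_mem_repRing ⟨derivative Q₀, (derivative_map Q₀ _).symm⟩)
    exact sub_mem (hder (pow_mem B.c4P_mem_polyIn 3)) (mul_mem hj (hder B.dP_mem_polyIn))
  refine sub_eq_zero.mp (P.series_eq_zero hp hπ hπ0 (sub_mem ?_
    (mul_mem (mem_serIn.mpr (mem_intFam.mp hrel w)) (ha w))) fun n => ?_)
  · simp only [map_sum, map_mul, map_pow, famExp_jEval]
    exact sum_mem fun k _ => mul_mem (mem_serIn.mpr (mem_intFam.mp (hcoef k) w))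
      (sum_mem fun i _ => mul_mem (pow_mem (hbser w) i) (evJS_mem (hPi _)))
  have hkey := congrArg (famExp w) (B.derivative_mul_eq (Y n))
  have h3 : P.SerDvd (π ^ n) (famExp w B.relDeriv * (a w - famExp w (Y n))) :=
    (hYa n w).mul_left (mem_serIn.mpr (mem_intFam.mp hrel w))
  rw [map_mul] at hkey
  rw [mul_sub, relDeriv, hkey, ← relDeriv] at h3
  refine P.serDvd_sub_trans ?_ h3
  simp only [map_sum, map_mul, map_pow, Finset.mul_sum, D, coef]
  rw [← Finset.sum_sub_distrib]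
  refine P.serDvd_sum _ _ fun k _ => ?_
  rw [← Finset.sum_sub_distrib]
  refine P.serDvd_sum _ _ fun i _ => ?_
  rw [famExp_jEval, ← hcsPi, famExp_famPull, ← mul_sub, ← mul_sub]
  exact ((hdiff _ n _).mul_left (pow_mem (hbser w) i)).mul_left
    (mem_serIn.mpr (mem_intFam.mp (hcoef k) w))

end Fermat.Agent.DS.G1.BaseSys
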