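import Fermat.Agent.DS.G1.BaseSys
import Fermat.Agent.DS.G1.LevelOne
import Mathlib.Analysis.Analytic.Order
import Mathlib.Algebra.Polynomial.Roots

/-!
# The level `r` coordinate: relation with `j`, local behaviour, surjectivity
-/

set_option autoImplicit false

noncomputable section

open UpperHalfPlane Function Polynomial
open scoped MatrixGroups Manifold Polynomial

namespace Fermat.Agent.DS.G1.BaseSys

open Fermat.Agent.Igusa ModularCurve

variable {r N : ℕ} [NeZero N] (B : BaseSys r N)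

include B in
theorem neZero_r : NeZero r := ⟨by have := B.three_le; omega⟩

include B in
theorem r_ne_zero_C : (r : ℂ) ≠ 0 := Nat.cast_ne_zero.mpr B.neZero_r.ne

include B in
theorem inv_r_mem : (r : ℂ)⁻¹ ∈ zetaRing N := by
  obtain ⟨q, hq⟩ := B.hr
  have hN : (N : ℂ) ≠ 0 := Nat.cast_ne_zero.mpr (NeZero.ne N)
  have : (r : ℂ)⁻¹ = (q : ℂ) * (N : ℂ)⁻¹ := by
    have hq' : (N : ℂ) = (r : ℂ) * (q : ℂ) := by exact_mod_cast hq
    rw [hq'] at hN ⊢
    rw [mul_inv, mul_comm (r : ℂ)⁻¹, ← mul_assoc, mul_inv_cancel₀ (right_ne_zero_of_mul hN),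
      one_mul]
  rw [this]
  exact mul_mem (natCast_mem _ q) (Subring.subset_closure (Or.inr rfl))

/-- Integers dividing a power of `r` are units in `zetaRing N`. -/
theorem inv_mem_of_dvd {z : ℤ} (h : z ∣ (r : ℤ) ^ B.eExp) :
    (z : ℂ)⁻¹ ∈ zetaRing N ∧ (z : ℂ) ≠ 0 := by
  obtain ⟨q, hq⟩ := h
  have hq' : ((r : ℂ)) ^ B.eExp = (z : ℂ) * (q : ℂ) := by exact_mod_cast hq
  have hne : (r : ℂ) ^ B.eExp ≠ 0 := pow_ne_zero _ B.r_ne_zero_C
  rw [hq'] at hne
  refine ⟨?_, left_ne_zero_of_mul hne⟩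
  have : (z : ℂ)⁻¹ = (q : ℂ) * ((r : ℂ)⁻¹) ^ B.eExp := by
    rw [inv_pow, hq', mul_inv, mul_comm (z : ℂ)⁻¹, ← mul_assoc,
      mul_inv_cancel₀ (right_ne_zero_of_mul hne), one_mul]
  rw [this]
  exact mul_mem (intCast_mem _ q) (pow_mem B.inv_r_mem _)

theorem neg_one_smul_upper (τ : ℍ) : (-1 : SL(2, ℤ)) • τ = τ := by
  rw [ModularGroup.SL_neg_smul, one_smul]

theorem fam_neg {M K : ℕ} [NeZero K] (X : Fam M K) {v w : PrimVec M} (h : v.1 = -w.1) :
    X.1 v = X.1 w := by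
  have hv : v = rowMul w (-1) := Subtype.ext (by rw [rowMul_neg, rowMul_one, h])
  funext τ
  rw [hv, fam_rowMul, neg_one_smul_upper]

/-- `c₄, c₆, Δ` of `b` as complex polynomials. -/
def c4P : ℂ[X] := B.C4.map (Int.castRingHom ℂ)

/-- `c₆` as a complex polynomial. -/
def c6P : ℂ[X] := B.C6.map (Int.castRingHom ℂ)

/-- The discriminant as a complex polynomial. -/
def dP : ℂ[X] := B.D0.map (Int.castRingHom ℂ)

theorem sq_map : B.c6P ^ 2 = B.c4P ^ 3 - 1728 * B.dP := by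
  have h := congrArg (Polynomial.map (Int.castRingHom ℂ)) B.sq
  simpa [c4P, c6P, dP] using h

theorem deriv_map : 3 * derivative B.c4P * B.dP - B.c4P * derivative B.dP =
    C (B.kappa : ℂ) * X ^ B.mExp * B.c6P := by
  have h := congrArg (Polynomial.map (Int.castRingHom ℂ)) B.deriv_id
  simpa [c4P, c6P, dP, Polynomial.derivative_map] using h

theorem bezout_map : ∃ U V : ℂ[X], (∀ k, U.coeff k ∈ zetaRing N) ∧ (∀ k, V.coeff k ∈ zetaRing N) ∧
    U * B.c4P ^ 3 + V * B.dP = 1 := by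
  obtain ⟨U, V, h⟩ := B.bezout
  set c : ℂ := ((r : ℂ)⁻¹) ^ B.eExp
  have hc : c ∈ zetaRing N := pow_mem B.inv_r_mem _
  refine ⟨C c * U.map (Int.castRingHom ℂ), C c * V.map (Int.castRingHom ℂ), fun k => ?_,
    fun k => ?_, ?_⟩
  · simpa using mul_mem hc (intCast_mem _ (U.coeff k))
  · simpa using mul_mem hc (intCast_mem _ (V.coeff k))
  · have h' := congrArg (Polynomial.map (Int.castRingHom ℂ)) h
    simp only [Polynomial.map_add, Polynomial.map_mul, Polynomial.map_pow, Polynomial.map_C,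
      eq_intCast, Int.cast_pow, Int.cast_natCast, Polynomial.map_natCast] at h'
    rw [c4P, dP, mul_assoc, mul_assoc, ← mul_add, h', ← C_eq_natCast, ← C_pow, ← C_mul]
    rw [show c * ((r : ℂ)) ^ B.eExp = 1 by rw [← mul_pow, inv_mul_cancel₀ B.r_ne_zero_C, one_pow],
      C_1]

theorem dP_eval_ne_zero_of_c4 {β : ℂ} (h : B.c4P.eval β = 0) : B.dP.eval β ≠ 0 := by
  obtain ⟨U, V, -, -, h'⟩ := B.bezout_map
  intro hd
  simpa [h, hd] using congrArg (Polynomial.eval β) h'

theorem dP_eval_ne_zero_of_c6 {β : ℂ} (h : B.c6P.eval β = 0) : B.dP.eval β ≠ 0 := by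
  intro hd
  have h6 := congrArg (Polynomial.eval β) B.sq_map
  refine B.dP_eval_ne_zero_of_c4 ((pow_eq_zero_iff (three_ne_zero : 3 ≠ 0)).mp ?_) hd
  simpa [h, hd] using h6.symm

theorem dP_eval_zero : B.dP.eval 0 = 0 := by
  obtain ⟨q, hq⟩ := B.X_dvd
  simp [dP, hq]

theorem rel_apply (w : PrimVec r) (τ : ℍ) :
    B.c4P.eval (B.b.1 w τ) ^ 3 = MF.kleinJ τ * B.dP.eval (B.b.1 w τ) := by
  obtain ⟨u, ⟨hu, hwu⟩, -⟩ := B.half_pm w
  have hb : B.b.1 w = B.b.1 u := by
    rcases hwu with h | h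
    · rw [Subtype.ext h]
    · exact fam_neg B.b h
  have h := congrArg (Polynomial.eval (B.b.1 u τ)) (B.roots τ)
  rw [eval_mul, eval_prod, Finset.prod_eq_zero hu (by simp), mul_zero] at h
  rw [hb]
  simpa [c4P, dP, sub_eq_zero] using h

theorem dP_eval_b_ne_zero (w : PrimVec r) (τ : ℍ) : B.dP.eval (B.b.1 w τ) ≠ 0 := by
  intro hd
  have h := B.rel_apply w τ
  rw [hd, mul_zero] at h
  exact B.dP_eval_ne_zero_of_c4 (pow_eq_zero_iff (by norm_num) |>.mp h) hd

/-- The polynomial `c₄³ - j₀ Δ`. -/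
def relP (j₀ : ℂ) : ℂ[X] := B.c4P ^ 3 - C j₀ * B.dP

theorem relP_eq (τ : ℍ) :
    B.relP (MF.kleinJ τ) = C (((B.C4 ^ 3).leadingCoeff : ℤ) : ℂ) *
      ∏ w ∈ B.half, (X - C (B.b.1 w τ)) := by
  simpa [relP, c4P, dP] using B.roots τ

theorem leading_ne_zero : (((B.C4 ^ 3).leadingCoeff : ℤ) : ℂ) ≠ 0 := by
  rw [Polynomial.leadingCoeff_pow, Int.cast_pow]
  exact pow_ne_zero _ (B.inv_mem_of_dvd B.lead4_dvd).2

/-- Every admissible value is taken. -/
theorem exists_b_eq (w : PrimVec r) {β : ℂ} (hβ : B.dP.eval β ≠ 0) :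
    ∃ τ : ℍ, B.b.1 w τ = β := by
  haveI := B.neZero_r
  obtain ⟨τ, hτ⟩ := MF.kleinJ_surjective (B.c4P.eval β ^ 3 / B.dP.eval β)
  have h0 : (B.relP (MF.kleinJ τ)).eval β = 0 := by
    simp [relP, hτ, hβ]
  rw [B.relP_eq, eval_mul, eval_C, mul_eq_zero, eval_prod, Finset.prod_eq_zero_iff] at h0
  obtain ⟨u, -, hu⟩ := h0.resolve_left B.leading_ne_zero
  obtain ⟨γ, rfl⟩ := exists_rowMul_eq w u
  rw [eval_sub, eval_X, eval_C, sub_eq_zero, fam_rowMul] at hu
  exact ⟨γ • τ, hu.symm⟩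

/-- The function `b_w` near a point. -/
abbrev bAt (w : PrimVec r) : ℂ → ℂ := B.b.1 w ∘ ofComplex

theorem analyticAt_bAt (w : PrimVec r) (τ : ℍ) : AnalyticAt ℂ (B.bAt w) (τ : ℂ) :=
  MF.analyticAt_ofComplex_comp (B.b.2.1 w).1 τ

theorem analyticAt_eval {g : ℂ → ℂ} {z : ℂ} (hg : AnalyticAt ℂ g z) (P : ℂ[X]) :
    AnalyticAt ℂ (fun x => P.eval (g x)) z := by
  simp only [Polynomial.eval_eq_sum_range]
  exact Finset.analyticAt_fun_sum _ fun i _ => analyticAt_const.mul (hg.pow i)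

theorem order_eval {g : ℂ → ℂ} {z : ℂ} (hg : AnalyticAt ℂ g z) {P : ℂ[X]} (hP : P ≠ 0) :
    analyticOrderAt (fun x => P.eval (g x)) z =
      (P.rootMultiplicity (g z) : ℕ∞) * analyticOrderAt (fun x => g x - g z) z := by
  obtain ⟨P1, hP1, hnd⟩ := P.exists_eq_pow_rootMultiplicity_mul_and_not_dvd hP (g z)
  set m := P.rootMultiplicity (g z)
  have hsub : AnalyticAt ℂ (fun x => g x - g z) z := hg.fun_sub analyticAt_const
  have heq : (fun x => P.eval (g x)) = (fun x => g x - g z) ^ m * fun x => P1.eval (g x) := by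
    funext x
    rw [hP1]
    simp
  rw [heq, analyticOrderAt_mul (hsub.pow m) (analyticAt_eval hg P1), analyticOrderAt_pow hsub,
    (analyticAt_eval hg P1).analyticOrderAt_eq_zero.mpr
      (fun h => hnd (dvd_iff_isRoot.mpr h)), add_zero, nsmul_eq_mul]

theorem relP_ne_zero (j₀ : ℂ) : B.relP j₀ ≠ 0 := by
  intro h
  have hd : ((B.c4P) ^ 3).natDegree = ((B.C4) ^ 3).natDegree := by
    rw [c4P, ← Polynomial.map_pow,
      Polynomial.natDegree_map_eq_of_injective (RingHom.injective_int _)]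
  have h3 : B.c4P ^ 3 = C j₀ * B.dP := sub_eq_zero.mp h
  rw [h3] at hd
  have := B.deg_lt
  have h4 : (C j₀ * B.dP).natDegree ≤ B.D0.natDegree :=
    (natDegree_C_mul_le _ _).trans natDegree_map_le
  omega

/-- `b - β` has a simple zero wherever it vanishes. -/
theorem order_bAt_sub (w : PrimVec r) (τ : ℍ) :
    analyticOrderAt (fun x => B.bAt w x - B.bAt w τ) (τ : ℂ) = 1 := by
  set g := B.bAt w with hg
  set j₀ := MF.kleinJ τ
  have hga : AnalyticAt ℂ g (τ : ℂ) := B.analyticAt_bAt w τ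
  have hgz : g (τ : ℂ) = B.b.1 w τ := by simp [hg]
  have hja := MF.analyticAt_ofComplex_comp MF.kleinJ_mdifferentiable τ
  have heq : (fun x => (B.relP j₀).eval (g x)) =
      (fun x => (MF.kleinJ ∘ ofComplex) x - j₀) * fun x => B.dP.eval (g x) := by
    funext x
    have h := B.rel_apply w (ofComplex x)
    simp only [relP, eval_sub, eval_mul, eval_pow, eval_C, Pi.mul_apply, Function.comp_apply, hg]
    linear_combination h
  have h1 := order_eval hga (B.relP_ne_zero j₀)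
  rw [heq, analyticOrderAt_mul (hja.fun_sub analyticAt_const) (analyticAt_eval hga _),
    (analyticAt_eval hga _).analyticOrderAt_eq_zero.mpr (by
      rw [hgz]; exact B.dP_eval_b_ne_zero w τ), add_zero, MF.analyticOrderAt_kleinJ_sub] at h1
  -- the multiplicity divides the local degree of `j`, and conversely
  set o := analyticOrderAt (fun x => g x - g τ) (τ : ℂ)
  obtain ⟨k, hk⟩ := ENat.ne_top_iff_exists.mp (show o ≠ ⊤ from fun h => by
    rw [h] at h1
    rcases Nat.eq_zero_or_pos ((B.relP j₀).rootMultiplicity (g τ)) with h0 | h0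
    · rw [h0, Nat.cast_zero, zero_mul, Nat.cast_eq_zero] at h1
      exact (MF.kleinJDegree_pos τ).ne' h1
    · rw [ENat.mul_top (by exact_mod_cast h0.ne')] at h1
      exact ENat.natCast_ne_top _ h1)
  rw [← hk] at h1
  norm_cast at h1
  show o = 1
  rw [← hk]
  norm_cast
  have hdeg : MF.kleinJDegree τ = if j₀ = 0 then 3 else if j₀ = 1728 then 2 else 1 := rfl
  rw [hdeg] at h1
  split_ifs at h1 with h0 h1728
  · have hp : B.relP j₀ = B.c4P ^ 3 := by rw [relP, h0]; simp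
    rw [hp, ← count_roots, roots_pow, Multiset.count_nsmul] at h1
    rw [mul_assoc] at h1
    have h2 : Multiset.count (g τ) B.c4P.roots * k = 1 := by omega
    exact (mul_eq_one.mp h2).2
  · have hp : B.relP j₀ = B.c6P ^ 2 := by
      rw [relP, h1728, B.sq_map, Polynomial.C_ofNat]
    rw [hp, ← count_roots, roots_pow, Multiset.count_nsmul] at h1
    rw [mul_assoc] at h1
    have h2 : Multiset.count (g τ) B.c6P.roots * k = 1 := by omega
    exact (mul_eq_one.mp h2).2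
  · exact (mul_eq_one.mp h1.symm).2

theorem order_eval_b (w : PrimVec r) (τ : ℍ) {P : ℂ[X]} (hP : P ≠ 0) :
    analyticOrderAt (fun x => P.eval (B.bAt w x)) (τ : ℂ) =
      (P.rootMultiplicity (B.b.1 w τ) : ℕ∞) := by
  rw [order_eval (B.analyticAt_bAt w τ) hP, B.order_bAt_sub, mul_one]
  simp

/-- The evaluation `P ↦ P(b)`. -/
def evb : ℂ[X] →+* Fam r N := eval₂RingHom (famConst r N) B.b

theorem evb_apply (P : ℂ[X]) (w : PrimVec r) (τ : ℍ) :
    (B.evb P).1 w τ = P.eval (B.b.1 w τ) := by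
  change famEval w τ (B.evb P) = _
  rw [evb, coe_eval₂RingHom, hom_eval₂]
  exact congrArg (fun f : ℂ →+* ℂ => eval₂ f (B.b.1 w τ) P) (RingHom.ext fun c => rfl)

theorem evb_injective : Injective B.evb := by
  rw [injective_iff_map_eq_zero]
  intro P hP
  by_contra h
  obtain ⟨τ⟩ := (inferInstance : Nonempty ℍ)
  have h1 := B.order_eval_b (base r) τ h
  have h2 : (fun x => P.eval (B.bAt (base r) x)) = 0 := by
    funext x
    simp only [Pi.zero_apply, bAt, Function.comp_apply]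
    rw [← B.evb_apply, hP]
    rfl
  rw [h2, show analyticOrderAt (0 : ℂ → ℂ) (τ : ℂ) = ⊤ from analyticOrderAt_eq_top.mpr (Filter.Eventually.of_forall fun _ => rfl)] at h1
  exact ENat.natCast_ne_top _ h1.symm

@[simp] theorem evb_X : B.evb X = B.b := by simp [evb]

@[simp] theorem evb_C (c : ℂ) : B.evb (C c) = famConst r N c := by simp [evb]

/-- The inverse of the discriminant. -/
def dInv : Fam r N :=
  famInv (B.evb B.dP) fun w τ => by rw [B.evb_apply]; exact B.dP_eval_b_ne_zero w τ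

theorem evb_dP_mul_dInv : B.evb B.dP * B.dInv = 1 := mul_famInv _ _

theorem jFam_eq : jFam r N = B.evb (B.c4P ^ 3) * B.dInv := by
  have h : jFam r N * B.evb B.dP = B.evb (B.c4P ^ 3) := Subtype.ext (funext fun w => funext fun τ =>
    by simp [B.evb_apply, B.rel_apply])
  rw [← h, mul_assoc, evb_dP_mul_dInv, mul_one]

end Fermat.Agent.DS.G1.BaseSys
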