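import Fermat.Agent.DS.G1.Core.Residue
import Fermat.Prelude.Def_ModularCurve_X0ModL
import Mathlib.RingTheory.PowerSeries.Ideal
import Mathlib.RingTheory.Multiplicity

/-!
# Bounded series over a discrete coefficient ring
-/

set_option autoImplicit false

noncomputable section

namespace Fermat.Agent.DS.G1

open ModularCurve BaseSys

variable {p : ℕ}

/-- The elements of `K` integral at the place. -/
def coeffRing (P : PlaceRing p) (K : Subfield ℂ) : Subring ℂ := K.toSubring ⊓ P.A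

variable {P : PlaceRing p} {K : Subfield ℂ}

theorem coeffRing_le : coeffRing P K ≤ P.A := inf_le_right

theorem coeffRing_le_field : coeffRing P K ≤ K.toSubring := inf_le_left

theorem exists_coeffRing_scale (hK : ∀ x ∈ K, IsAlgebraic ℚ x) {x : ℂ} (hx : x ∈ K) :
    ∃ c ∈ coeffRing P K, c ≠ 0 ∧ c * x ∈ coeffRing P K := by
  by_cases h : x ∈ P.A
  · exact ⟨1, one_mem _, one_ne_zero, by rw [one_mul]; exact ⟨hx, h⟩⟩
  · have h0 : x ≠ 0 := fun e => h (e ▸ zero_mem _)
    exact ⟨x⁻¹, ⟨K.inv_mem hx, (P.total x (hK x hx)).resolve_left h⟩, inv_ne_zero h0,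
      by rw [inv_mul_cancel₀ h0]; exact one_mem _⟩

/-- A monoid with unique factorisation: all multiplicities divisible by `l` gives an `l`-th
power. -/
theorem exists_pow_mul_unit {R : Type*} [CommMonoidWithZero R]
    [UniqueFactorizationMonoid R] {l : ℕ} (hl : 0 < l) :
    ∀ x : R, x ≠ 0 → (∀ f : R, Prime f → f ∣ x → ∃ n : ℕ∞, emultiplicity f x = (l : ℕ∞) * n) →
      ∃ (a : R) (u : Rˣ), x = ↑u * a ^ l := by
  intro x
  induction x using (wellFounded_dvdNotUnit (α := R)).induction with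
  | _ x ih => ?_
  intro hx h
  by_cases hu : IsUnit x
  · exact ⟨1, hu.unit, by rw [one_pow, mul_one, IsUnit.unit_spec]⟩
  obtain ⟨f, hf, hfx⟩ := WfDvdMonoid.exists_irreducible_factor hu hx
  have hfp : Prime f := UniqueFactorizationMonoid.irreducible_iff_prime.mp hf
  obtain ⟨n, hn⟩ := h f hfp hfx
  have hn0 : n ≠ 0 := by
    rintro rfl
    rw [mul_zero, emultiplicity_eq_zero] at hn
    exact hn hfx
  have hdvd : f ^ l ∣ x := by
    rw [pow_dvd_iff_le_emultiplicity, hn]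
    calc (l : ℕ∞) = (l : ℕ∞) * 1 := (mul_one _).symm
      _ ≤ (l : ℕ∞) * n := mul_le_mul_right (ENat.one_le_iff_ne_zero.mpr hn0) _
  obtain ⟨y, hy⟩ := hdvd
  have hy0 : y ≠ 0 := fun e => hx (by rw [hy, e, mul_zero])
  obtain ⟨a, u, hau⟩ := ih y ⟨hy0, f ^ l, fun e => hfp.not_isUnit
    ((isUnit_pow_iff hl.ne').mp e), by rw [hy, mul_comm]⟩ hy0 fun g hg hgy => by
    have hgx : g ∣ x := hgy.trans (Dvd.intro_left _ hy.symm)
    obtain ⟨m, hm⟩ := h g hg hgx
    have hfin : ∀ z : R, z ≠ 0 → ∃ k : ℕ, emultiplicity g z = k := fun z hz =>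
      ⟨_, (FiniteMultiplicity.of_prime_left hg hz).emultiplicity_eq_multiplicity⟩
    obtain ⟨k₁, hk₁⟩ := hfin f hfp.ne_zero
    obtain ⟨k₂, hk₂⟩ := hfin y hy0
    obtain ⟨k₃, hk₃⟩ := hfin x hx
    rw [hy, emultiplicity_mul hg, emultiplicity_pow hg, hk₁, hk₂] at hm
    rcases eq_or_ne m ⊤ with rfl | hm'
    · rw [ENat.mul_top (by exact_mod_cast hl.ne')] at hm
      exact absurd hm (ENat.natCast_ne_top _ ∘ fun e => by exact_mod_cast e)
    obtain ⟨m₀, rfl⟩ := ENat.ne_top_iff_exists.mp hm'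
    norm_cast at hm
    refine ⟨((m₀ - k₁ : ℕ) : ℕ∞), ?_⟩
    rw [hk₂]
    norm_cast
    rw [Nat.mul_sub]
    omega
  exact ⟨f * a, u, by rw [hy, hau, mul_pow, mul_left_comm]⟩

variable (O : Subring ℂ)

/-- Series which become integral after multiplication by a nonzero constant. -/
def bddSer : Subring (LaurentSeries ℂ) where
  carrier := {s | ∃ c ∈ O, c ≠ 0 ∧ HahnSeries.C c * s ∈ serIn O}
  zero_mem' := ⟨1, one_mem _, one_ne_zero, by simp⟩
  one_mem' := ⟨1, one_mem _, one_ne_zero, by simp⟩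
  add_mem' := by
    rintro s t ⟨c, hc, hc0, hs⟩ ⟨d, hd, hd0, ht⟩
    refine ⟨c * d, mul_mem hc hd, mul_ne_zero hc0 hd0, ?_⟩
    have := add_mem (mul_mem (C_mem_serIn hd) hs) (mul_mem (C_mem_serIn hc) ht)
    convert this using 1
    rw [map_mul]
    ring
  mul_mem' := by
    rintro s t ⟨c, hc, hc0, hs⟩ ⟨d, hd, hd0, ht⟩
    refine ⟨c * d, mul_mem hc hd, mul_ne_zero hc0 hd0, ?_⟩
    have := mul_mem hs ht
    convert this using 1
    rw [map_mul]
    ring
  neg_mem' := by
    rintro s ⟨c, hc, hc0, hs⟩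
    exact ⟨c, hc, hc0, by rw [mul_neg]; exact neg_mem hs⟩

theorem serIn_le_bddSer : serIn O ≤ bddSer O :=
  fun _ hs => ⟨1, one_mem _, one_ne_zero, by simpa using hs⟩

/-- Power series as bounded series. -/
def bddOfPS : PowerSeries O →+* bddSer O :=
  ((coeffMap O.subtype).comp (HahnSeries.ofPowerSeries ℤ O)).codRestrict (bddSer O)
    fun g => serIn_le_bddSer O ⟨HahnSeries.ofPowerSeries ℤ O g, rfl⟩

theorem coe_bddOfPS (g : PowerSeries O) :
    (bddOfPS O g : LaurentSeries ℂ) =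
      HahnSeries.ofPowerSeries ℤ ℂ (PowerSeries.map O.subtype g) :=
  coeffMap_ofPowerSeries O.subtype g

theorem bddOfPS_injective : Function.Injective (bddOfPS O) := fun g h e => by
  have e' := congrArg Subtype.val e
  rw [coe_bddOfPS, coe_bddOfPS] at e'
  exact PowerSeries.map_injective _ Subtype.val_injective (HahnSeries.ofPowerSeries_injective e')

theorem isUnit_bddOfPS_C {c : O} (hc : c ≠ 0) : IsUnit (bddOfPS O (PowerSeries.C c)) := by
  have hc' : (c : ℂ) ≠ 0 := fun h => hc (Subtype.ext h)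
  refine .of_mul_eq_one ⟨HahnSeries.C (c : ℂ)⁻¹, c, c.2, hc', ?_⟩ (Subtype.ext ?_)
  · rw [← map_mul, mul_inv_cancel₀ hc', map_one]
    exact one_mem _
  · rw [Subring.coe_mul, coe_bddOfPS, PowerSeries.map_C, HahnSeries.ofPowerSeries_C, ← map_mul]
    show HahnSeries.C ((c : ℂ) * (c : ℂ)⁻¹) = 1
    rw [mul_inv_cancel₀ hc', map_one]

theorem isUnit_bddOfPS_X : IsUnit (bddOfPS O PowerSeries.X) := by
  refine .of_mul_eq_one ⟨HahnSeries.single (-1) 1, serIn_le_bddSer O (mem_serIn.mpr fun n => ?_)⟩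
    (Subtype.ext ?_)
  · rw [HahnSeries.coeff_single]
    split_ifs
    exacts [one_mem _, zero_mem _]
  · rw [Subring.coe_mul, coe_bddOfPS, PowerSeries.map_X, HahnSeries.ofPowerSeries_X,
      HahnSeries.single_mul_single, add_neg_cancel, one_mul]
    rfl

/-- A series with coefficients in `O` is a power of the variable times a power series. -/
theorem exists_eq_single_mul {s : LaurentSeries ℂ} (hs : s ∈ serIn O) :
    ∃ g : PowerSeries O, s = HahnSeries.single s.order 1 * (bddOfPS O g : LaurentSeries ℂ) := by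
  refine ⟨PowerSeries.mk fun n => ⟨s.coeff (s.order + n), mem_serIn.mp hs _⟩, ?_⟩
  rw [coe_bddOfPS]
  have h : PowerSeries.map O.subtype
      (PowerSeries.mk fun n => ⟨s.coeff (s.order + n), mem_serIn.mp hs _⟩) = s.powerSeriesPart := by
    ext n
    rw [PowerSeries.coeff_map, PowerSeries.coeff_mk, LaurentSeries.powerSeriesPart_coeff]
    rfl
  rw [h]
  exact (LaurentSeries.single_order_mul_powerSeriesPart s).symm

/-- Bounded series are power series up to units. -/
theorem exists_unit_mul_eq (s : bddSer O) :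
    ∃ (d : bddSer O) (g : PowerSeries O), IsUnit d ∧ d * s = bddOfPS O g := by
  obtain ⟨c, hc, hc0, hs⟩ := s.2
  obtain ⟨g, hg⟩ := exists_eq_single_mul O hs
  set o := (HahnSeries.C c * s.1).order
  have hsm : ∀ i : ℤ, (HahnSeries.single i (1 : ℂ)) ∈ bddSer O := fun i =>
    serIn_le_bddSer O (mem_serIn.mpr fun n => by
      rw [HahnSeries.coeff_single]
      split_ifs
      exacts [one_mem _, zero_mem _])
  refine ⟨⟨_, hsm (-o)⟩ * bddOfPS O (PowerSeries.C ⟨c, hc⟩), g, IsUnit.mul ?_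
    (isUnit_bddOfPS_C O fun h => hc0 (congrArg Subtype.val h)), Subtype.ext ?_⟩
  · refine .of_mul_eq_one ⟨_, hsm o⟩ (Subtype.ext ?_)
    rw [Subring.coe_mul, HahnSeries.single_mul_single, neg_add_cancel, one_mul]
    rfl
  · rw [Subring.coe_mul, Subring.coe_mul, coe_bddOfPS, PowerSeries.map_C,
      HahnSeries.ofPowerSeries_C, mul_assoc]
    show HahnSeries.single (-o) 1 * (HahnSeries.C c * s.1) = _
    rw [hg, ← mul_assoc, HahnSeries.single_mul_single, neg_add_cancel, one_mul]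
    exact one_mul _

variable {O} {f : PowerSeries O}

theorem bddOfPS_pow_dvd (hf : Prime f) (hX : ¬ f ∣ PowerSeries.X)
    (hC : ∀ c : O, c ≠ 0 → ¬ f ∣ PowerSeries.C c) (g : PowerSeries O) (n : ℕ) :
    bddOfPS O f ^ n ∣ bddOfPS O g ↔ f ^ n ∣ g := by
  refine ⟨?_, fun h => by rw [← map_pow]; exact map_dvd _ h⟩
  rintro ⟨s, hs⟩
  obtain ⟨c, hc, hc0, hcs⟩ := s.2
  obtain ⟨h, hh⟩ := exists_eq_single_mul O hcs
  set o := (HahnSeries.C c * s.1).order
  obtain ⟨k, j, hkj⟩ : ∃ k j : ℕ, (k : ℤ) + o = j :=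
    ⟨(-o).toNat, ((-o).toNat + o).toNat, by omega⟩
  have e : PowerSeries.X ^ k * PowerSeries.C (⟨c, hc⟩ : O) * g =
      f ^ n * (PowerSeries.X ^ j * h) := by
    refine bddOfPS_injective O (Subtype.ext ?_)
    simp only [map_mul, map_pow, hs, Subring.coe_mul, SubmonoidClass.coe_pow]
    rw [coe_bddOfPS O PowerSeries.X, coe_bddOfPS O (PowerSeries.C _), PowerSeries.map_X,
      HahnSeries.ofPowerSeries_X, PowerSeries.map_C, HahnSeries.ofPowerSeries_C,
      HahnSeries.single_pow, HahnSeries.single_pow, one_pow, one_pow]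
    show HahnSeries.single (k • (1 : ℤ)) 1 * HahnSeries.C c * _ = _
    rw [show HahnSeries.single (j • (1 : ℤ)) (1 : ℂ) =
      HahnSeries.single (k • (1 : ℤ)) 1 * HahnSeries.single o 1 by
        rw [HahnSeries.single_mul_single, mul_one]
        simp [hkj]]
    linear_combination (HahnSeries.single (k • (1 : ℤ)) (1 : ℂ) *
      (bddOfPS O f : LaurentSeries ℂ) ^ n) * hh
  have hd : ¬ f ∣ PowerSeries.X ^ k * PowerSeries.C (⟨c, hc⟩ : O) := fun hd =>
    (hf.dvd_or_dvd hd).elim (fun h' => hX (hf.dvd_of_dvd_pow h'))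
      (hC _ fun h' => hc0 (congrArg Subtype.val h'))
  exact hf.pow_dvd_of_dvd_mul_left n hd (e ▸ Dvd.intro _ rfl)

theorem prime_bddOfPS (hf : Prime f) (hX : ¬ f ∣ PowerSeries.X)
    (hC : ∀ c : O, c ≠ 0 → ¬ f ∣ PowerSeries.C c) : Prime (bddOfPS O f) := by
  have h1 : ∀ g, bddOfPS O f ∣ bddOfPS O g ↔ f ∣ g := fun g => by
    simpa using bddOfPS_pow_dvd hf hX hC g 1
  refine ⟨fun h => hf.ne_zero (bddOfPS_injective O (h.trans (map_zero _).symm)), fun h => ?_,
    fun s t hst => ?_⟩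
  · refine hf.not_isUnit (isUnit_of_dvd_one ?_)
    rw [← h1, map_one]
    exact h.dvd
  · obtain ⟨d, g, hd, hg⟩ := exists_unit_mul_eq O s
    obtain ⟨d', g', hd', hg'⟩ := exists_unit_mul_eq O t
    have : bddOfPS O f ∣ bddOfPS O (g * g') := by
      rw [map_mul, ← hg, ← hg', mul_mul_mul_comm]
      exact dvd_mul_of_dvd_right hst _
    rcases hf.dvd_or_dvd ((h1 _).mp this) with h | h
    · left; rw [← h1, ← hg] at h; exact hd.dvd_mul_left.mp h
    · right; rw [← h1, ← hg'] at h; exact hd'.dvd_mul_left.mp h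

theorem emultiplicity_bddOfPS (hf : Prime f) (hX : ¬ f ∣ PowerSeries.X)
    (hC : ∀ c : O, c ≠ 0 → ¬ f ∣ PowerSeries.C c) (g : PowerSeries O) :
    emultiplicity (bddOfPS O f) (bddOfPS O g) = emultiplicity f g :=
  emultiplicity_eq_emultiplicity_iff.mpr fun n => bddOfPS_pow_dvd hf hX hC g n

end Fermat.Agent.DS.G1
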