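import Fermat.Agent.DS.G1.Core.PlaceLemmas
import Fermat.Agent.DS.G1.BaseAlg
import Mathlib.NumberTheory.NumberField.Basic
import Mathlib.RingTheory.DedekindDomain.AdicValuation
import Mathlib.RingTheory.DedekindDomain.PID
import Mathlib.Data.ZMod.QuotientGroup
import Mathlib.GroupTheory.Index

/-!
# Number fields of coefficients and auxiliary levels
-/

set_option autoImplicit false

noncomputable section

open IsDedekindDomain

namespace Fermat.Agent.DS.G1

/-- The trace of a place on a number field inside `ℂ` is a principal ideal domain. -/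
theorem isPrincipalIdealRing_inf_place {p : ℕ} (hp : p.Prime) (P : PlaceRing p)
    (K : IntermediateField ℚ ℂ) [NumberField K] :
    IsPrincipalIdealRing (K.toSubfield.toSubring ⊓ P.A : Subring ℂ) := by
  have halg : ∀ x : K, IsAlgebraic ℚ (x : ℂ) := fun x =>
    (Algebra.IsAlgebraic.isAlgebraic x).algHom K.val
  let B : ValuationSubring K :=
    { (P.A.comap (algebraMap K ℂ)) with
      mem_or_inv_mem' := fun x => by
        simpa [Subring.mem_comap] using P.total (x : ℂ) (halg x) }
  have hB : ∀ x : K, x ∈ B ↔ (x : ℂ) ∈ P.A := fun x => Iff.rfl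
  have hint : ∀ a : NumberField.RingOfIntegers K, ((a : K) : ℂ) ∈ P.A := fun a => by
    obtain ⟨g, hg, hg0⟩ := a.isIntegral_coe
    refine P.mem_of_isRoot_monic (G := g.map (Int.castRingHom ℂ))
      (fun k => by rw [Polynomial.coeff_map]; exact intCast_mem _ _) (hg.map _) ?_
    rw [Polynomial.eval_map]
    have := congrArg (algebraMap K ℂ) hg0
    rw [Polynomial.hom_eval₂, map_zero,
      RingHom.ext_int ((algebraMap K ℂ).comp _) (Int.castRingHom ℂ)] at this
    exact this
  let I : Ideal (NumberField.RingOfIntegers K) :=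
    { carrier := {a | ((a : K) : ℂ) ∈ P.maxIdeal}
      add_mem' := fun {a b} ha hb => by simpa using P.add_mem_maxIdeal ha hb
      zero_mem' := by simpa using P.zero_mem_maxIdeal
      smul_mem' := fun c a ha => by simpa using P.mul_mem_maxIdeal (hint c) ha }
  have hI : ∀ a, a ∈ I ↔ ((a : K) : ℂ) ∈ P.maxIdeal := fun a => Iff.rfl
  have hprime : I.IsPrime := by
    rw [Ideal.isPrime_iff]
    refine ⟨fun h => P.one_not_mem_maxIdeal (by simpa [hI] using I.eq_top_iff_one.mp h),
      fun {a b} hab => ?_⟩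
    by_contra! hne
    exact P.mul_not_mem_maxIdeal (hint a) (hint b) hne.1 hne.2 (by simpa [hI] using hab)
  let v : HeightOneSpectrum (NumberField.RingOfIntegers K) :=
    ⟨I, hprime, fun h0 => by
      have : (p : NumberField.RingOfIntegers K) ∈ I := by
        rw [hI]
        simpa using P.natCast_mem_maxIdeal
      rw [h0] at this
      exact hp.ne_zero (by simpa using this)⟩
  have hle : HeightOneSpectrum.valuationSubringAtPrime K v ≤ B := by
    rintro x ⟨a, s, hs, rfl⟩
    rw [hB]
    have hs' : ((s : K) : ℂ) ∉ P.maxIdeal := hs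
    simpa using mul_mem (hint a) (P.inv_mem_of_not_mem (hint s) hs')
  have hne : B ≠ ⊤ := fun h => P.not_unit (by
    have : ((p : K)⁻¹) ∈ B := h ▸ ValuationSubring.mem_top _
    simpa [hB] using this)
  have heq := ValuationSubring.eq_of_le_of_ne_top _ hle hne
  have hPID : IsPrincipalIdealRing B := heq ▸ inferInstance
  let f : B →+* (K.toSubfield.toSubring ⊓ P.A : Subring ℂ) :=
    ((algebraMap K ℂ).comp B.toSubring.subtype).codRestrict _ fun x => ⟨(x : K).2, (hB x).mp x.2⟩
  exact IsPrincipalIdealRing.of_surjective f fun y => ⟨⟨⟨(y : ℂ), y.2.1⟩, y.2.2⟩, rfl⟩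

/-- Finitely many algebraic numbers lie in a field on which the place is discrete. -/
theorem exists_coeffField {p : ℕ} (hp : p.Prime) (P : PlaceRing p) (S : Finset ℂ)
    (hS : ∀ x ∈ S, IsAlgebraic ℚ x) :
    ∃ K : Subfield ℂ, (∀ x ∈ S, x ∈ K) ∧ (∀ x ∈ K, IsAlgebraic ℚ x) ∧
      IsPrincipalIdealRing (K.toSubring ⊓ P.A : Subring ℂ) := by
  let K := IntermediateField.adjoin ℚ (S : Set ℂ)
  have : FiniteDimensional ℚ K :=
    IntermediateField.finiteDimensional_adjoin fun x hx => (hS x hx).isIntegral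
  have : NumberField K := ⟨⟩
  exact ⟨K.toSubfield, fun x hx => IntermediateField.subset_adjoin ℚ _ hx,
    fun x hx => (Algebra.IsAlgebraic.isAlgebraic (⟨x, hx⟩ : K)).algHom K.val,
    isPrincipalIdealRing_inf_place hp P K⟩

section Fibres

variable {r M N : ℕ} [NeZero M] [NeZero N]

omit [NeZero M] [NeZero N] in
/-- For coprime levels the fibre is the primitive vectors of the other level. -/
theorem card_primFibre_of_coprime [NeZero r] (hN : N = r * M) [NeZero N] (hc : r.Coprime M)
    (h : M ∣ N) (w : PrimVec M) : (primFibre h w).card = Nat.card (PrimVec r) := by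
  subst hN
  let e := ZMod.chineseRemainder hc
  have hfst : ∀ z, (e z).1 = ZMod.castHom (dvd_mul_right r M) (ZMod r) z := fun z =>
    RingHom.congr_fun (RingHom.ext_zmod ((RingHom.fst _ _).comp e.toRingHom) _) z
  have hsnd : ∀ z, (e z).2 = ZMod.castHom h (ZMod M) z := fun z =>
    RingHom.congr_fun (RingHom.ext_zmod ((RingHom.snd _ _).comp e.toRingHom) _) z
  rw [← Nat.card_eq_finsetCard]
  refine Nat.card_eq_of_bijective (fun v => primRed (dvd_mul_right r M) v.1) ⟨?_, ?_⟩
  · rintro ⟨v, hv⟩ ⟨v', hv'⟩ he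
    refine Subtype.ext (Subtype.ext (funext fun i => e.injective (Prod.ext ?_ ?_)))
    · rw [hfst, hfst]
      exact congrArg (fun x : PrimVec r => x.1 i) he
    · rw [hsnd, hsnd]
      exact congrArg (fun x : PrimVec M => x.1 i)
        ((mem_primFibre.mp hv).trans (mem_primFibre.mp hv').symm)
  · intro u
    obtain ⟨x, y, hxy⟩ := u.2
    obtain ⟨x', y', hxy'⟩ := w.2
    let v : PrimVec (r * M) := ⟨fun i => e.symm (u.1 i, w.1 i), e.symm (x, x'), e.symm (y, y'), by
      rw [← map_mul, ← map_mul, ← map_add, ← map_one e.symm]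
      exact congrArg e.symm (Prod.ext hxy hxy')⟩
    refine ⟨⟨v, mem_primFibre.mpr (Subtype.ext (funext fun i => ?_))⟩,
      Subtype.ext (funext fun i => ?_)⟩
    · rw [primRed_apply, ← hsnd]
      simp [v]
    · show (primRed (dvd_mul_right r M) v).1 i = _
      rw [primRed_apply, ← hfst]
      simp [v]

/-- When every prime of `N` divides `M`, every lift of a primitive vector is primitive. -/
theorem card_primFibre_of_primes_dvd (h : M ∣ N) (hq : ∀ q : ℕ, q.Prime → q ∣ N → q ∣ M)
    (w : PrimVec M) : (primFibre h w).card = (N / M) ^ 2 := by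
  let f : ZMod N →+* ZMod M := ZMod.castHom h (ZMod M)
  have hsurj : Function.Surjective f := ZMod.castHom_surjective h
  have hker : Nat.card (f.toAddMonoidHom.ker) = N / M := by
    have h1 := f.toAddMonoidHom.ker.card_mul_index
    rw [AddSubgroup.index_ker, AddMonoidHom.range_eq_top.mpr hsurj, AddSubgroup.card_top,
      Nat.card_zmod, Nat.card_zmod] at h1
    exact (Nat.div_eq_of_eq_mul_left (NeZero.pos M) h1.symm).symm
  have hfib : ∀ c, Nat.card {z : ZMod N // f z = c} = N / M := by
    intro c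
    obtain ⟨z, rfl⟩ := hsurj c
    rw [← hker]
    exact Nat.card_congr ((Equiv.addRight (-z)).subtypeEquiv fun y => by
      simp [AddMonoidHom.mem_ker, sub_eq_zero, ← sub_eq_add_neg])
  have hlift : ∀ z : ZMod N, IsUnit (f z) → IsUnit z := by
    intro z hz
    rw [← ZMod.natCast_zmod_val z, ZMod.isUnit_iff_coprime]
    rw [← ZMod.natCast_zmod_val z, map_natCast, ZMod.isUnit_iff_coprime] at hz
    refine Nat.coprime_of_dvd fun k hk hk1 hk2 => ?_
    exact hk.not_dvd_one (hz ▸ Nat.dvd_gcd hk1 (hq k hk hk2))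
  rw [← Nat.card_eq_finsetCard, sq,
    ← congrArg₂ (· * ·) (hfib (w.1 0)) (hfib (w.1 1)), ← Nat.card_prod]
  refine Nat.card_eq_of_bijective (fun v =>
    (⟨v.1.1 0, congrArg (fun x : PrimVec M => x.1 0) (mem_primFibre.mp v.2)⟩,
      ⟨v.1.1 1, congrArg (fun x : PrimVec M => x.1 1) (mem_primFibre.mp v.2)⟩)) ⟨?_, ?_⟩
  · intro v v' he
    simp only [Prod.mk.injEq] at he
    refine Subtype.ext (Subtype.ext (funext fun i => ?_))
    fin_cases i
    exacts [congrArg Subtype.val he.1, congrArg Subtype.val he.2]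
  · rintro ⟨⟨a, ha⟩, ⟨b, hb⟩⟩
    obtain ⟨x, y, hxy⟩ := w.2
    obtain ⟨x', hx'⟩ := hsurj x
    obtain ⟨y', hy'⟩ := hsurj y
    have hu : IsUnit (x' * a + y' * b) := hlift _ (by
      rw [map_add, map_mul, map_mul, hx', hy', ha, hb, hxy]
      exact isUnit_one)
    obtain ⟨u, hu⟩ := hu
    let v : PrimVec N := ⟨![a, b], (↑u⁻¹ : ZMod N) * x', (↑u⁻¹ : ZMod N) * y', by
      simp only [Matrix.cons_val_zero, Matrix.cons_val_one]
      rw [mul_assoc, mul_assoc, ← mul_add, ← hu, Units.inv_mul]⟩
    refine ⟨⟨v, mem_primFibre.mpr (Subtype.ext (funext fun i => ?_))⟩, rfl⟩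
    fin_cases i
    exacts [ha, hb]

end Fibres

theorem card_primVec_four : Nat.card (PrimVec 4) = 12 := by
  rw [Nat.card_eq_fintype_card]; decide +kernel

theorem card_primVec_five : Nat.card (PrimVec 5) = 24 := by
  rw [Nat.card_eq_fintype_card]; decide +kernel

/-- An auxiliary level prime to `p` with fibres of size prime to `l`. -/
theorem exists_aux_level (M : ℕ) [NeZero M] {l p : ℕ} [Fact l.Prime] [Fact p.Prime] (hl5 : 5 ≤ l)
    (hpM : ¬ p ∣ M) :
    ∃ (r N : ℕ) (_ : NeZero N) (h : M ∣ N), (r = 4 ∨ r = 5) ∧ r ∣ N ∧ ¬ p ∣ N ∧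
      ∀ w : PrimVec M, ¬ l ∣ (primFibre h w).card := by
  have hl : l.Prime := Fact.out
  have hp : p.Prime := Fact.out
  have h23 : ¬ l ∣ 2 ∧ ¬ l ∣ 3 :=
    ⟨fun h => by have := Nat.le_of_dvd two_pos h; omega,
      fun h => by have := Nat.le_of_dvd three_pos h; omega⟩
  have hM0 := NeZero.ne M
  by_cases hp2 : p = 2
  · subst hp2
    by_cases h5 : 5 ∣ M
    · refine ⟨5, M, inferInstance, dvd_rfl, .inr rfl, h5, hpM, fun w => ?_⟩
      rw [card_primFibre_of_primes_dvd (dvd_refl M) (fun _ _ h => h) w,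
        Nat.div_self (NeZero.pos M), one_pow, Nat.dvd_one]
      omega
    · have : NeZero (5 * M) := ⟨by omega⟩
      refine ⟨5, 5 * M, this, dvd_mul_left _ _, .inr rfl, dvd_mul_right _ _, ?_, fun w => ?_⟩
      · rw [hp.dvd_mul]
        omega
      · rw [card_primFibre_of_coprime rfl
          ((Nat.prime_five.coprime_iff_not_dvd).mpr h5) _ w, card_primVec_five,
          show 24 = 2 * 2 * (2 * 3) from rfl, hl.dvd_mul, hl.dvd_mul, hl.dvd_mul]
        tauto
  · have : NeZero (4 * M) := ⟨by omega⟩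
    refine ⟨4, 4 * M, this, dvd_mul_left _ _, .inl rfl, dvd_mul_right _ _, ?_, fun w => ?_⟩
    · rw [hp.dvd_mul]
      rintro (h | h)
      · exact hp2 ((Nat.prime_dvd_prime_iff_eq hp Nat.prime_two).mp
          (hp.dvd_of_dvd_pow (show p ∣ 2 ^ 2 from h)))
      · exact hpM h
    · by_cases h2 : 2 ∣ M
      · rw [card_primFibre_of_primes_dvd _ (fun q hq h => ?_) w, Nat.mul_div_cancel _ (NeZero.pos M)]
        · rw [show (4 : ℕ) ^ 2 = 2 * 2 * (2 * 2) from rfl, hl.dvd_mul, hl.dvd_mul]
          tauto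
        · rcases hq.dvd_mul.mp h with h | h
          · rwa [(Nat.prime_dvd_prime_iff_eq hq Nat.prime_two).mp
              (hq.dvd_of_dvd_pow (show q ∣ 2 ^ 2 from h))]
          · exact h
      · rw [card_primFibre_of_coprime rfl (Nat.Coprime.pow_left 2
          ((Nat.prime_two.coprime_iff_not_dvd).mpr h2) : (2 ^ 2).Coprime M) _ w, card_primVec_four,
          show 12 = 2 * 2 * 3 from rfl, hl.dvd_mul, hl.dvd_mul]
        tauto

end Fermat.Agent.DS.G1
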