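import Fermat.Agent.DS.G1.BaseSys

/-!
# Changing the level of a family
-/

set_option autoImplicit false

noncomputable section

open UpperHalfPlane
open scoped MatrixGroups

namespace Fermat.Agent.DS.G1

open ModularCurve

local notation "𝕢" => Function.Periodic.qParam

variable {M N : ℕ} [NeZero M] [NeZero N]

/-- The image of a family of level `M` at level `N`. -/
def levelUp (h : M ∣ N) : Fam M M →+* Fam N N := (famPull h).comp (famUp h)

theorem levelUp_apply (h : M ∣ N) (X : Fam M M) (v : PrimVec N) :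
    (levelUp h X).1 v = X.1 (primRed h v) := rfl

theorem famExp_levelUp (h : M ∣ N) [NeZero (N / M)] (X : Fam M M) (v : PrimVec N) :
    famExp v (levelUp h X) = qExpand ℂ (N / M) (famExp (primRed h v) X) := by
  rw [levelUp, RingHom.comp_apply, famExp_famPull, famExp_famUp]

theorem levelUp_injective (h : M ∣ N) : Function.Injective (levelUp h) := by
  intro X Y hXY
  refine Subtype.ext (funext fun w => ?_)
  obtain ⟨v, rfl⟩ := primRed_surjective h w
  rw [← levelUp_apply, ← levelUp_apply, hXY]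

theorem levelUp_mem (h : M ∣ N) {S : Subring ℂ} {X : Fam M M} (hX : X ∈ intFam M M S) :
    levelUp h X ∈ intFam N N S := by
  haveI : NeZero (N / M) :=
    ⟨(Nat.div_pos (Nat.le_of_dvd (NeZero.pos N) h) (NeZero.pos M)).ne'⟩
  refine mem_intFam.mpr fun v n => ?_
  rw [famExp_levelUp]
  by_cases hn : ((N / M : ℕ) : ℤ) ∣ n
  · obtain ⟨k, rfl⟩ := hn
    rw [qExpand_coeff_mul]
    exact mem_intFam.mp hX _ k
  · rw [qExpand_coeff_of_not_dvd _ _ hn]
    exact zero_mem S

/-- A family at level `N` depending only on the reductions modulo `M` comes from level `M`. -/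
theorem exists_levelUp_eq (h : M ∣ N) (Y : Fam N N)
    (hY : ∀ v v', primRed h v = primRed h v' → famExp v Y = famExp v' Y) :
    ∃ X : Fam M M, levelUp h X = Y := by
  have hval : ∀ v v', primRed h v = primRed h v' → Y.1 v = Y.1 v' := fun v v' hvv =>
    congrArg Subtype.val (expan_injective (hY v v' hvv) : famAt v Y = famAt v' Y)
  choose lift hlift using primRed_surjective (M := M) (N := N) h
  have hexp : ∀ w, Y.1 (lift w) ∈ expFun M := by
    intro w
    obtain ⟨hmd, -, m, hb⟩ := Y.2.1 (lift w)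
    refine ⟨hmd, fun τ => ?_, m, ?_⟩
    · have h1 : ((M : ℝ) +ᵥ τ : ℍ) = ModularGroup.T ^ (M : ℤ) • τ := by
        rw [UpperHalfPlane.modular_T_zpow_smul]
        simp
      rw [h1, ← fam_rowMul]
      refine congrFun (hval _ _ (Subtype.ext ?_)) τ
      rw [primRed_rowMul, rowMul_T_zpow]
      funext i
      fin_cases i <;> simp
    · obtain ⟨d, rfl⟩ := h
      have hd : d ≠ 0 := right_ne_zero_of_mul (NeZero.ne (M * d))
      have hfun : (fun τ : ℍ => Y.1 (lift w) τ * 𝕢 (M : ℝ) τ ^ m) =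
          (fun τ => Y.1 (lift w) τ * 𝕢 ((M * d : ℕ) : ℝ) τ ^ m) *
            (fun τ : ℍ => 𝕢 ((M * d : ℕ) : ℝ) τ ^ ((d - 1) * m)) := by
        funext τ
        rw [Pi.mul_apply, qParam_level_up (NeZero.ne (M * d)) (NeZero.ne M) (dvd_mul_right M d) τ,
          Nat.mul_div_cancel_left d (NeZero.pos M), ← pow_mul, mul_assoc, ← pow_add]
        congr 2
        obtain ⟨e, rfl⟩ := Nat.exists_eq_succ_of_ne_zero hd
        simp [Nat.succ_mul, add_comm]
      rw [hfun]
      exact hb.mul (isBoundedAtImInfty_qParam_pow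
        (natCast_pos_real (M * d)) ((d - 1) * m))
  refine ⟨⟨fun w => Y.1 (lift w), hexp, fun w γ τ => ?_⟩, Subtype.ext (funext fun v => ?_)⟩
  · dsimp only
    rw [← fam_rowMul]
    exact congrFun (hval _ _ (by rw [hlift, primRed_rowMul, hlift])) τ
  · exact hval _ _ (hlift _)

/-- The exponent of the action of an endomorphism on `exp (2πi/N)`. -/
theorem exists_actsBy_level (σ : ℂ →+* ℂ) (N : ℕ) [NeZero N] : ∃ s : (ZMod N)ˣ, ActsBy σ s := by
  have hprim : IsPrimitiveRoot (zetaN N) N := Complex.isPrimitiveRoot_exp N (NeZero.ne N)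
  obtain ⟨i, hi, hco, he⟩ := hprim.isPrimitiveRoot_iff.mp
    (hprim.map_of_injective σ.injective)
  refine ⟨ZMod.unitOfCoprime i hco, ?_⟩
  rw [ActsBy, ← he, ZMod.coe_unitOfCoprime, ZMod.val_natCast, Nat.mod_eq_of_lt hi]

theorem zetaN_pow (h : M ∣ N) : zetaN N ^ (N / M) = zetaN M := by
  obtain ⟨d, rfl⟩ := h
  rw [Nat.mul_div_cancel_left d (NeZero.pos M), zetaN, zetaN, ← Complex.exp_nat_mul]
  congr 1
  have hd : (d : ℂ) ≠ 0 := Nat.cast_ne_zero.mpr (right_ne_zero_of_mul (NeZero.ne (M * d)))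
  have hM : (M : ℂ) ≠ 0 := Nat.cast_ne_zero.mpr (NeZero.ne M)
  push_cast
  field_simp

theorem ActsBy.red (h : M ∣ N) {σ : ℂ →+* ℂ} {t : (ZMod N)ˣ} (ht : ActsBy σ t) :
    ActsBy σ (Units.map (ZMod.castHom h (ZMod M)).toMonoidHom t) := by
  have hprim : IsPrimitiveRoot (zetaN M) M := Complex.isPrimitiveRoot_exp M (NeZero.ne M)
  rw [ActsBy] at ht ⊢
  rw [← zetaN_pow h, map_pow, ht, ← pow_mul, mul_comm, pow_mul, zetaN_pow h,
    ← Nat.mod_add_div (t : ZMod N).val M, pow_add, pow_mul, hprim.pow_eq_one, one_pow, mul_one]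
  congr 1
  rw [← ZMod.val_natCast, ← map_natCast (ZMod.castHom h (ZMod M)), ZMod.natCast_zmod_val]
  rfl

theorem ActsBy.unique {σ : ℂ →+* ℂ} {s s' : (ZMod M)ˣ} (h : ActsBy σ s) (h' : ActsBy σ s') :
    s = s' := by
  have hprim : IsPrimitiveRoot (zetaN M) M := Complex.isPrimitiveRoot_exp M (NeZero.ne M)
  exact Units.ext (ZMod.val_injective M
    (hprim.pow_inj (ZMod.val_lt _) (ZMod.val_lt _) (h.symm.trans h')))

end Fermat.Agent.DS.G1
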