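import Fermat.Agent.DS.G1.Core.Sheets
import Fermat.Agent.DS.G1.Core.Descend

/-!
# Conjugation of families at an auxiliary level, and conjugate points
-/

set_option autoImplicit false

noncomputable section

open UpperHalfPlane Polynomial
open scoped MatrixGroups

namespace Fermat.Agent.DS.G1

open ModularCurve

variable {M K : ℕ} [NeZero K] {σ : ℂ →+* ℂ} {s : (ZMod M)ˣ}

theorem IsConj.add {X X' Y Y' : Fam M K} (h : IsConj σ s X Y) (h' : IsConj σ s X' Y') :
    IsConj σ s (X + X') (Y + Y') := fun v => by rw [map_add, map_add, map_add, h v, h' v]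

theorem IsConj.mul {X X' Y Y' : Fam M K} (h : IsConj σ s X Y) (h' : IsConj σ s X' Y') :
    IsConj σ s (X * X') (Y * Y') := fun v => by rw [map_mul, map_mul, map_mul, h v, h' v]

theorem IsConj.neg {X Y : Fam M K} (h : IsConj σ s X Y) : IsConj σ s (-X) (-Y) :=
  fun v => by rw [map_neg, map_neg, map_neg, h v]

theorem isConj_zero : IsConj σ s (0 : Fam M K) 0 := fun v => by simp

theorem isConj_one : IsConj σ s (1 : Fam M K) 1 := fun v => by simp

theorem IsConj.pow {X Y : Fam M K} (h : IsConj σ s X Y) : ∀ n : ℕ, IsConj σ s (X ^ n) (Y ^ n)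
  | 0 => by simpa using isConj_one
  | n + 1 => by simpa [pow_succ] using (h.pow n).mul h

theorem coeffMap_C (σ : ℂ →+* ℂ) (c : ℂ) :
    coeffMap σ (HahnSeries.C c) = HahnSeries.C (σ c) := by
  rw [HahnSeries.C_apply, HahnSeries.C_apply, coeffMap_single]

theorem isConj_const (c : ℂ) : IsConj σ s (famConst M K c) (famConst M K (σ c)) := fun v => by
  rw [famExp_famConst, famExp_famConst, coeffMap_C]

theorem isConj_pull {M' : ℕ} (h : M ∣ M') {t : (ZMod M')ˣ}
    (ht : Units.map (ZMod.castHom h (ZMod M)).toMonoidHom t = s) {X Y : Fam M K}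
    (hc : IsConj σ s X Y) : IsConj σ t (famPull h X) (famPull h Y) := fun v => by
  rw [famExp_famPull, famExp_famPull, primRed_twist, ht, hc]

theorem isConj_unique' {X Y Y' : Fam M K}
    (hY : IsConj σ s X Y) (hY' : IsConj σ s X Y') : Y = Y' :=
  fam_ext_exp fun v => by
    have e : twist s (twist s⁻¹ v) = v := by rw [← twist_mul, mul_inv_cancel, twist_one]
    have h1 := hY (twist s⁻¹ v)
    have h2 := hY' (twist s⁻¹ v)
    rw [e] at h1 h2
    rw [h1, h2]

theorem map_constantCoeff (σ : ℂ →+* ℂ) (f : PowerSeries ℂ) :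
    PowerSeries.constantCoeff (PowerSeries.map σ f) = σ (PowerSeries.constantCoeff f) := by
  rw [← PowerSeries.coeff_zero_eq_constantCoeff_apply, PowerSeries.coeff_map,
    PowerSeries.coeff_zero_eq_constantCoeff_apply]

theorem order_map_series (σ : ℂ →+* ℂ) (f : PowerSeries ℂ) :
    (PowerSeries.map σ f).order = f.order := by
  refine le_antisymm (PowerSeries.le_order _ _ fun i hi => ?_) (PowerSeries.le_order_map σ)
  have h := PowerSeries.coeff_of_lt_order i hi
  rwa [PowerSeries.coeff_map, map_eq_zero] at h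

namespace BaseSys

variable {r N : ℕ} [NeZero N] (B : BaseSys r N) {σ : ℂ →+* ℂ} {s : (ZMod N)ˣ}

/-- The induced unit modulo `r`. -/
def redUnit (s : (ZMod N)ˣ) : (ZMod r)ˣ := Units.map (ZMod.castHom B.hr (ZMod r)).toMonoidHom s

theorem map_dP (σ : ℂ →+* ℂ) : B.dP.map σ = B.dP := by
  rw [dP, Polynomial.map_map]
  exact congrArg (fun f => B.D0.map f) (RingHom.ext_int _ _)

theorem isConj_evb (hs : ActsBy σ s) (P : ℂ[X]) :
    IsConj σ (B.redUnit s) (B.evb P) (B.evb (P.map σ)) := by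
  induction P using Polynomial.induction_on' with
  | add p q hp hq => rw [map_add, Polynomial.map_add, map_add]; exact hp.add hq
  | monomial n c =>
    rw [map_monomial, ← C_mul_X_pow_eq_monomial, ← C_mul_X_pow_eq_monomial, map_mul, map_mul,
      map_pow, evb_C, evb_C, evb_X]
    exact (isConj_const c).mul ((B.b_conj σ s hs).pow n)

theorem isConj_dInv (hs : ActsBy σ s) : IsConj σ (B.redUnit s) B.dInv B.dInv := fun v => by
  have h1 := congrArg (famExp (twist (B.redUnit s) v)) B.evb_dP_mul_dInv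
  have h2 := congrArg (fun Z => coeffMap σ (famExp v Z)) B.evb_dP_mul_dInv
  simp only [map_mul, map_one] at h1 h2
  have h3 := B.isConj_evb hs B.dP v
  rw [B.map_dP] at h3
  rw [← h3] at h2
  exact (left_inv_eq_right_inv ((mul_comm _ _).trans h1) h2)

/-- The conjugate base point. -/
def conjBase (σ : ℂ →+* ℂ) (β : B.BasePt) : B.BasePt :=
  ⟨σ β.beta, fun h => β.hbeta (by
    rw [← B.map_dP σ, eval_map, eval₂_at_apply] at h
    exact (map_eq_zero σ).mp h)⟩

theorem taylorAt_map (σ : ℂ →+* ℂ) (β : ℂ) (P : ℂ[X]) :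
    taylorAt (σ β) (P.map σ) = PowerSeries.map σ (taylorAt β P) := by
  ext k
  rw [taylorAt, taylorAt, PowerSeries.coeff_map, Polynomial.coeff_coe, Polynomial.coeff_coe, ← map_taylor, Polynomial.coeff_map]

theorem exists_isConj_base (hs : ActsBy σ s) (Y : Fam r N) :
    ∃ Y', IsConj σ (B.redUnit s) Y Y' ∧
      ∀ β, B.evR (B.conjBase σ β) Y' = PowerSeries.map σ (B.evR β Y) := by
  obtain ⟨P, m, h⟩ := B.exists_rep_top Y
  rw [IsRep] at h
  subst h
  refine ⟨B.evb (P.map σ) * B.dInv ^ m, (B.isConj_evb hs P).mul ((B.isConj_dInv hs).pow m),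
    fun β => ?_⟩
  have he : ∀ Q : ℂ[X], B.evR (B.conjBase σ β) (B.evb (Q.map σ)) =
      PowerSeries.map σ (B.evR β (B.evb Q)) := fun Q => by
    rw [B.evR_evb, B.evR_evb, ← taylorAt_map]; rfl
  have hd : B.evR (B.conjBase σ β) B.dInv = PowerSeries.map σ (B.evR β B.dInv) := by
    have h1 := congrArg (B.evR (B.conjBase σ β)) B.evb_dP_mul_dInv
    have h2 := congrArg (fun Z => PowerSeries.map σ (B.evR β Z)) B.evb_dP_mul_dInv
    simp only [map_mul, map_one] at h1 h2
    have h3 := he B.dP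
    rw [B.map_dP] at h3
    rw [← h3] at h2
    exact left_inv_eq_right_inv ((mul_comm _ _).trans h1) h2
  rw [map_mul, map_mul, map_mul, map_pow, map_pow, map_pow, he, hd]

theorem evR_conj (hs : ActsBy σ s) {Y Y' : Fam r N} (h : IsConj σ (B.redUnit s) Y Y')
    (β : B.BasePt) : B.evR (B.conjBase σ β) Y' = PowerSeries.map σ (B.evR β Y) := by
  haveI := B.neZero_r
  obtain ⟨Y'', h'', he⟩ := B.exists_isConj_base hs Y
  rw [isConj_unique' h h'']
  exact he β

/-- Products over fibres commute with conjugation. -/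
theorem prod_fibre_conj {A : Type*} [CommMonoid A] (s : (ZMod N)ˣ) (w : PrimVec r)
    (f : PrimVec N → A) :
    ∏ v ∈ primFibre B.hr (twist (B.redUnit s) w), f v =
      ∏ v ∈ primFibre B.hr w, f (twist s v) := by
  refine (Finset.prod_nbij' (twist s) (twist s⁻¹) (fun v hv => ?_) (fun v hv => ?_)
    (fun v _ => ?_) (fun v _ => ?_) fun v _ => rfl).symm
  · rw [mem_primFibre] at hv ⊢
    rw [primRed_twist, hv, redUnit]
  · rw [mem_primFibre] at hv ⊢
    rw [primRed_twist, hv, redUnit, ← twist_mul, map_inv, inv_mul_cancel, twist_one]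
  · rw [← twist_mul, inv_mul_cancel, twist_one]
  · rw [← twist_mul, mul_inv_cancel, twist_one]

theorem isConj_famNorm {Z Z' : Fam N N} (h : IsConj σ s Z Z') :
    IsConj σ (B.redUnit s) (famNorm B.hr Z) (famNorm B.hr Z') := fun w => by
  rw [famExp_famNorm, famExp_famNorm, B.prod_fibre_conj, map_prod]
  exact Finset.prod_congr rfl fun v _ => h v

theorem isConj_famCoeff {Z Z' : Fam N N} (h : IsConj σ s Z Z') (k : ℕ) :
    IsConj σ (B.redUnit s) (famCoeff B.hr Z k) (famCoeff B.hr Z' k) := fun w => by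
  have he : ∀ (Y : Fam N N) (u : PrimVec r), famExp u (famCoeff B.hr Y k) =
      ((fibrePoly B.hr Y u).map (expan N)).coeff k := fun Y u => by
    rw [Polynomial.coeff_map]; rfl
  rw [he, he, map_fibrePoly, map_fibrePoly, B.prod_fibre_conj, ← Polynomial.coeff_map,
    Polynomial.map_prod]
  refine congrArg (fun P => Polynomial.coeff P k) (Finset.prod_congr rfl fun v _ => ?_)
  rw [Polynomial.map_sub, Polynomial.map_X, Polynomial.map_C, h v]

theorem isConj_sheetPoly (hs : ActsBy σ s) (k : ℕ) :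
    IsConj σ (B.redUnit s) (B.sheetPoly.coeff k) (B.sheetPoly.coeff k) := by
  rw [sheetPoly, charFam, finsetSum_coeff]
  simp only [coeff_C_mul_X_pow, Finset.sum_ite_eq, Finset.mem_range]
  split_ifs
  · exact B.isConj_famCoeff (B.theta_conj σ s hs) k
  · exact isConj_zero

theorem sheetPoly_map_conj (hs : ActsBy σ s) (β : B.BasePt) :
    B.sheetPoly.map (B.evR (B.conjBase σ β)) =
      (B.sheetPoly.map (B.evR β)).map (PowerSeries.map σ) := by
  ext k : 1
  rw [Polynomial.coeff_map, Polynomial.coeff_map, Polynomial.coeff_map]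
  exact B.evR_conj hs (B.isConj_sheetPoly hs k) β

theorem sheetPoly_map_conjC (hs : ActsBy σ s) (β : B.BasePt) :
    B.sheetPoly.map (B.evC (B.conjBase σ β)) = (B.sheetPoly.map (B.evC β)).map σ := by
  ext k : 1
  rw [Polynomial.coeff_map, Polynomial.coeff_map, Polynomial.coeff_map]
  show PowerSeries.constantCoeff (B.evR _ _) = σ (PowerSeries.constantCoeff (B.evR β _))
  rw [B.evR_conj hs (B.isConj_sheetPoly hs k) β, map_constantCoeff]

/-- The conjugate point. -/
def conjPt (hs : ActsBy σ s) (Q : B.Pt) : B.Pt where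
  toBasePt := B.conjBase σ Q.toBasePt
  th := σ Q.th
  hth := by
    rw [← eval_map, B.sheetPoly_map_conjC hs, eval_map, eval₂_at_apply, eval_map, Q.hth, map_zero]

theorem root_conjPt (hs : ActsBy σ s) (Q : B.Pt) :
    (B.conjPt hs Q).root = PowerSeries.map σ Q.root := by
  refine B.root_series_unique (B.conjBase σ Q.toBasePt) (B.conjPt hs Q).root_spec.1 ?_ ?_
  · rw [← eval_map, B.sheetPoly_map_conj hs, eval_map, eval₂_at_apply, eval_map, Q.root_spec.1,
      map_zero]
  · rw [(B.conjPt hs Q).root_spec.2, map_constantCoeff, Q.root_spec.2]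
    rfl

/-- Conjugates exist at level `N`, compatibly with expansions at points. -/
theorem exists_isConj_exp (hs : ActsBy σ s) (Z : Fam N N) :
    ∃ Z', IsConj σ s Z Z' ∧
      ∀ Q : B.Pt, (B.conjPt hs Q).exp Z' = PowerSeries.map σ (Q.exp Z) := by
  let T : Subring (Fam N N) :=
    { carrier := {Z | ∃ Z', IsConj σ s Z Z' ∧
        ∀ Q : B.Pt, (B.conjPt hs Q).exp Z' = PowerSeries.map σ (Q.exp Z)}
      zero_mem' := ⟨0, isConj_zero, fun Q => by simp⟩
      one_mem' := ⟨1, isConj_one, fun Q => by simp⟩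
      add_mem' := fun ⟨a, ha, ha'⟩ ⟨b, hb, hb'⟩ => ⟨a + b, ha.add hb, fun Q => by
        simp [ha' Q, hb' Q]⟩
      mul_mem' := fun ⟨a, ha, ha'⟩ ⟨b, hb, hb'⟩ => ⟨a * b, ha.mul hb, fun Q => by
        simp [ha' Q, hb' Q]⟩
      neg_mem' := fun ⟨a, ha, ha'⟩ => ⟨-a, ha.neg, fun Q => by simp [ha' Q]⟩ }
  have hpull : ∀ Y : Fam r N, famPull B.hr Y ∈ T := fun Y => by
    obtain ⟨Y', hY', he⟩ := B.exists_isConj_base hs Y
    refine ⟨famPull B.hr Y', isConj_pull B.hr rfl hY', fun Q => ?_⟩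
    rw [Pt.exp_pull, Pt.exp_pull]
    exact he _
  refine B.mem_of_gens T (S := ⊤) le_top (fun c _ => hpull (famConst r N c)) (hpull _) (hpull _)
    ⟨B.theta, B.theta_conj σ s hs, fun Q => ?_⟩ (by rw [intFam_top]; trivial)
  rw [Pt.exp_theta, Pt.exp_theta, B.root_conjPt]

/-- A zero of a conjugate family is a conjugate point. -/
theorem exists_conjPt_of_zero (hs : ActsBy σ s) {Z Z' : Fam N N} (hZ : Z ≠ 0)
    (h : IsConj σ s Z Z') {Q' : B.Pt} (h0 : Q'.val Z' = 0) : ∃ Q, B.conjPt hs Q = Q' := by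
  haveI := B.neZero_r
  obtain ⟨P, m, hP⟩ := B.exists_rep_top (famNorm B.hr Z)
  have hP' : famNorm B.hr Z' = B.evb (P.map σ) * B.dInv ^ m := by
    refine isConj_unique' (B.isConj_famNorm h) ?_
    rw [hP]
    exact (B.isConj_evb hs P).mul ((B.isConj_dInv hs).pow m)
  have hP0 : P ≠ 0 := by
    rintro rfl
    exact B.famNorm_ne_zero hZ (by rw [hP, map_zero, zero_mul])
  have h1 : PowerSeries.constantCoeff (B.evR Q'.toBasePt (famNorm B.hr Z')) = 0 := by
    rw [B.evR_famNorm, map_prod]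
    exact Finset.prod_eq_zero ((mem_sheets B).mpr rfl) h0
  rw [hP', map_mul, map_pow, map_mul, map_pow, B.evR_evb, B.evR_dInv, constantCoeff_taylorAt,
    PowerSeries.constantCoeff_inv, constantCoeff_taylorAt] at h1
  have h2 : Q'.beta ∈ (P.map σ).roots :=
    (mem_roots (Polynomial.map_ne_zero hP0)).mpr
      ((mul_eq_zero.mp h1).resolve_right (pow_ne_zero _ (inv_ne_zero Q'.hbeta)))
  rw [(IsAlgClosed.splits P).roots_map, Multiset.mem_map] at h2
  obtain ⟨β, -, hβ⟩ := h2
  have hdβ : B.dP.eval β ≠ 0 := fun hd => Q'.hbeta (by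
    rw [← hβ, ← B.map_dP σ, eval_map, eval₂_at_apply, hd, map_zero])
  have hb : B.conjBase σ ⟨β, hdβ⟩ = Q'.toBasePt := BasePt.ext' hβ
  set F := B.sheetPoly.map (B.evC ⟨β, hdβ⟩)
  have hF : F ≠ 0 := (B.monic_sheetPoly.map _).ne_zero
  have h3 : Q'.th ∈ (F.map σ).roots := by
    rw [mem_roots (Polynomial.map_ne_zero hF), IsRoot.def, ← B.sheetPoly_map_conjC hs, hb,
      eval_map]
    exact Q'.hth
  rw [(IsAlgClosed.splits F).roots_map, Multiset.mem_map] at h3
  obtain ⟨θ, hθ, hθ'⟩ := h3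
  rw [mem_roots hF, IsRoot.def, eval_map] at hθ
  exact ⟨⟨⟨β, hdβ⟩, θ, hθ⟩, Pt.ext' hb hθ'⟩

end BaseSys

end Fermat.Agent.DS.G1
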