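import Fermat.Agent.DS.G1.Classes.Defs
import Fermat.Agent.DS.G1.BaseExist
import Fermat.Agent.DS.G1.Core.ConjLevel
import Fermat.Prelude.Thm_ModularCurve_coeffMap_qExpand

/-!
# Conjugation of families by endomorphisms of `ℂ`
-/

set_option autoImplicit false

noncomputable section

open UpperHalfPlane
open scoped MatrixGroups

namespace Fermat.Agent.DS.G1

open ModularCurve

variable {M l : ℕ} [NeZero M] [NeZero l]

theorem isConj_unique (σ : ℂ →+* ℂ) (s : (ZMod M)ˣ) {X Y Y' : Fam M M}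
    (h : IsConj σ s X Y) (h' : IsConj σ s X Y') : Y = Y' :=
  isConj_unique' h h'

theorem order_coeffMap_complex (σ : ℂ →+* ℂ) (f : LaurentSeries ℂ) :
    (coeffMap σ f).order = f.order := by
  rcases eq_or_ne f 0 with rfl | hf
  · rw [map_zero, HahnSeries.order_zero]
  have he : coeffMap σ f ≠ 0 := (map_ne_zero _).2 hf
  refine le_antisymm (HahnSeries.order_le_of_coeff_ne_zero ?_)
    (HahnSeries.order_le_of_coeff_ne_zero ?_)
  · rw [coeffMap_coeff, ne_eq, map_eq_zero]
    exact HahnSeries.coeff_order_eq_zero.not.2 hf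
  · intro h
    refine HahnSeries.coeff_order_eq_zero.not.2 he ?_
    rw [coeffMap_coeff, h, map_zero]

/-- Units act trivially on the elements killed by two. -/
theorem unit_mul_of_add_self (u : (ZMod M)ˣ) {a : ZMod M} (ha : a + a = 0) :
    (u : ZMod M) * a = a := by
  have hu : (((u : ZMod M).val : ℕ) : ZMod M) = u := ZMod.natCast_zmod_val _
  rcases Nat.even_or_odd (u : ZMod M).val with ⟨k, hk⟩ | ⟨k, hk⟩
  · have h0 : (u : ZMod M) * a = 0 := by
      rw [← hu, hk, Nat.cast_add]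
      linear_combination (k : ZMod M) * ha
    rw [(Units.mul_right_eq_zero u).mp h0, mul_zero]
  · rw [← hu, hk, Nat.cast_add, Nat.cast_mul, Nat.cast_ofNat, Nat.cast_one]
    linear_combination (k : ZMod M) * ha

/-- A translation fixing a twisted vector up to sign fixes the vector up to sign. -/
theorem rowMul_T_twist (s : (ZMod M)ˣ) (u : PrimVec M) (w : ℕ)
    (h : (rowMul (twist s u) (ModularGroup.T ^ (w : ℤ))).1 = (twist s u).1 ∨
      (rowMul (twist s u) (ModularGroup.T ^ (w : ℤ))).1 = -(twist s u).1) :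
    (rowMul u (ModularGroup.T ^ (w : ℤ))).1 = u.1 ∨
      (rowMul u (ModularGroup.T ^ (w : ℤ))).1 = -u.1 := by
  simp only [rowMul_T_zpow, Int.cast_natCast, funext_iff, Fin.forall_fin_two, twist_fst, twist_snd,
    Matrix.cons_val_zero, Matrix.cons_val_one, Pi.neg_apply] at h ⊢
  rcases h with ⟨-, h1⟩ | ⟨h0, h1⟩
  · exact Or.inl ⟨trivial, by linear_combination h1⟩
  · refine Or.inr ⟨h0, ?_⟩
    have ha : u.1 0 + u.1 0 = 0 := by linear_combination h0
    linear_combination ((s⁻¹ : (ZMod M)ˣ) : ZMod M) * h1 - (w : ZMod M) *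
      unit_mul_of_add_self s⁻¹ ha - (u.1 1 + u.1 1) * s.inv_mul

/-- Every family has a conjugate, and conjugation preserves niceness. -/
theorem exists_isConj (σ : ℂ →+* ℂ) (s : (ZMod M)ˣ) (hs : ActsBy σ s) (X : Fam M M) :
    ∃ Y : Fam M M, IsConj σ s X Y ∧ (NiceFam l X → NiceFam l Y) := by
  haveI : NeZero (4 * M) := ⟨mul_ne_zero (by norm_num) (NeZero.ne M)⟩
  obtain ⟨B⟩ := exists_baseSys (r := 4) (N := 4 * M) (Or.inl rfl) (dvd_mul_right 4 M)
  have h : M ∣ 4 * M := dvd_mul_left M 4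
  haveI : NeZero (4 * M / M) :=
    ⟨(Nat.div_pos (Nat.le_of_dvd (NeZero.pos _) h) (NeZero.pos M)).ne'⟩
  obtain ⟨t, ht⟩ := exists_actsBy_level σ (4 * M)
  have hst : Units.map (ZMod.castHom h (ZMod M)).toMonoidHom t = s := (ht.red h).unique hs
  obtain ⟨Z', hZ', hexp⟩ := B.exists_isConj_exp ht (levelUp h X)
  have hlift : ∀ v : PrimVec (4 * M), twist t (twist t⁻¹ v) = v := fun v => by
    rw [← twist_mul, mul_inv_cancel, twist_one]
  obtain ⟨Y, hY⟩ := exists_levelUp_eq h Z' fun v v' hvv => by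
    rw [← hlift v, ← hlift v', hZ', hZ', famExp_levelUp, famExp_levelUp, primRed_twist,
      primRed_twist, hvv]
  have hconj : IsConj σ s X Y := fun v => by
    obtain ⟨u, rfl⟩ := primRed_surjective h v
    refine qExpand_injective (R := ℂ) (4 * M / M) ?_
    rw [← hst, ← primRed_twist, ← famExp_levelUp, hY, hZ', famExp_levelUp,
      ModularCurve.coeffMap_qExpand]
  refine ⟨Y, hconj, fun hX => ?_⟩
  have hZ0 : levelUp h X ≠ 0 := fun h0 =>
    hX.ne_zero (levelUp_injective h (h0.trans (map_zero _).symm))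
  have hZ'0 : Z' ≠ 0 := fun h0 => by
    have h1 := hZ' (base (4 * M))
    rw [h0, map_zero] at h1
    exact fam_ne_zero_exp hZ0 _ ((map_eq_zero (coeffMap σ)).mp h1.symm)
  have hY0 : Y ≠ 0 := fun h0 => hZ'0 (by rw [← hY, h0, map_zero])
  refine ⟨hY0, fun v τ => ?_, fun v w hw => ?_⟩
  · obtain ⟨u, rfl⟩ := primRed_surjective h v
    have he : Y.1 (primRed h u) = Z'.1 u := by rw [← hY]; rfl
    rw [he, ← B.order_exp_ptOf hZ'0 u τ]
    by_cases hval : (B.ptOf u τ).val Z' = 0
    · obtain ⟨Q, hQ⟩ := B.exists_conjPt_of_zero ht hZ0 hZ' hval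
      obtain ⟨u₀, τ₀, -, hQ₀⟩ := B.exists_ptOf Q (base 4)
      rw [← hQ, hexp, order_map_series, ← hQ₀, B.order_exp_ptOf hZ0]
      exact hX.points (primRed h u₀) τ₀
    · refine ⟨0, ?_⟩
      rw [mul_zero, Nat.cast_zero]
      by_contra h0
      exact hval (PowerSeries.order_ne_zero_iff_constCoeff_eq_zero.mp h0)
  · have hv : twist s (twist s⁻¹ v) = v := by rw [← twist_mul, mul_inv_cancel, twist_one]
    rw [← hv] at hw ⊢
    rw [hconj, order_coeffMap_complex]
    exact hX.cusps _ w (rowMul_T_twist s _ w hw)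

end Fermat.Agent.DS.G1
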