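import Fermat.Agent.DS.G1.Core.Rep
import Mathlib.RingTheory.PowerSeries.Order
import Mathlib.RingTheory.PowerSeries.Inverse
import Mathlib.RingTheory.Polynomial.Resultant.Basic

/-!
# Coordinates of level `N` families over level `r`
-/

set_option autoImplicit false

noncomputable section

open UpperHalfPlane Polynomial Function
open scoped MatrixGroups

namespace Fermat.Agent.DS.G1.BaseSys

open Fermat.Agent.Igusa ModularCurve

variable {r N : ℕ} [NeZero N] (B : BaseSys r N)

/-- The derivative in `Y` of `c₄³ - jΔ` at `b`. -/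
def relDeriv : Fam r N :=
  B.evb (derivative (B.c4P ^ 3)) - jFam r N * B.evb (derivative B.dP)

/-- Power series with coefficients in `S`. -/
def psIn (S : Subring ℂ) : Subring (PowerSeries ℂ) := (PowerSeries.map S.subtype).range

/-- The expansion of `P` at `β`. -/
def taylorAt (β : ℂ) (P : ℂ[X]) : PowerSeries ℂ := ((Polynomial.taylor β P : ℂ[X]) : PowerSeries ℂ)

/-- The number of vectors above a vector of level `r`. -/
def sheetDeg : ℕ := (primFibre B.hr (base r)).card

theorem card_fibre (w : PrimVec r) : (primFibre B.hr w).card = B.sheetDeg :=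
  haveI := B.neZero_r
  card_primFibre w

theorem sheetDeg_pos : 0 < B.sheetDeg :=
  haveI := B.neZero_r
  Finset.card_pos.mpr (primFibre_nonempty _)

theorem famEval_pull (Y : Fam r N) (v : PrimVec N) (τ : ℍ) :
    famEval v τ (famPull B.hr Y) = famEval (primRed B.hr v) τ Y := rfl

/-- The other vectors of the fibre of `v`. -/
def others (v : PrimVec N) : Finset (PrimVec N) :=
  letI := Classical.decEq (PrimVec N)
  (primFibre B.hr (primRed B.hr v)).erase v

theorem mem_others {u v : PrimVec N} :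
    u ∈ B.others v ↔ u ≠ v ∧ primRed B.hr v = primRed B.hr u := by
  simp [others, mem_primFibre, eq_comm]

theorem card_others (v : PrimVec N) : (B.others v).card = B.sheetDeg - 1 := by
  classical
  simp [others, mem_primFibre, B.card_fibre]

theorem others_rowMul [DecidableEq (PrimVec N)] (v : PrimVec N) (γ : SL(2, ℤ)) :
    (B.others v).image (fun u => rowMul u γ) = B.others (rowMul v γ) := by
  ext u
  simp only [Finset.mem_image, mem_others, primRed_rowMul]
  constructor
  · rintro ⟨x, ⟨hne, hx⟩, rfl⟩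
    exact ⟨fun h => hne (rowMul_injective γ h), by rw [primRed_rowMul, hx]⟩
  · rintro ⟨hne, hu⟩
    refine ⟨rowMul u γ⁻¹, ⟨fun h => hne ?_, ?_⟩, by simp [← rowMul_mul]⟩
    · rw [← h, ← rowMul_mul, inv_mul_cancel, rowMul_one]
    · rw [primRed_rowMul, ← hu, ← rowMul_mul, mul_inv_cancel, rowMul_one]

/-- The inverse of `θ_v - θ_u` on a fibre. -/
def invDiff (v u : PrimVec N) : expFun N :=
  haveI := Classical.propDecidable (u ∈ B.others v)
  if h : u ∈ B.others v then
    ⟨fun τ => (B.theta.1 v τ - B.theta.1 u τ)⁻¹,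
      inv_mem_expFun (famAt v B.theta - famAt u B.theta) fun τ =>
        sub_ne_zero.mpr (B.theta_ne v u (mem_others B |>.mp h).1.symm (mem_others B |>.mp h).2 τ)⟩
  else 0

theorem invDiff_apply {v u : PrimVec N} (h : u ∈ B.others v) (τ : ℍ) :
    (B.invDiff v u : ℍ → ℂ) τ = (B.theta.1 v τ - B.theta.1 u τ)⁻¹ := by
  rw [invDiff, dif_pos h]

theorem expan_invDiff_mem {v u : PrimVec N} (h : u ∈ B.others v) :
    expan N (B.invDiff v u) ∈ serIn (zetaRing N) := by
  obtain ⟨hne, hred⟩ := (mem_others B).mp h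
  obtain ⟨w, hw, hwu⟩ := B.theta_unitDiff v u hne.symm hred
  have h1 : (famAt v B.theta - famAt u B.theta) * B.invDiff v u = 1 := by
    refine Subtype.ext (funext fun τ => ?_)
    show (B.theta.1 v τ - B.theta.1 u τ) * (B.invDiff v u : ℍ → ℂ) τ = 1
    rw [B.invDiff_apply h, mul_inv_cancel₀ (sub_ne_zero.mpr (B.theta_ne v u hne.symm hred τ))]
  have h2 := congrArg (expan N) h1
  rw [map_mul, map_sub, map_one] at h2
  have : expan N (B.invDiff v u) = w := by
    calc expan N (B.invDiff v u) = ((famExp v B.theta - famExp u B.theta) * w) *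
          expan N (B.invDiff v u) := by rw [hwu, one_mul]
      _ = ((famExp v B.theta - famExp u B.theta) * expan N (B.invDiff v u)) * w := by ring
      _ = w := by rw [show famExp v B.theta = expan N (famAt v B.theta) from rfl,
          show famExp u B.theta = expan N (famAt u B.theta) from rfl, h2, one_mul]
  rw [this]
  exact hw

/-- The interpolation polynomial of `v`. -/
def lagPoly (v : PrimVec N) : (expFun N)[X] :=
  ∏ u ∈ B.others v, C (B.invDiff v u) * (X - C (famAt u B.theta))

theorem eval_lagPoly (v : PrimVec N) (τ : ℍ) :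
    (B.lagPoly v).map ((Pi.evalRingHom (fun _ : ℍ => ℂ) τ).comp (expFun N).subtype) =
      ∏ u ∈ B.others v, C (B.theta.1 v τ - B.theta.1 u τ)⁻¹ * (X - C (B.theta.1 u τ)) := by
  rw [lagPoly, Polynomial.map_prod]
  refine Finset.prod_congr rfl fun u hu => ?_
  simp [B.invDiff_apply hu]

/-- Its coefficients as families. -/
def lagFam (k : ℕ) : Fam N N :=
  ⟨fun v => ((B.lagPoly v).coeff k : ℍ → ℂ), fun v => Subtype.coe_prop _, fun v γ τ => by
    classical
    let ev : ℍ → (expFun N →+* ℂ) := fun z => (Pi.evalRingHom _ z).comp (expFun N).subtype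
    show ev τ ((B.lagPoly (rowMul v γ)).coeff k) = ev (γ • τ) ((B.lagPoly v).coeff k)
    rw [← Polynomial.coeff_map, ← Polynomial.coeff_map, B.eval_lagPoly, B.eval_lagPoly,
      ← B.others_rowMul, Finset.prod_image fun _ _ _ _ e => rowMul_injective γ e]
    simp only [fam_rowMul]⟩

theorem lagFam_mem (k : ℕ) : B.lagFam k ∈ intFam N N (zetaRing N) := by
  refine mem_intFam.mpr fun v => mem_serIn.mp ?_
  have hmem : (B.lagPoly v).map (expan N) ∈
      (Polynomial.mapRingHom (serIn (zetaRing N)).subtype).range := by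
    rw [lagPoly, Polynomial.map_prod]
    refine prod_mem fun u hu => ⟨C ⟨_, B.expan_invDiff_mem hu⟩ *
      (X - C ⟨_, mem_serIn.mpr (mem_intFam.mp B.theta_mem u)⟩), by simp [famExp]⟩
  obtain ⟨P, hP⟩ := hmem
  rw [show famExp v (B.lagFam k) = expan N ((B.lagPoly v).coeff k) from rfl, ← Polynomial.coeff_map,
    ← hP]
  simp

theorem natDegree_lagPoly (v : PrimVec N) : (B.lagPoly v).natDegree < B.sheetDeg := by
  have h : (B.lagPoly v).natDegree ≤ ∑ u ∈ B.others v, 1 :=
    (natDegree_prod_le _ _).trans (Finset.sum_le_sum fun u _ =>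
      (natDegree_C_mul_le _ _).trans (natDegree_X_sub_C_le _))
  rw [Finset.sum_const, smul_eq_mul, mul_one, B.card_others] at h
  have := B.sheetDeg_pos
  omega

theorem sum_lagFam (v u : PrimVec N) (τ : ℍ) :
    ∑ k ∈ Finset.range B.sheetDeg, (B.lagFam k).1 v τ * B.theta.1 u τ ^ k =
      ∏ x ∈ B.others v, (B.theta.1 v τ - B.theta.1 x τ)⁻¹ * (B.theta.1 u τ - B.theta.1 x τ) := by
  set ev := (Pi.evalRingHom (fun _ : ℍ => ℂ) τ).comp (expFun N).subtype
  have h : ∏ x ∈ B.others v, (B.theta.1 v τ - B.theta.1 x τ)⁻¹ *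
      (B.theta.1 u τ - B.theta.1 x τ) = ((B.lagPoly v).map ev).eval (B.theta.1 u τ) := by
    rw [B.eval_lagPoly, eval_prod]
    simp
  rw [h, eval_eq_sum_range' (natDegree_map_le.trans_lt (B.natDegree_lagPoly v))]
  exact Finset.sum_congr rfl fun k _ => by rw [Polynomial.coeff_map]; rfl

/-- The coordinates. -/
def coord (Z : Fam N N) (k : ℕ) : Fam r N := famTrace B.hr (Z * B.lagFam k)

theorem coord_mem {S : Subring ℂ} (hS : zetaRing N ≤ S) {Z : Fam N N} (hZ : Z ∈ intFam N N S)
    (k : ℕ) : B.coord Z k ∈ B.repRing S :=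
  B.mem_repRing_of_mem_intFam hS
    (famTrace_mem_intFam (mul_mem hZ (intFam_mono hS (B.lagFam_mem k))))

theorem interp (Z : Fam N N) :
    Z = ∑ k ∈ Finset.range B.sheetDeg, famPull B.hr (B.coord Z k) * B.theta ^ k := by
  refine fam_ext_eval fun v τ => ?_
  simp only [map_sum, map_mul, map_pow]
  simp only [famEval_apply, famPull_apply]
  have hc : ∀ k, (B.coord Z k).1 (primRed B.hr v) τ =
      ∑ u ∈ primFibre B.hr (primRed B.hr v), Z.1 u τ * (B.lagFam k).1 u τ := fun k => by
    simp [coord, famTrace]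
  simp only [hc, Finset.sum_mul]
  rw [Finset.sum_comm]
  simp only [mul_assoc, ← Finset.mul_sum, B.sum_lagFam]
  rw [Finset.sum_eq_single_of_mem v (mem_primFibre.mpr rfl) fun u hu hne => ?_]
  · rw [Finset.prod_eq_one, mul_one]
    intro x hx
    obtain ⟨hxne, hxred⟩ := (mem_others B).mp hx
    exact inv_mul_cancel₀ (sub_ne_zero.mpr (B.theta_ne v x hxne.symm hxred τ))
  · have hmem : v ∈ B.others u := (mem_others B).mpr ⟨hne.symm, mem_primFibre.mp hu⟩
    rw [Finset.prod_eq_zero hmem (by simp), mul_zero]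

/-- A subring containing the pull backs and `theta` is everything. -/
theorem mem_of_gens (T : Subring (Fam N N)) {S : Subring ℂ} (hS : zetaRing N ≤ S)
    (hC : ∀ c ∈ S, famConst N N c ∈ T) (hb : famPull B.hr B.b ∈ T)
    (hd : famPull B.hr B.dInv ∈ T) (ht : B.theta ∈ T) {Z : Fam N N} (hZ : Z ∈ intFam N N S) :
    Z ∈ T := by
  have hle : B.repRing S ≤ T.comap (famPull B.hr) := Subring.closure_le.mpr <| by
    rintro x (⟨c, hc, rfl⟩ | rfl | rfl)
    · exact hC c hc
    · exact hb
    · exact hd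
  rw [B.interp Z]
  exact sum_mem fun k _ => mul_mem (hle (B.coord_mem hS hZ k)) (pow_mem ht k)

/-- Evaluation of polynomials at `theta`. -/
def evTheta : (Fam r N)[X] →+* Fam N N := eval₂RingHom (famPull B.hr) B.theta

/-- The coordinates as a polynomial. -/
def coordPoly (Z : Fam N N) : (Fam r N)[X] :=
  ∑ k ∈ Finset.range B.sheetDeg, C (B.coord Z k) * X ^ k

theorem evTheta_coordPoly (Z : Fam N N) : B.evTheta (B.coordPoly Z) = Z := by
  conv_rhs => rw [B.interp Z]
  simp [evTheta, coordPoly, eval₂_finsetSum]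

theorem famEval_evTheta (P : (Fam r N)[X]) (v : PrimVec N) (τ : ℍ) :
    famEval v τ (B.evTheta P) =
      (P.map (famEval (primRed B.hr v) τ)).eval (B.theta.1 v τ) := by
  rw [evTheta, coe_eval₂RingHom, hom_eval₂, eval_map]
  rfl

theorem degree_coordPoly (Z : Fam N N) : (B.coordPoly Z).degree < B.sheetDeg := by
  refine (degree_sum_le _ _).trans_lt ((Finset.sup_lt_iff (WithBot.bot_lt_coe _)).mpr fun k hk => ?_)
  exact (degree_C_mul_X_pow_le k _).trans_lt (WithBot.coe_lt_coe.mpr (Finset.mem_range.mp hk))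

theorem eq_zero_of_evTheta {P : (Fam r N)[X]} (hP : P.degree < B.sheetDeg)
    (h : B.evTheta P = 0) : P = 0 := by
  classical
  haveI := B.neZero_r
  ext k : 1
  refine fam_ext_eval fun w τ => ?_
  rw [coeff_zero, map_zero, ← Polynomial.coeff_map]
  set Q := P.map (famEval w τ)
  suffices hQ : Q = 0 by rw [hQ, coeff_zero]
  refine eq_zero_of_degree_lt_of_eval_finset_eq_zero
    ((primFibre B.hr w).image fun v => B.theta.1 v τ) ?_ fun x hx => ?_
  · refine (degree_map_le).trans_lt (hP.trans_le ?_)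
    rw [Finset.card_image_of_injOn, B.card_fibre]
    intro v hv u hu huv
    by_contra hne
    exact B.theta_ne v u hne
      (by rw [mem_primFibre.mp hv, mem_primFibre.mp hu]) τ huv
  · obtain ⟨v, hv, rfl⟩ := Finset.mem_image.mp hx
    have h1 := congrArg (famEval v τ) h
    rw [famEval_evTheta, mem_primFibre.mp hv, map_zero] at h1
    exact h1

theorem coordPoly_evTheta {P : (Fam r N)[X]} (hP : P.degree < B.sheetDeg) :
    B.coordPoly (B.evTheta P) = P :=
  sub_eq_zero.mp <| B.eq_zero_of_evTheta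
    ((degree_sub_le _ _).trans_lt (max_lt (B.degree_coordPoly _) hP))
    (by rw [map_sub, evTheta_coordPoly, sub_self])

/-- The characteristic polynomial of a family over level `r`. -/
def charFam (Z : Fam N N) : (Fam r N)[X] :=
  ∑ k ∈ Finset.range (B.sheetDeg + 1), C (famCoeff B.hr Z k) * X ^ k

theorem map_charFam (Z : Fam N N) (w : PrimVec r) (τ : ℍ) :
    (B.charFam Z).map (famEval w τ) =
      ∏ v ∈ primFibre B.hr w, (X - C (Z.1 v τ)) := by
  set ev := (Pi.evalRingHom (fun _ : ℍ => ℂ) τ).comp (expFun N).subtype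
  have h : ∏ v ∈ primFibre B.hr w, (X - C (Z.1 v τ)) = (fibrePoly B.hr Z w).map ev := by
    simp [fibrePoly, Polynomial.map_prod, ev]
  rw [h]
  ext k
  rw [Polynomial.coeff_map, Polynomial.coeff_map, charFam, finsetSum_coeff]
  simp only [coeff_C_mul_X_pow, Finset.sum_ite_eq, Finset.mem_range]
  split_ifs with hk
  · rfl
  · have : (fibrePoly B.hr Z w).coeff k = 0 := by
      refine coeff_eq_zero_of_natDegree_lt ((natDegree_prod_le _ _).trans_lt ?_)
      refine (Finset.sum_le_sum fun v _ => natDegree_X_sub_C_le _).trans_lt ?_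
      rw [Finset.sum_const, smul_eq_mul, mul_one, B.card_fibre]
      omega
    rw [this, map_zero, map_zero]

theorem coeff_charFam_deg (Z : Fam N N) : (B.charFam Z).coeff B.sheetDeg = 1 :=
  fam_ext_eval fun w τ => by
    rw [← Polynomial.coeff_map, B.map_charFam, map_one]
    have hm : (∏ v ∈ primFibre B.hr w, (X - C (Z.1 v τ))).Monic :=
      monic_prod_of_monic _ _ fun v _ => monic_X_sub_C _
    conv_lhs => rw [← B.card_fibre w,
      ← natDegree_finsetProd_X_sub_C_eq_card (primFibre B.hr w) fun v => Z.1 v τ]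
    exact hm

theorem monic_charFam (Z : Fam N N) : (B.charFam Z).Monic ∧ (B.charFam Z).natDegree = B.sheetDeg := by
  haveI := B.neZero_r
  have hle : (B.charFam Z).natDegree ≤ B.sheetDeg := by
    refine natDegree_sum_le_of_forall_le _ _ fun k hk => (natDegree_C_mul_X_pow_le _ _).trans ?_
    have := Finset.mem_range.mp hk
    omega
  have h1 := B.coeff_charFam_deg Z
  exact ⟨monic_of_natDegree_le_of_coeff_eq_one _ hle h1,
    le_antisymm hle (le_natDegree_of_ne_zero (by rw [h1]; exact one_ne_zero))⟩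

theorem coeff_charFam_mem {S : Subring ℂ} (hS : zetaRing N ≤ S) {Z : Fam N N}
    (hZ : Z ∈ intFam N N S) (k : ℕ) : (B.charFam Z).coeff k ∈ B.repRing S := by
  rw [charFam, finsetSum_coeff]
  refine sum_mem fun i _ => ?_
  rw [coeff_C_mul_X_pow]
  split_ifs
  · exact B.mem_repRing_of_mem_intFam hS (famCoeff_mem_intFam B.hr hZ i)
  · exact zero_mem _

theorem coordPoly_coeff_mem {S : Subring ℂ} (hS : zetaRing N ≤ S) {Z : Fam N N}
    (hZ : Z ∈ intFam N N S) (k : ℕ) : (B.coordPoly Z).coeff k ∈ B.repRing S := by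
  rw [coordPoly, finsetSum_coeff]
  refine sum_mem fun i _ => ?_
  rw [coeff_C_mul_X_pow]
  split_ifs
  · exact B.coord_mem hS hZ i
  · exact zero_mem _

theorem evTheta_charFam_theta : B.evTheta (B.charFam B.theta) = 0 :=
  fam_ext_eval fun v τ => by
    rw [famEval_evTheta, B.map_charFam, map_zero, eval_prod]
    exact Finset.prod_eq_zero (mem_primFibre.mpr rfl) (by simp)

theorem coordPoly_mul (Y Z : Fam N N) :
    B.coordPoly (Y * Z) = (B.coordPoly Y * B.coordPoly Z) %ₘ B.charFam B.theta := by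
  haveI := B.neZero_r
  obtain ⟨hm, hd⟩ := B.monic_charFam B.theta
  set P := B.coordPoly Y * B.coordPoly Z
  have hdeg : (P %ₘ B.charFam B.theta).degree < B.sheetDeg := by
    refine (degree_modByMonic_lt _ hm).trans_le ?_
    rw [degree_eq_natDegree hm.ne_zero, hd]
  conv_rhs => rw [← B.coordPoly_evTheta hdeg]
  congr 1
  conv_rhs => rw [modByMonic_eq_sub_mul_div P (B.charFam B.theta)]
  rw [map_sub, map_mul, map_mul, evTheta_coordPoly, evTheta_coordPoly, evTheta_charFam_theta,
    zero_mul, sub_zero]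

end Fermat.Agent.DS.G1.BaseSys
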