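import Fermat.Agent.DS.G1.Core.Sheets
import Fermat.Agent.DS.G1.Core.Algebraize

/-!
# Level `N` families from approximations
-/

set_option autoImplicit false

noncomputable section

open Polynomial

namespace Fermat.Agent.DS.G1.BaseSys

variable {r N : ℕ} [NeZero N] (B : BaseSys r N)

/-- `∑ₖ lag_{u,k} θ_v^k = δ_{uv}` on a fibre. -/
theorem sum_lagFam_exp [DecidableEq (PrimVec N)] {u v : PrimVec N}
    (huv : primRed B.hr u = primRed B.hr v) :
    ∑ k ∈ Finset.range B.sheetDeg, famExp u (B.lagFam k) * famExp v B.theta ^ k =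
      if u = v then 1 else 0 := by
  have h : ∑ k ∈ Finset.range B.sheetDeg, famAt u (B.lagFam k) * famAt v B.theta ^ k =
      if u = v then 1 else 0 := by
    refine Subtype.ext (funext fun τ => ?_)
    show ((Pi.evalRingHom (fun _ : UpperHalfPlane => ℂ) τ).comp (expFun N).subtype) _ =
      ((Pi.evalRingHom (fun _ : UpperHalfPlane => ℂ) τ).comp (expFun N).subtype) _
    rw [map_sum, apply_ite ((Pi.evalRingHom (fun _ : UpperHalfPlane => ℂ) τ).comp
      (expFun N).subtype), map_one, map_zero]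
    simp only [map_mul, map_pow]
    refine (B.sum_lagFam u v τ).trans ?_
    split_ifs with he
    · subst he
      refine Finset.prod_eq_one fun x hx => inv_mul_cancel₀ (sub_ne_zero.mpr ?_)
      obtain ⟨hne, hred⟩ := (mem_others B).mp hx
      exact B.theta_ne u x hne.symm hred τ
    · exact Finset.prod_eq_zero ((mem_others B).mpr ⟨Ne.symm he, huv⟩) (by simp)
  have h2 := congrArg (expan N) h
  rw [map_sum, apply_ite (expan N), map_one, map_zero] at h2
  simp only [map_mul, map_pow] at h2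
  exact h2

/-- The sheets over an integral base point are integral. -/
theorem isIn_of_base {p : ℕ} (P : PlaceRing p) (hS : zetaRing N ≤ P.A) (Q : B.Pt)
    (hQ : Q.toBasePt.IsIn P.A) : Q.IsIn P.A := by
  refine ⟨hQ, P.mem_of_isRoot_monic (G := B.sheetPoly.map (B.evC Q.toBasePt)) (fun k => ?_)
    (B.monic_sheetPoly.map _) (by rw [eval_map]; exact Q.hth)⟩
  rw [Polynomial.coeff_map]
  exact B.evC_mem _ hQ (B.coeff_charFam_mem hS (intFam_mono hS B.theta_mem) k)

theorem psDvd_sum {p : ℕ} {P : PlaceRing p} {c : ℂ} {ι : Type*} (s : Finset ι)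
    {f : ι → PowerSeries ℂ} (h : ∀ i ∈ s, PsDvd P c (f i)) : PsDvd P c (∑ i ∈ s, f i) := by
  intro k
  choose g hg hf using fun i : s => h i i.2 k
  refine ⟨∑ i : s, g i, sum_mem fun i _ => hg i, ?_⟩
  rw [map_sum, Finset.mul_sum, ← Finset.sum_coe_sort]
  exact Finset.sum_congr rfl fun i _ => hf i

theorem psDvd_mul_left {p : ℕ} {P : PlaceRing p} {c : ℂ} {x y : PowerSeries ℂ}
    (hx : PsDvd P c x) (hy : y ∈ psIn P.A) : PsDvd P c (y * x) := by
  obtain ⟨z, hz, rfl⟩ := psDvd_iff.mp hx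
  exact psDvd_iff.mpr ⟨y * z, mul_mem hy hz, by ring⟩

/-- Series `a v` that are, after multiplication by powers of `s`, congruent to level `N` families
modulo every power of `π`, and regular at the points above the zeros of `s`, become a level `N`
family after multiplication by `relDeriv`. -/
theorem exists_fam_of_approx {p : ℕ} (hp : p.Prime) (P : PlaceRing p) (hS : zetaRing N ≤ P.A)
    {π : ℂ} (hπ : π ∈ P.maxIdeal) (hπ0 : π ≠ 0)
    (a : PrimVec N → LaurentSeries ℂ) (ha : ∀ v, a v ∈ serIn P.A)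
    {s : ℂ[X]} (hs : s ∈ polyIn P.A) (hs0 : ∃ k, s.coeff k ∉ P.maxIdeal)
    (h : ∀ n : ℕ, ∃ (e m : ℕ) (Y : Fam N N), Y ∈ intFam N N P.A ∧
      (∀ v, P.SerDvd (π ^ n)
        (famExp (primRed B.hr v) (B.evb (s ^ e * B.dP ^ m)) * a v - famExp v Y)) ∧
      ∀ Q : B.Pt, Q.IsIn P.A → s.eval Q.beta = 0 →
        ∃ g ∈ psIn P.A, ∀ k, ∃ c ∈ P.A,
          PowerSeries.coeff k (taylorAt Q.beta (s ^ e * B.dP ^ m) * g - Q.exp Y) = π ^ n * c) :
    ∃ Φ ∈ intFam N N P.A, ∀ v, famExp v Φ = famExp (primRed B.hr v) B.relDeriv * a v := by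
  classical
  have := B.neZero_r
  have hlag : ∀ k u, famExp u (B.lagFam k) ∈ serIn P.A := fun k u =>
    mem_serIn.mpr (mem_intFam.mp (intFam_mono hS (B.lagFam_mem k)) u)
  -- the coordinates of `a`
  let ak : ℕ → PrimVec r → LaurentSeries ℂ := fun k w =>
    ∑ u ∈ primFibre B.hr w, a u * famExp u (B.lagFam k)
  have hcoord : ∀ k, ∃ G ∈ intFam r N P.A, ∀ w, famExp w G = famExp w B.relDeriv * ak k w := by
    intro k
    refine B.exists_fam_of_congr hp P hS hπ hπ0 (ak k)
      (fun w => sum_mem fun u _ => mul_mem (ha u) (hlag k u)) hs hs0 fun n => ?_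
    obtain ⟨e, m, Y, hY, hser, hloc⟩ := h n
    obtain ⟨T, hT, m', hm'⟩ := B.exists_rep_of_mem (B.coord_mem hS hY k)
    have hTe : B.evb T = B.evb (B.dP ^ m') * B.coord Y k := by
      rw [hm', map_pow, mul_left_comm, ← mul_pow, evb_dP_mul_dInv, one_pow, mul_one]
    refine ⟨e, m + m', T, hT, fun w => ?_, fun β hβ hb hne hd => ?_⟩
    · have h1 : P.SerDvd (π ^ n)
          (famExp w (B.evb (s ^ e * B.dP ^ m)) * ak k w - famExp w (B.coord Y k)) := by
        rw [coord, famExp_famTrace, Finset.mul_sum, ← Finset.sum_sub_distrib]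
        refine P.serDvd_sum _ _ fun u hu => ?_
        rw [map_mul (famExp u) Y, ← mul_assoc, ← sub_mul, ← mem_primFibre.mp hu, mul_comm]
        exact (hser u).mul_left (hlag k u)
      have h2 := h1.mul_left (mem_serIn.mpr (mem_intFam.mp (B.repRing_le hS
        (B.evb_mem_repRing (pow_mem B.dP_mem_polyIn m'))) w))
      rw [pow_add, hTe]
      convert h2 using 1
      simp only [map_mul]
      ring
    · let β₀ : B.BasePt := ⟨β, hne⟩
      have hβ₀ : β₀.IsIn P.A := ⟨hβ, hd⟩
      have hQin : ∀ Q ∈ B.sheets β₀, Q.IsIn P.A := fun Q hQ =>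
        B.isIn_of_base P hS Q ((mem_sheets B).mp hQ ▸ hβ₀)
      have hQb : ∀ Q ∈ B.sheets β₀, Q.beta = β := fun Q hQ =>
        congrArg BasePt.beta ((mem_sheets B).mp hQ)
      choose g hg hgd using fun Q : B.sheets β₀ =>
        hloc Q.1 (hQin Q.1 Q.2) (by rw [hQb Q.1 Q.2]; exact hb)
      let gt : B.Pt → PowerSeries ℂ := fun Q =>
        if hQ : Q ∈ B.sheets β₀ then g ⟨Q, hQ⟩ * Q.exp (B.lagFam k) else 0
      refine ⟨∑ Q ∈ B.sheets β₀, gt Q, sum_mem fun Q hQ => ?_, ?_⟩
      · simp only [gt, dif_pos hQ]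
        exact mul_mem (hg ⟨Q, hQ⟩) (Q.exp_mem hS (hQin Q hQ) (intFam_mono hS (B.lagFam_mem k)))
      show PsDvd P (π ^ n) _
      have hT' : taylorAt β T =
          taylorAt β (B.dP ^ m') * ∑ Q ∈ B.sheets β₀, Q.exp Y * Q.exp (B.lagFam k) := by
        have := congrArg (B.evR β₀) hTe
        rw [map_mul, B.evR_evb, B.evR_evb, coord, B.evR_famTrace] at this
        simpa only [map_mul] using this
      rw [pow_add, ← mul_assoc, taylorAt_mul', hT', mul_comm (taylorAt β (s ^ e * B.dP ^ m)),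
        mul_assoc, ← mul_sub, Finset.mul_sum, ← Finset.sum_sub_distrib]
      refine psDvd_mul_left (psDvd_sum _ fun Q hQ => ?_)
        (taylorAt_mem_psIn hβ (pow_mem B.dP_mem_polyIn m'))
      simp only [gt, dif_pos hQ]
      rw [← mul_assoc, ← sub_mul, mul_comm]
      refine psDvd_mul_left ?_ (Q.exp_mem hS (hQin Q hQ) (intFam_mono hS (B.lagFam_mem k)))
      have := hgd ⟨Q, hQ⟩
      rw [hQb Q hQ] at this
      exact this
  choose G hG hGe using hcoord
  refine ⟨∑ k ∈ Finset.range B.sheetDeg, famPull B.hr (G k) * B.theta ^ k,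
    sum_mem fun k _ => mul_mem ?_ (pow_mem (intFam_mono hS B.theta_mem) k), fun v => ?_⟩
  · exact mem_intFam.mpr fun u i => by rw [famExp_famPull]; exact mem_intFam.mp (hG k) _ i
  simp only [map_sum, map_mul, map_pow, famExp_famPull, hGe, ak, Finset.mul_sum, Finset.sum_mul]
  rw [Finset.sum_comm]
  calc ∑ u ∈ primFibre B.hr (primRed B.hr v), ∑ k ∈ Finset.range B.sheetDeg,
        famExp (primRed B.hr v) B.relDeriv * (a u * famExp u (B.lagFam k)) *
          famExp v B.theta ^ k
      = ∑ u ∈ primFibre B.hr (primRed B.hr v),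
          famExp (primRed B.hr v) B.relDeriv * a u * (if u = v then 1 else 0) := by
        refine Finset.sum_congr rfl fun u hu => ?_
        rw [← B.sum_lagFam_exp (mem_primFibre.mp hu), Finset.mul_sum]
        exact Finset.sum_congr rfl fun k _ => by ring
    _ = _ := by
        rw [Finset.sum_eq_single_of_mem v (mem_primFibre.mpr rfl) fun u _ hne => by
          rw [if_neg hne, mul_zero]]
        rw [if_pos rfl, mul_one]

end Fermat.Agent.DS.G1.BaseSys
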