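import Fermat.Agent.DS.G1.Fam
import Mathlib.RingTheory.Algebraic.Basic

/-!
# Places of the algebraic numbers above a prime, as subrings of `ℂ`
-/

set_option autoImplicit false

noncomputable section

open Polynomial

namespace Fermat.Agent.DS.G1

/-- A valuation ring of the algebraic numbers in `ℂ` whose maximal ideal contains `p`. -/
structure PlaceRing (p : ℕ) where
  /-- The ring. -/
  A : Subring ℂ
  algebraic : ∀ x ∈ A, IsAlgebraic ℚ x
  total : ∀ x : ℂ, IsAlgebraic ℚ x → x ∈ A ∨ x⁻¹ ∈ A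
  not_unit : (p : ℂ)⁻¹ ∉ A

namespace PlaceRing

variable {p : ℕ} (P : PlaceRing p)

/-- The maximal ideal. -/
def maxIdeal : Set ℂ := {x | x ∈ P.A ∧ (x = 0 ∨ x⁻¹ ∉ P.A)}

/-- Congruence of series modulo the maximal ideal. -/
def SerCongr (s t : LaurentSeries ℂ) : Prop := ∀ n, s.coeff n - t.coeff n ∈ P.maxIdeal

/-- A series with a unit coefficient. -/
def HasUnitCoeff (s : LaurentSeries ℂ) : Prop := ∃ n, s.coeff n ∉ P.maxIdeal

/-- A series is divisible by `c` among the series with coefficients in `A`. -/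
def SerDvd (c : ℂ) (s : LaurentSeries ℂ) : Prop := ∃ t ∈ serIn P.A, s = HahnSeries.C c * t

end PlaceRing

end Fermat.Agent.DS.G1
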