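import Fermat.Agent.DS.G1.Core.Sheets
import Mathlib.RingTheory.Multiplicity

/-!
# Primes dividing the image of a family correspond to points
-/

set_option autoImplicit false

noncomputable section

open Polynomial

namespace Fermat.Agent.DS.G1.BaseSys

variable {r N : ℕ} [NeZero N] (B : BaseSys r N) {K : Subfield ℂ} (hS : zetaRing N ≤ K.toSubring)

/-- A level `r` representable family as a level `N` family over the field. -/
def pullK : B.repRing K.toSubring →+* intFam N N K.toSubring :=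
  ((famPull B.hr).comp (B.repRing K.toSubring).subtype).codRestrict (intFam N N K.toSubring)
    fun Y => mem_intFam.mpr fun v n => by
      rw [RingHom.comp_apply, famExp_famPull]
      exact mem_intFam.mp (B.repRing_le hS Y.2) _ n

/-- A constant as a level `N` family over the field. -/
def constK : K →+* intFam N N K.toSubring :=
  ((famConst N N).comp K.subtype).codRestrict (intFam N N K.toSubring) fun c =>
    mem_intFam.mpr fun v => mem_serIn.mp (by
      rw [RingHom.comp_apply, famExp_famConst]; exact C_mem_serIn c.2)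

/-- `theta` over the field. -/
def thetaK : intFam N N K.toSubring := ⟨B.theta, intFam_mono hS B.theta_mem⟩

theorem eval_mem_field {P : ℂ[X]} (hP : P ∈ polyIn K.toSubring) {β : ℂ} (hβ : β ∈ K) :
    P.eval β ∈ K :=
  eval_mem_of_polyIn hP hβ

section

variable {R : Type*} [CommRing R] [IsDomain R] (χ : intFam N N K.toSubring →+* R)

/-- The values of polynomials in `b`. -/
def chiPoly : polyIn K.toSubring →+* R :=
  (χ.comp (B.pullK hS)).comp ((B.evb.comp (polyIn K.toSubring).subtype).codRestrict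
    (B.repRing K.toSubring) fun P => B.evb_mem_repRing P.2)

theorem chiPoly_C {c : ℂ} (hc : c ∈ K) :
    B.chiPoly hS χ ⟨C c, C_mem_polyIn hc⟩ = χ (constK ⟨c, hc⟩) := by
  refine congrArg χ (Subtype.ext ?_)
  show famPull B.hr (B.evb (C c)) = famConst N N c
  rw [evb_C]
  rfl

theorem chiPoly_eq {β : ℂ} (hβ : β ∈ K)
    (h : B.chiPoly hS χ ⟨X - C β, sub_mem X_mem_polyIn (C_mem_polyIn hβ)⟩ = 0)
    (T : polyIn K.toSubring) :
    B.chiPoly hS χ T = χ (constK ⟨T.1.eval β, eval_mem_field T.2 hβ⟩) := by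
  rw [← B.chiPoly_C hS χ (eval_mem_field T.2 hβ), ← sub_eq_zero, ← map_sub]
  have hlin : X - C β ∈ polyIn K.toSubring := sub_mem X_mem_polyIn (C_mem_polyIn hβ)
  have e : T - ⟨C (T.1.eval β), C_mem_polyIn (eval_mem_field T.2 hβ)⟩ =
      (⟨X - C β, hlin⟩ : polyIn K.toSubring) *
        ⟨T.1 /ₘ (X - C β), (divByMonic_mem_polyIn T.2 hlin (monic_X_sub_C β)).1⟩ := by
    refine Subtype.ext ?_
    show T.1 - C (T.1.eval β) = (X - C β) * (T.1 /ₘ (X - C β))
    have := modByMonic_add_div T.1 (X - C β)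
    rw [modByMonic_X_sub_C_eq_C_eval] at this
    linear_combination -this
  rw [e, map_mul, h, zero_mul]

theorem exists_root_chiPoly {s : ℂ[X]} (hsK : s ∈ polyIn K.toSubring) (hs0 : s ≠ 0)
    (hsplit : ∀ β, s.eval β = 0 → β ∈ K) (h : B.chiPoly hS χ ⟨s, hsK⟩ = 0) :
    ∃ β, ∃ hβ : β ∈ K, s.eval β = 0 ∧
      B.chiPoly hS χ ⟨X - C β, sub_mem X_mem_polyIn (C_mem_polyIn hβ)⟩ = 0 := by
  have key : ∀ T : Multiset ℂ, (∀ β ∈ T, β ∈ K) →
      ∃ hT : (T.map fun β => X - C β).prod ∈ polyIn K.toSubring,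
        B.chiPoly hS χ ⟨_, hT⟩ = 0 → ∃ β, ∃ hβ : β ∈ K, β ∈ T ∧
          B.chiPoly hS χ ⟨X - C β, sub_mem X_mem_polyIn (C_mem_polyIn hβ)⟩ = 0 := by
    intro T
    induction T using Multiset.induction with
    | empty =>
      intro _
      refine ⟨by simp, fun h0 => absurd ?_ (one_ne_zero (α := R))⟩
      convert h0 using 1
      rw [← map_one (B.chiPoly hS χ)]
      exact congrArg _ (Subtype.ext (by simp))
    | cons b T ih =>
      intro hT
      obtain ⟨hp, hT'⟩ := ih fun β hβ => hT β (Multiset.mem_cons_of_mem hβ)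
      have hb : X - C b ∈ polyIn K.toSubring :=
        sub_mem X_mem_polyIn (C_mem_polyIn (hT b (Multiset.mem_cons_self _ _)))
      refine ⟨by rw [Multiset.map_cons, Multiset.prod_cons]; exact mul_mem hb hp, fun h0 => ?_⟩
      have h1 : B.chiPoly hS χ ⟨_, hb⟩ * B.chiPoly hS χ ⟨_, hp⟩ = 0 := by
        rw [← map_mul, ← h0]
        exact congrArg _ (Subtype.ext (by simp))
      rcases mul_eq_zero.mp h1 with h1 | h1
      · exact ⟨b, hT b (Multiset.mem_cons_self _ _), Multiset.mem_cons_self _ _, h1⟩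
      · obtain ⟨β, hβ, hm, h2⟩ := hT' h1
        exact ⟨β, hβ, Multiset.mem_cons_of_mem hm, h2⟩
  obtain ⟨hprod, hex⟩ := key s.roots fun β hβ => hsplit β ((mem_roots hs0).mp hβ)
  have hlead : s.leadingCoeff ∈ K := mem_polyIn.mp hsK _
  have e : (⟨s, hsK⟩ : polyIn K.toSubring) = ⟨C s.leadingCoeff, C_mem_polyIn hlead⟩ * ⟨_, hprod⟩ :=
    Subtype.ext (Splits.eq_prod_roots (IsAlgClosed.splits s))
  rw [e, map_mul, B.chiPoly_C hS χ hlead, mul_eq_zero] at h
  obtain ⟨β, hβ, hm, h2⟩ := hex (h.resolve_left fun h0 =>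
    leadingCoeff_ne_zero.mpr hs0 (congrArg Subtype.val
      ((χ.comp constK).injective (h0.trans (map_zero (χ.comp constK)).symm))))
  exact ⟨β, hβ, (mem_roots hs0).mp hm, h2⟩

theorem exists_pt_of_hom {s : ℂ[X]} (hsK : s ∈ polyIn K.toSubring) (hs0 : s ≠ 0)
    (hsplit : ∀ β, s.eval β = 0 → β ∈ K)
    (hsheet : ∀ Q : B.Pt, s.eval Q.beta = 0 → Q.th ∈ K)
    (h : χ (B.pullK hS ⟨B.evb s, B.evb_mem_repRing hsK⟩) = 0) :
    ∃ Q : B.Pt, Q.IsIn K.toSubring ∧
      ∀ Z : intFam N N K.toSubring, χ Z = 0 ↔ Q.val Z.1 = 0 := by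
  classical
  haveI := B.neZero_r
  obtain ⟨β, hβ, hsβ, hlin⟩ := B.exists_root_chiPoly hS χ hsK hs0 hsplit h
  have hinj : Function.Injective (χ.comp constK) := (χ.comp constK).injective
  have hunit : χ (B.pullK hS ⟨B.evb B.dP, B.evb_mem_repRing B.dP_mem_polyIn⟩) *
      χ (B.pullK hS ⟨B.dInv, B.dInv_mem_repRing⟩) = 1 := by
    rw [← map_mul, ← map_mul, ← map_one (χ.comp (B.pullK hS))]
    exact congrArg (χ.comp (B.pullK hS)) (Subtype.ext B.evb_dP_mul_dInv)
  have hdK : B.dP.eval β ∈ K := eval_mem_field B.dP_mem_polyIn hβ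
  have hdP : χ (B.pullK hS ⟨B.evb B.dP, B.evb_mem_repRing B.dP_mem_polyIn⟩) =
      χ (constK ⟨_, hdK⟩) := B.chiPoly_eq hS χ hβ hlin ⟨B.dP, B.dP_mem_polyIn⟩
  have hd : B.dP.eval β ≠ 0 := by
    intro h0
    rw [hdP, show (⟨_, hdK⟩ : K) = 0 from Subtype.ext h0, map_zero, map_zero, zero_mul] at hunit
    exact zero_ne_one hunit
  have hdInv : χ (B.pullK hS ⟨B.dInv, B.dInv_mem_repRing⟩) =
      χ (constK ⟨(B.dP.eval β)⁻¹, K.inv_mem hdK⟩) := by
    rw [hdP] at hunit
    refine left_inv_eq_right_inv ((mul_comm _ _).trans hunit) ?_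
    rw [← map_mul, ← map_mul, ← map_one (χ.comp constK)]
    exact congrArg (χ.comp constK) (Subtype.ext (mul_inv_cancel₀ hd))
  let β' : B.BasePt := ⟨β, hd⟩
  have hin : β'.IsIn K.toSubring := ⟨hβ, K.inv_mem hdK⟩
  have hY : ∀ Y : B.repRing K.toSubring, χ (B.pullK hS Y) =
      χ (constK ⟨B.evC β' Y.1, B.evC_mem β' hin Y.2⟩) := by
    intro Y
    obtain ⟨T, hT, m, hm⟩ := B.exists_rep_of_mem Y.2
    have e : Y = ⟨B.evb T, B.evb_mem_repRing hT⟩ * ⟨B.dInv, B.dInv_mem_repRing⟩ ^ m :=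
      Subtype.ext hm
    have hTv : χ (B.pullK hS ⟨B.evb T, B.evb_mem_repRing hT⟩) =
        χ (constK ⟨T.eval β, eval_mem_field hT hβ⟩) := B.chiPoly_eq hS χ hβ hlin ⟨T, hT⟩
    conv_lhs => rw [e, map_mul, map_mul, map_pow, map_pow, hTv, hdInv]
    rw [← map_pow, ← map_pow, ← map_mul, ← map_mul]
    refine congrArg (χ.comp constK) (Subtype.ext ?_)
    show T.eval β * (B.dP.eval β)⁻¹ ^ m = B.evC β' Y.1
    rw [hm, map_mul, map_pow, evC, RingHom.comp_apply, RingHom.comp_apply, B.evR_evb, B.evR_dInv,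
      PowerSeries.constantCoeff_inv, constantCoeff_taylorAt, constantCoeff_taylorAt]
  have hthK : ∀ Q ∈ B.sheets β', Q.th ∈ K := fun Q hQ => hsheet Q (by
    rw [show Q.beta = β from congrArg BasePt.beta ((mem_sheets B).mp hQ)]
    exact hsβ)
  -- the equation of `theta`
  let Q0 : K[X] := ∏ Q ∈ (B.sheets β').attach, (X - C (⟨Q.1.th, hthK Q.1 Q.2⟩ : K))
  have hQ0 : Q0.map K.subtype = B.sheetPoly.map (B.evC β') := by
    rw [Polynomial.map_prod]
    simp only [Polynomial.map_sub, Polynomial.map_X, Polynomial.map_C]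
    rw [show B.sheetPoly.map (B.evC β') =
      (B.sheetPoly.map (B.evR β')).map PowerSeries.constantCoeff from (Polynomial.map_map _ _ _).symm,
      B.sheetPoly_map_evR, Polynomial.map_prod, ← Finset.prod_attach (B.sheets β')]
    refine Finset.prod_congr rfl fun Q _ => ?_
    rw [Polynomial.map_sub, Polynomial.map_X, Polynomial.map_C, Q.1.root_spec.2]
    rfl
  have hrel : Q0.eval₂ (χ.comp constK) (χ (B.thetaK hS)) = 0 := by
    have hcoef : ∀ k, B.sheetPoly.coeff k ∈ B.repRing K.toSubring :=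
      B.coeff_charFam_mem hS (intFam_mono hS B.theta_mem)
    have h1 : ∑ k ∈ Finset.range (B.sheetDeg + 1),
        B.pullK hS ⟨_, hcoef k⟩ * B.thetaK hS ^ k = 0 := by
      refine Subtype.ext ?_
      rw [AddSubmonoidClass.coe_finsetSum, ZeroMemClass.coe_zero]
      have h0 := B.evTheta_charFam_theta
      rw [evTheta, coe_eval₂RingHom, eval₂_eq_sum_range, (B.monic_charFam B.theta).2] at h0
      exact h0
    have hdeg : Q0.natDegree < B.sheetDeg + 1 := by
      rw [← Polynomial.natDegree_map_eq_of_injective K.subtype.injective, hQ0,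
        B.natDegree_sheetPoly_map]
      exact Nat.lt_succ_self _
    rw [eval₂_eq_sum_range' _ hdeg, ← map_zero χ, ← h1, map_sum]
    refine Finset.sum_congr rfl fun k _ => ?_
    rw [map_mul, map_pow, hY]
    refine congrArg (· * _) (congrArg (χ.comp constK) (Subtype.ext ?_))
    show ((Q0.coeff k : K) : ℂ) = B.evC β' (B.sheetPoly.coeff k)
    rw [← Polynomial.coeff_map, ← hQ0, Polynomial.coeff_map]
    rfl
  rw [eval₂_finsetProd, Finset.prod_eq_zero_iff] at hrel
  obtain ⟨⟨Q, hQ⟩, -, hQ'⟩ := hrel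
  rw [eval₂_sub, eval₂_X, eval₂_C, sub_eq_zero] at hQ'
  have hQb : Q.toBasePt = β' := (mem_sheets B).mp hQ
  refine ⟨Q, ⟨hQb ▸ hin, hthK Q hQ⟩, fun Z => ?_⟩
  have hco : ∀ k, B.coord Z.1 k ∈ B.repRing K.toSubring := B.coord_mem hS Z.2
  have hZ : χ Z = χ (constK ⟨Q.val Z.1, Q.val_mem hS ⟨hQb ▸ hin, hthK Q hQ⟩ Z.2⟩) := by
    have e : Z = ∑ k ∈ Finset.range B.sheetDeg,
        B.pullK hS ⟨_, hco k⟩ * B.thetaK hS ^ k := by
      refine Subtype.ext ?_
      rw [AddSubmonoidClass.coe_finsetSum]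
      exact B.interp Z.1
    conv_lhs => rw [e, map_sum]
    have e' : (⟨Q.val Z.1, Q.val_mem hS ⟨hQb ▸ hin, hthK Q hQ⟩ Z.2⟩ : K) =
        ∑ k ∈ Finset.range B.sheetDeg,
          ⟨B.evC β' (B.coord Z.1 k), B.evC_mem β' hin (hco k)⟩ * ⟨Q.th, hthK Q hQ⟩ ^ k := by
      refine Subtype.ext ?_
      rw [AddSubmonoidClass.coe_finsetSum]
      show Q.val Z.1 = _
      conv_lhs => rw [B.interp Z.1]
      simp only [map_sum, map_mul, map_pow, Pt.val_pull, Pt.val_theta, hQb]
      rfl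
    rw [e', map_sum, map_sum]
    refine Finset.sum_congr rfl fun k _ => ?_
    rw [map_mul, map_mul, map_mul, map_pow, map_pow, map_pow, hY, hQ']
    rfl
  rw [hZ]
  exact ⟨fun h0 => congrArg Subtype.val (hinj (h0.trans (map_zero (χ.comp constK)).symm)),
    fun h0 => by rw [show (⟨Q.val Z.1, _⟩ : K) = 0 from Subtype.ext h0, map_zero, map_zero]⟩

end

include hS in
/-- The multiplicity of a prime in the image of a family is the order at the point times the
multiplicity of the parameter. -/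
theorem emultiplicity_eq_order_mul {L : Type*} [CommRing L] [IsDomain L]
    (E : intFam N N K.toSubring →+* L) {P : L} (hP : Prime P) {Q : B.Pt}
    (hQ : Q.IsIn K.toSubring) (hval : ∀ Z : intFam N N K.toSubring, P ∣ E Z ↔ Q.val Z.1 = 0) :
    ∃ e : ℕ∞, ∀ (n : ℕ) (Z : intFam N N K.toSubring), (Q.exp Z.1).order = (n : ℕ∞) →
      emultiplicity P (E Z) = (n : ℕ∞) * e := by
  haveI := B.neZero_r
  let D : intFam N N K.toSubring := ⟨B.bDiff Q.beta, mem_intFam.mpr fun v n => by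
    rw [bDiff, famExp_famPull]
    exact mem_intFam.mp (B.repRing_le hS
      (sub_mem B.b_mem_repRing (B.const_mem_repRing hQ.1.1))) _ n⟩
  refine ⟨emultiplicity P (E D), fun n => ?_⟩
  induction n with
  | zero =>
    intro Z hn
    rw [Nat.cast_zero, zero_mul, emultiplicity_eq_zero, hval]
    exact fun h0 => PowerSeries.order_ne_zero_iff_constCoeff_eq_zero.mpr
      (h0 : PowerSeries.constantCoeff (Q.exp Z.1) = 0) hn
  | succ n ih =>
    intro Z hn
    have hne : (Q.exp Z.1).order ≠ 0 := by rw [hn]; exact_mod_cast Nat.succ_ne_zero n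
    have h0 : Q.val Z.1 = 0 := PowerSeries.order_ne_zero_iff_constCoeff_eq_zero.mp hne
    obtain ⟨Z', hZ'K, hZ'⟩ := B.exists_peel hS Q hQ Z.2 h0
    let Sf : intFam N N K.toSubring := ⟨B.sepFam Q, B.sepFam_mem hS Q hQ⟩
    have hS0 : Q.val (B.sepFam Q) ≠ 0 := by
      rw [B.val_sepFam]; exact B.sepPoly_eval_ne_zero Q
    have hSord : (Q.exp (B.sepFam Q)).order = 0 := by
      by_contra h
      exact hS0 (PowerSeries.order_ne_zero_iff_constCoeff_eq_zero.mp h)
    have e1 := congrArg (fun x => (Q.exp x).order) hZ'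
    simp only [map_mul, PowerSeries.order_mul, hSord, add_zero, exp_bDiff, sub_self, map_zero,
      PowerSeries.order_X] at e1
    rw [hn, Nat.cast_succ, add_comm (n : ℕ∞)] at e1
    have hn' : (Q.exp Z').order = (n : ℕ∞) :=
      (WithTop.add_left_cancel ENat.one_ne_top e1).symm
    have e2 := congrArg (emultiplicity P)
      (show E Z * E Sf = E D * E ⟨Z', hZ'K⟩ by
        rw [← map_mul, ← map_mul]; exact congrArg E (Subtype.ext hZ'))
    rw [emultiplicity_mul hP, emultiplicity_mul hP,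
      emultiplicity_eq_zero.mpr (fun h => hS0 ((hval Sf).mp h)), add_zero, ih ⟨Z', hZ'K⟩ hn'] at e2
    rw [e2, Nat.cast_succ, add_mul, one_mul, add_comm]

/-- Point orders divisible by `l` give multiplicities divisible by `l`. -/
theorem exists_emultiplicity_eq {L : Type*} [CommRing L] [IsDomain L]
    (E : intFam N N K.toSubring →+* L) {P : L} (hP : Prime P) {l : ℕ}
    {X : intFam N N K.toSubring} (hX : ∀ Q : B.Pt, ∃ m : ℕ, (Q.exp X.1).order = ((l * m : ℕ) : ℕ∞))
    {s : ℂ[X]} (hsK : s ∈ polyIn K.toSubring) (hs0 : s ≠ 0)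
    (hsplit : ∀ β, s.eval β = 0 → β ∈ K)
    (hsheet : ∀ Q : B.Pt, s.eval Q.beta = 0 → Q.th ∈ K)
    (hdvd : X ∣ B.pullK hS ⟨B.evb s, B.evb_mem_repRing hsK⟩) :
    ∃ n : ℕ∞, emultiplicity P (E X) = (l : ℕ∞) * n := by
  by_cases hPX : P ∣ E X
  swap
  · exact ⟨0, by rw [mul_zero, emultiplicity_eq_zero]; exact hPX⟩
  haveI : (Ideal.span {P}).IsPrime := (Ideal.span_singleton_prime hP.ne_zero).mpr hP
  set χ := (Ideal.Quotient.mk (Ideal.span {P})).comp E
  have hχ : ∀ Z, χ Z = 0 ↔ P ∣ E Z := fun Z => by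
    rw [RingHom.comp_apply, Ideal.Quotient.eq_zero_iff_mem, Ideal.mem_span_singleton]
  obtain ⟨Q, hQ, hval⟩ := B.exists_pt_of_hom hS χ hsK hs0 hsplit hsheet
    ((hχ _).mpr (hPX.trans (map_dvd E hdvd)))
  obtain ⟨e, he⟩ := B.emultiplicity_eq_order_mul hS E hP hQ fun Z => (hχ Z).symm.trans (hval Z)
  obtain ⟨m, hm⟩ := hX Q
  exact ⟨(m : ℕ∞) * e, by rw [he _ X hm, Nat.cast_mul, mul_assoc]⟩

end Fermat.Agent.DS.G1.BaseSys
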