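import Fermat.Agent.DS.G1.Core.Coord
import Mathlib.RingTheory.AdicCompletion.Completeness
import Mathlib.RingTheory.Henselian
import Mathlib.Algebra.Polynomial.Taylor
import Mathlib.FieldTheory.IsAlgClosed.Basic
import Mathlib.Algebra.Squarefree.Basic

/-!
# Points over the base and their formal neighbourhoods
-/

set_option autoImplicit false

noncomputable section

open UpperHalfPlane Polynomial Function
open scoped MatrixGroups

namespace Fermat.Agent.DS.G1.BaseSys

open Fermat.Agent.Igusa ModularCurve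

variable {r N : ℕ} [NeZero N] (B : BaseSys r N)

/-! ### Taylor expansion -/

/-- `P ↦ P(β + t)`. -/
def taylorHom (β : ℂ) : ℂ[X] →+* PowerSeries ℂ :=
  Polynomial.coeToPowerSeries.ringHom.comp (taylorAlgHom β).toRingHom

theorem taylorHom_apply (β : ℂ) (P : ℂ[X]) : taylorHom β P = taylorAt β P := rfl

theorem constantCoeff_taylorAt (β : ℂ) (P : ℂ[X]) :
    PowerSeries.constantCoeff (taylorAt β P) = P.eval β := by
  rw [taylorAt, Polynomial.constantCoeff_coe, taylor_coeff_zero]

theorem taylorAt_injective (β : ℂ) : Injective (taylorAt β) := fun P Q h =>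
  taylor_injective β (Polynomial.coe_inj.mp h)

theorem taylorAt_mem {S : Subring ℂ} {β : ℂ} (hβ : β ∈ S) {P : ℂ[X]} (hP : P ∈ polyIn S) :
    taylorAt β P ∈ psIn S := by
  obtain ⟨Q, rfl⟩ := hP
  refine ⟨((taylor ⟨β, hβ⟩ Q : S[X]) : PowerSeries S), ?_⟩
  ext k
  rw [taylorAt, PowerSeries.coeff_map, Polynomial.coeff_coe, Polynomial.coeff_coe, coe_mapRingHom,
    ← Polynomial.coeff_map, taylor_apply, taylor_apply, map_comp]
  simp

theorem inv_mem_psIn {S : Subring ℂ} {f : PowerSeries ℂ} (hf : f ∈ psIn S)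
    (h : (PowerSeries.constantCoeff f)⁻¹ ∈ S) (h0 : PowerSeries.constantCoeff f ≠ 0) :
    f⁻¹ ∈ psIn S := by
  obtain ⟨g, rfl⟩ := hf
  have hc : PowerSeries.constantCoeff (PowerSeries.map S.subtype g) =
      S.subtype (PowerSeries.constantCoeff g) := by
    rw [← PowerSeries.coeff_zero_eq_constantCoeff_apply, PowerSeries.coeff_map,
      PowerSeries.coeff_zero_eq_constantCoeff_apply]
  set c := PowerSeries.constantCoeff g with hcdef
  have hc0 : (c : ℂ) ≠ 0 := by rw [hc] at h0; exact h0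
  let u : Sˣ := ⟨c, ⟨_, h⟩, Subtype.ext (by simp [hc, hc0]), Subtype.ext (by simp [hc, hc0])⟩
  refine ⟨PowerSeries.invOfUnit g u, ?_⟩
  rw [PowerSeries.eq_inv_iff_mul_eq_one h0, ← map_mul, mul_comm,
    PowerSeries.mul_invOfUnit g u rfl, map_one]

/-! ### Evaluation of level `r` families at `β` -/

theorem exists_rep_top (Y : Fam r N) : ∃ P : ℂ[X], ∃ m, B.IsRep Y P m := by
  obtain ⟨P, -, m, h⟩ := B.exists_rep_of_mem
    (B.mem_repRing_of_mem_intFam (S := ⊤) le_top (Y := Y) (by rw [intFam_top]; trivial))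
  exact ⟨P, m, h⟩

/-- A point of the base away from the zeros of the discriminant. -/
structure BasePt where
  /-- The coordinate. -/
  beta : ℂ
  hbeta : B.dP.eval beta ≠ 0

variable {B} in
theorem BasePt.const_ne_zero (β : B.BasePt) :
    PowerSeries.constantCoeff (taylorAt β.beta B.dP) ≠ 0 := by
  rw [constantCoeff_taylorAt]; exact β.hbeta

/-- The expansion at `β` of a level `r` family. -/
def evFun (β : B.BasePt) (Y : Fam r N) : PowerSeries ℂ :=
  taylorAt β.beta (B.exists_rep_top Y).choose *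
    ((taylorAt β.beta B.dP)⁻¹) ^ (B.exists_rep_top Y).choose_spec.choose

theorem evFun_eq (β : B.BasePt) {Y : Fam r N} {P : ℂ[X]} {m : ℕ} (h : B.IsRep Y P m) :
    B.evFun β Y = taylorAt β.beta P * ((taylorAt β.beta B.dP)⁻¹) ^ m := by
  set P' := (B.exists_rep_top Y).choose
  set m' := (B.exists_rep_top Y).choose_spec.choose
  have h' : B.IsRep Y P' m' := (B.exists_rep_top Y).choose_spec.choose_spec
  have e := congrArg (taylorHom β.beta) (IsRep.unique h' h)
  simp only [map_mul, map_pow, taylorHom_apply] at e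
  have hd : taylorAt β.beta B.dP * (taylorAt β.beta B.dP)⁻¹ = 1 :=
    PowerSeries.mul_inv_cancel _ β.const_ne_zero
  set d := taylorAt β.beta B.dP
  show taylorAt β.beta P' * d⁻¹ ^ m' = _
  calc taylorAt β.beta P' * d⁻¹ ^ m' = taylorAt β.beta P' * d⁻¹ ^ m' * (d * d⁻¹) ^ m := by
        rw [hd, one_pow, mul_one]
    _ = (taylorAt β.beta P' * d ^ m) * (d⁻¹ ^ m' * d⁻¹ ^ m) := by rw [mul_pow]; ring
    _ = taylorAt β.beta P * d⁻¹ ^ m * (d * d⁻¹) ^ m' := by rw [e, mul_pow]; ring
    _ = _ := by rw [hd, one_pow, mul_one]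

/-- The expansion at `β`, as a ring homomorphism. -/
def evR (β : B.BasePt) : Fam r N →+* PowerSeries ℂ where
  toFun := B.evFun β
  map_one' := by
    rw [B.evFun_eq β (P := 1) (m := 0) (by simp [IsRep]), pow_zero, mul_one, ← taylorHom_apply,
      map_one]
  map_zero' := by
    rw [B.evFun_eq β (P := 0) (m := 0) (by simp [IsRep]), pow_zero, mul_one, ← taylorHom_apply,
      map_zero]
  map_add' X Y := by
    obtain ⟨P, m, hP⟩ := B.exists_rep_top X
    obtain ⟨Q, n, hQ⟩ := B.exists_rep_top Y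
    have h : B.IsRep (X + Y) (P * B.dP ^ n + Q * B.dP ^ m) (m + n) := by
      rw [IsRep, map_add, add_mul]
      exact congrArg₂ (· + ·) (hP.shift n) ((hQ.shift m).trans (by rw [add_comm n m]))
    rw [B.evFun_eq β hP, B.evFun_eq β hQ, B.evFun_eq β h, ← taylorHom_apply, map_add, map_mul,
      map_mul, map_pow, map_pow, taylorHom_apply, taylorHom_apply, taylorHom_apply]
    have hd : taylorAt β.beta B.dP * (taylorAt β.beta B.dP)⁻¹ = 1 :=
      PowerSeries.mul_inv_cancel _ β.const_ne_zero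
    set d := taylorAt β.beta B.dP
    calc (taylorAt β.beta P * d ^ n + taylorAt β.beta Q * d ^ m) * d⁻¹ ^ (m + n)
        = taylorAt β.beta P * d⁻¹ ^ m * (d * d⁻¹) ^ n +
          taylorAt β.beta Q * d⁻¹ ^ n * (d * d⁻¹) ^ m := by rw [mul_pow, mul_pow, pow_add]; ring
      _ = _ := by rw [hd, one_pow, one_pow, mul_one, mul_one]
  map_mul' X Y := by
    obtain ⟨P, m, hP⟩ := B.exists_rep_top X
    obtain ⟨Q, n, hQ⟩ := B.exists_rep_top Y
    have h : B.IsRep (X * Y) (P * Q) (m + n) := by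
      rw [IsRep, hP, hQ, map_mul, pow_add]; ring
    rw [B.evFun_eq β hP, B.evFun_eq β hQ, B.evFun_eq β h, ← taylorHom_apply, map_mul, pow_add,
      taylorHom_apply, taylorHom_apply]
    ring

theorem evR_evb (β : B.BasePt) (P : ℂ[X]) : B.evR β (B.evb P) = taylorAt β.beta P :=
  (B.evFun_eq β (P := P) (m := 0) (by simp [IsRep])).trans (by rw [pow_zero, mul_one])

theorem evR_const (β : B.BasePt) (c : ℂ) :
    B.evR β (famConst r N c) = PowerSeries.C c := by
  rw [← B.evb_C, B.evR_evb, taylorAt, taylor_C, Polynomial.coe_C]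

theorem evR_b (β : B.BasePt) :
    B.evR β B.b = PowerSeries.C β.beta + PowerSeries.X := by
  rw [← B.evb_X, B.evR_evb, taylorAt, taylor_X, Polynomial.coe_add, Polynomial.coe_X,
    Polynomial.coe_C, add_comm]

theorem evR_dInv (β : B.BasePt) : B.evR β B.dInv = (taylorAt β.beta B.dP)⁻¹ :=
  (B.evFun_eq β (P := 1) (m := 1) (by simp [IsRep])).trans
    (by rw [← taylorHom_apply, map_one, one_mul, pow_one])

variable {B} in
/-- A base point is integral over `S`. -/
def BasePt.IsIn (β : B.BasePt) (S : Subring ℂ) : Prop :=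
  β.beta ∈ S ∧ (B.dP.eval β.beta)⁻¹ ∈ S

theorem evR_mem {S : Subring ℂ} (β : B.BasePt) (hβ : β.IsIn S) {Y : Fam r N}
    (hY : Y ∈ B.repRing S) : B.evR β Y ∈ psIn S := by
  obtain ⟨P, hP, m, h⟩ := B.exists_rep_of_mem hY
  show B.evFun β Y ∈ _
  rw [B.evFun_eq β h]
  exact mul_mem (taylorAt_mem hβ.1 hP) (pow_mem (inv_mem_psIn
    (taylorAt_mem hβ.1 B.dP_mem_polyIn) (by rw [constantCoeff_taylorAt]; exact hβ.2)
    β.const_ne_zero) m)

theorem evR_injective (β : B.BasePt) : Injective (B.evR β) := by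
  rw [injective_iff_map_eq_zero]
  intro Y hY
  obtain ⟨P, m, h⟩ := B.exists_rep_top Y
  change B.evFun β Y = 0 at hY
  rw [B.evFun_eq β h] at hY
  have hi : (taylorAt β.beta B.dP)⁻¹ ≠ 0 := fun h0 => by
    simpa [h0] using PowerSeries.mul_inv_cancel _ β.const_ne_zero
  have hP : P = 0 := taylorAt_injective β.beta (((mul_eq_zero.mp hY).resolve_right
    (pow_ne_zero _ hi)).trans (by rw [← taylorHom_apply, map_zero]))
  rw [h, hP, map_zero, zero_mul]

/-- The value at `β`. -/
def evC (β : B.BasePt) : Fam r N →+* ℂ :=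
  (PowerSeries.constantCoeff (R := ℂ)).comp (B.evR β)

theorem evC_mem {S : Subring ℂ} (β : B.BasePt) (hβ : β.IsIn S) {Y : Fam r N}
    (hY : Y ∈ B.repRing S) : B.evC β Y ∈ S := by
  obtain ⟨g, hg⟩ := B.evR_mem β hβ hY
  rw [evC, RingHom.comp_apply, ← hg, ← PowerSeries.coeff_zero_eq_constantCoeff_apply,
    PowerSeries.coeff_map]
  exact (PowerSeries.coeff 0 g).2

/-- The base point of `(w, τ)`. -/
def ptBase (w : PrimVec r) (τ : ℍ) : B.BasePt := ⟨B.b.1 w τ, B.dP_eval_b_ne_zero w τ⟩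

theorem evC_ptBase (w : PrimVec r) (τ : ℍ) : B.evC (B.ptBase w τ) = famEval w τ := by
  ext Y
  obtain ⟨P, m, h⟩ := B.exists_rep_top Y
  show PowerSeries.constantCoeff (B.evFun _ Y) = _
  rw [B.evFun_eq _ h, map_mul, map_pow, PowerSeries.constantCoeff_inv, constantCoeff_taylorAt,
    constantCoeff_taylorAt, h, map_mul, map_pow, famEval_apply, famEval_apply, B.evb_apply]
  congr 2
  rw [dInv, famInv]
  simp [ptBase, B.evb_apply]

theorem exists_ptBase (β : B.BasePt) (w : PrimVec r) : ∃ τ, B.ptBase w τ = β := by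
  obtain ⟨τ, hτ⟩ := B.exists_b_eq w β.hbeta
  refine ⟨τ, ?_⟩
  cases β
  simp only [ptBase, hτ]

/-! ### Sheets -/

/-- `Φ`, the equation of `theta` over level `r`. -/
abbrev sheetPoly : (Fam r N)[X] := B.charFam B.theta

theorem monic_sheetPoly : B.sheetPoly.Monic := (B.monic_charFam B.theta).1

theorem natDegree_sheetPoly_map {R : Type*} [CommRing R] [Nontrivial R] (f : Fam r N →+* R) :
    (B.sheetPoly.map f).natDegree = B.sheetDeg := by
  rw [B.monic_sheetPoly.natDegree_map, (B.monic_charFam B.theta).2]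

/-- The extension of a homomorphism by a root of `Φ`. -/
def liftTheta {R : Type*} [CommRing R] (f : Fam r N →+* R) (θ : R)
    (h : B.sheetPoly.eval₂ f θ = 0) : Fam N N →+* R where
  toFun Z := (B.coordPoly Z).eval₂ f θ
  map_one' := by
    haveI := B.neZero_r
    have : B.coordPoly 1 = 1 := by
      conv_lhs => rw [← map_one B.evTheta]
      exact B.coordPoly_evTheta (by
        rw [degree_one]; exact_mod_cast B.sheetDeg_pos)
    rw [this, eval₂_one]
  map_mul' Y Z := by
    rw [B.coordPoly_mul, modByMonic_eq_sub_mul_div _ (B.charFam B.theta), eval₂_sub, eval₂_mul,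
      eval₂_mul, h, zero_mul, sub_zero]
  map_zero' := by simp [coordPoly, coord, eval₂_finsetSum]
  map_add' Y Z := by
    simp [coordPoly, coord, add_mul, eval₂_finsetSum, Finset.sum_add_distrib]

theorem liftTheta_evTheta {R : Type*} [CommRing R] (f : Fam r N →+* R) (θ : R)
    (h : B.sheetPoly.eval₂ f θ = 0) (P : (Fam r N)[X]) :
    B.liftTheta f θ h (B.evTheta P) = P.eval₂ f θ := by
  haveI := B.neZero_r
  have hdeg : (P %ₘ B.sheetPoly).degree < B.sheetDeg := by
    refine (degree_modByMonic_lt _ B.monic_sheetPoly).trans_le ?_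
    rw [degree_eq_natDegree B.monic_sheetPoly.ne_zero, (B.monic_charFam B.theta).2]
  have he : B.evTheta P = B.evTheta (P %ₘ B.sheetPoly) := by
    rw [modByMonic_eq_sub_mul_div P B.sheetPoly, map_sub, map_mul, sheetPoly,
      evTheta_charFam_theta, zero_mul, sub_zero]
  show (B.coordPoly _).eval₂ f θ = _
  rw [he, B.coordPoly_evTheta hdeg, modByMonic_eq_sub_mul_div P B.sheetPoly, eval₂_sub, eval₂_mul,
    h, zero_mul, sub_zero]

theorem liftTheta_theta {R : Type*} [CommRing R] (f : Fam r N →+* R) (θ : R)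
    (h : B.sheetPoly.eval₂ f θ = 0) : B.liftTheta f θ h B.theta = θ := by
  have := B.liftTheta_evTheta f θ h X
  simpa [evTheta] using this

theorem liftTheta_pull {R : Type*} [CommRing R] (f : Fam r N →+* R) (θ : R)
    (h : B.sheetPoly.eval₂ f θ = 0) (Y : Fam r N) :
    B.liftTheta f θ h (famPull B.hr Y) = f Y := by
  have := B.liftTheta_evTheta f θ h (C Y)
  simpa [evTheta] using this

theorem evTheta_derivative_mul :
    B.evTheta (derivative B.sheetPoly) * B.lagFam (B.sheetDeg - 1) = 1 := by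
  classical
  refine fam_ext_eval fun v τ => ?_
  rw [map_mul, famEval_evTheta, ← derivative_map, B.map_charFam, derivative_prod_finset,
    eval_finsetSum, map_one]
  rw [Finset.sum_eq_single_of_mem v (mem_primFibre.mpr rfl) fun u hu hne => by
    rw [eval_mul, eval_prod,
      Finset.prod_eq_zero (Finset.mem_erase.mpr ⟨hne.symm, mem_primFibre.mpr rfl⟩) (by simp),
      zero_mul]]
  set ev := (Pi.evalRingHom (fun _ : ℍ => ℂ) τ).comp (expFun N).subtype
  have hlag : famEval v τ (B.lagFam (B.sheetDeg - 1)) =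
      ∏ u ∈ B.others v, (B.theta.1 v τ - B.theta.1 u τ)⁻¹ := by
    show ev ((B.lagPoly v).coeff _) = _
    rw [← Polynomial.coeff_map, B.eval_lagPoly, Finset.prod_mul_distrib, ← map_prod, coeff_C_mul,
      ← B.card_others v]
    have hm : (∏ u ∈ B.others v, (X - C (B.theta.1 u τ))).Monic :=
      monic_prod_of_monic _ _ fun u _ => monic_X_sub_C _
    have hd := natDegree_finsetProd_X_sub_C_eq_card (B.others v) fun u => B.theta.1 u τ
    rw [← hd, hm.coeff_natDegree, mul_one]
  rw [hlag]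
  have hset : (primFibre B.hr (primRed B.hr v)).erase v = B.others v := by
    ext u; simp [others]
  rw [hset]
  simp only [derivative_sub, derivative_X, derivative_C, sub_zero, mul_one, eval_prod, eval_sub,
    eval_X, eval_C]
  rw [← Finset.prod_mul_distrib, Finset.prod_eq_one fun u hu => ?_]
  obtain ⟨hne, hred⟩ := (mem_others B).mp hu
  exact mul_inv_cancel₀ (sub_ne_zero.mpr (B.theta_ne v u hne.symm hred τ))

theorem eval_derivative_mul {R : Type*} [CommRing R] (f : Fam r N →+* R) (θ : R)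
    (h : B.sheetPoly.eval₂ f θ = 0) :
    (derivative B.sheetPoly).eval₂ f θ * B.liftTheta f θ h (B.lagFam (B.sheetDeg - 1)) = 1 := by
  rw [← B.liftTheta_evTheta f θ h, ← map_mul, B.evTheta_derivative_mul, map_one]

/-- A point: a base point and a root of `Φ` there. -/
structure Pt extends B.BasePt where
  /-- The value of `theta`. -/
  th : ℂ
  hth : B.sheetPoly.eval₂ (B.evC toBasePt) th = 0

/-- A root of `Φ` in formal series with given constant coefficient. -/
theorem exists_root_series {S : Subring ℂ} (β : B.BasePt) (hS : zetaRing N ≤ S) (hβ : β.IsIn S)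
    {θ : ℂ} (hθS : θ ∈ S) (hθ : B.sheetPoly.eval₂ (B.evC β) θ = 0) :
    ∃ Θ ∈ psIn S, B.sheetPoly.eval₂ (B.evR β) Θ = 0 ∧ PowerSeries.constantCoeff Θ = θ := by
  haveI := B.neZero_r
  have hcoef : ∀ k, (B.sheetPoly.map (B.evR β)).coeff k ∈ psIn S := fun k => by
    rw [Polynomial.coeff_map]
    exact B.evR_mem β hβ (B.coeff_charFam_mem hS (intFam_mono hS B.theta_mem) k)
  obtain ⟨F, hF, -, hFm⟩ := lifts_and_natDegree_eq_and_monic
    (f := PowerSeries.map S.subtype) (p := B.sheetPoly.map (B.evR β))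
    ((lifts_iff_coeff_lifts _).mpr fun k => by
      obtain ⟨g, hg⟩ := hcoef k
      exact ⟨g, hg⟩) (B.monic_sheetPoly.map _)
  -- constant coefficients
  let a₀ : PowerSeries S := PowerSeries.C ⟨θ, hθS⟩
  have key : ∀ G : (Fam r N)[X], ∀ G' : (PowerSeries S)[X],
      G'.map (PowerSeries.map S.subtype) = G.map (B.evR β) →
      ((PowerSeries.constantCoeff (G'.eval a₀) : S) : ℂ) = G.eval₂ (B.evC β) θ := by
    intro G G' hG
    have h1 : ((PowerSeries.constantCoeff (G'.eval a₀) : S) : ℂ) =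
        PowerSeries.constantCoeff ((G'.map (PowerSeries.map S.subtype)).eval (PowerSeries.C θ)) := by
      rw [show PowerSeries.C θ = PowerSeries.map S.subtype a₀ by rw [PowerSeries.map_C]; rfl,
        eval_map, eval₂_at_apply, ← PowerSeries.coeff_zero_eq_constantCoeff_apply,
        ← PowerSeries.coeff_zero_eq_constantCoeff_apply, PowerSeries.coeff_map]
      rfl
    rw [h1, hG, eval_map, hom_eval₂, PowerSeries.constantCoeff_C]
    rfl
  have hmem : ∀ x : PowerSeries S, PowerSeries.constantCoeff x = 0 →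
      x ∈ Ideal.span {(PowerSeries.X : PowerSeries S)} :=
    fun x hx => Ideal.mem_span_singleton.mpr (PowerSeries.X_dvd_iff.mpr hx)
  have h1 : F.eval a₀ ∈ Ideal.span {(PowerSeries.X : PowerSeries S)} :=
    hmem _ (Subtype.ext (by rw [key _ F hF, hθ]; rfl))
  have h2 : IsUnit (Ideal.Quotient.mk (Ideal.span {(PowerSeries.X : PowerSeries S)})
      (F.derivative.eval a₀)) := by
    refine IsUnit.map _ (PowerSeries.isUnit_iff_constantCoeff.mpr ?_)
    have hW : B.liftTheta (B.evC β) θ hθ (B.lagFam (B.sheetDeg - 1)) ∈ S := by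
      show (B.coordPoly _).eval₂ _ _ ∈ S
      rw [eval₂_eq_sum_range]
      exact sum_mem fun k _ => mul_mem (B.evC_mem β hβ
        (B.coordPoly_coeff_mem hS (intFam_mono hS (B.lagFam_mem _)) k)) (pow_mem hθS k)
    refine .of_mul_eq_one ⟨_, hW⟩ (Subtype.ext ?_)
    rw [Subring.coe_mul, key (derivative B.sheetPoly) _ (by rw [← derivative_map, hF,
      derivative_map]), B.eval_derivative_mul _ _ hθ]
    rfl
  obtain ⟨a, ha, ha'⟩ := HenselianRing.is_henselian F hFm a₀ h1 h2
  refine ⟨PowerSeries.map S.subtype a, ⟨a, rfl⟩, ?_, ?_⟩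
  · rw [← eval_map, ← hF, eval_map, eval₂_at_apply, ha.eq_zero, map_zero]
  · have := PowerSeries.X_dvd_iff.mp (Ideal.mem_span_singleton.mp ha')
    rw [map_sub, sub_eq_zero, PowerSeries.constantCoeff_C] at this
    rw [← PowerSeries.coeff_zero_eq_constantCoeff_apply, PowerSeries.coeff_map,
      PowerSeries.coeff_zero_eq_constantCoeff_apply, this]
    rfl

theorem constantCoeff_eval₂ (β : B.BasePt) (G : (Fam r N)[X]) (Θ : PowerSeries ℂ) :
    PowerSeries.constantCoeff (G.eval₂ (B.evR β) Θ) =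
      G.eval₂ (B.evC β) (PowerSeries.constantCoeff Θ) :=
  hom_eval₂ G (B.evR β) PowerSeries.constantCoeff Θ

theorem root_series_unique (β : B.BasePt) {Θ Θ' : PowerSeries ℂ}
    (h : B.sheetPoly.eval₂ (B.evR β) Θ = 0) (h' : B.sheetPoly.eval₂ (B.evR β) Θ' = 0)
    (hc : PowerSeries.constantCoeff Θ = PowerSeries.constantCoeff Θ') : Θ = Θ' := by
  haveI := B.neZero_r
  by_contra hne
  rw [← eval_map] at h h'
  obtain ⟨G, hG⟩ := dvd_iff_isRoot.mpr h
  rw [hG, eval_mul, mul_eq_zero] at h'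
  have hG0 := h'.resolve_left (by simpa [sub_eq_zero] using Ne.symm hne)
  have hder : (derivative (B.sheetPoly.map (B.evR β))).eval Θ = G.eval Θ := by
    rw [hG, derivative_mul, eval_add, eval_mul, eval_mul]
    simp
  have hθ : B.sheetPoly.eval₂ (B.evC β) (PowerSeries.constantCoeff Θ) = 0 := by
    rw [← B.constantCoeff_eval₂, ← eval_map, hG]
    simp
  have h1 := B.eval_derivative_mul _ _ hθ
  rw [← B.constantCoeff_eval₂, ← eval_map, ← derivative_map, hder] at h1
  rw [show PowerSeries.constantCoeff (G.eval Θ) = 0 from ?_, zero_mul] at h1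
  · exact zero_ne_one h1
  have h2 := congrArg PowerSeries.constantCoeff hG0
  rw [map_zero, ← eval₂_at_apply, ← hc, eval₂_at_apply] at h2
  exact h2

variable {B}

/-- The root of `Φ` through a point. -/
def Pt.root (Q : B.Pt) : PowerSeries ℂ :=
  (B.exists_root_series (S := ⊤) Q.toBasePt le_top ⟨trivial, trivial⟩ (Subring.mem_top _)
    Q.hth).choose

theorem Pt.root_spec (Q : B.Pt) :
    B.sheetPoly.eval₂ (B.evR Q.toBasePt) Q.root = 0 ∧
      PowerSeries.constantCoeff Q.root = Q.th :=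
  (B.exists_root_series (S := ⊤) Q.toBasePt le_top ⟨trivial, trivial⟩ (Subring.mem_top _)
    Q.hth).choose_spec.2

/-- The expansion at a point. -/
def Pt.exp (Q : B.Pt) : Fam N N →+* PowerSeries ℂ :=
  B.liftTheta (B.evR Q.toBasePt) Q.root Q.root_spec.1

/-- The value at a point. -/
def Pt.val (Q : B.Pt) : Fam N N →+* ℂ := (PowerSeries.constantCoeff (R := ℂ)).comp Q.exp

theorem Pt.exp_pull (Q : B.Pt) (Y : Fam r N) : Q.exp (famPull B.hr Y) = B.evR Q.toBasePt Y :=
  B.liftTheta_pull _ _ _ _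

theorem Pt.exp_theta (Q : B.Pt) : Q.exp B.theta = Q.root := B.liftTheta_theta _ _ _

theorem Pt.exp_evTheta (Q : B.Pt) (P : (Fam r N)[X]) :
    Q.exp (B.evTheta P) = P.eval₂ (B.evR Q.toBasePt) Q.root :=
  B.liftTheta_evTheta _ _ _ _

theorem Pt.val_pull (Q : B.Pt) (Y : Fam r N) : Q.val (famPull B.hr Y) = B.evC Q.toBasePt Y := by
  rw [Pt.val, RingHom.comp_apply, Q.exp_pull]; rfl

theorem Pt.val_theta (Q : B.Pt) : Q.val B.theta = Q.th := by
  rw [Pt.val, RingHom.comp_apply, Q.exp_theta, Q.root_spec.2]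

/-- A point is integral over `S`. -/
def Pt.IsIn (Q : B.Pt) (S : Subring ℂ) : Prop := Q.toBasePt.IsIn S ∧ Q.th ∈ S

theorem Pt.root_mem (Q : B.Pt) {S : Subring ℂ} (hS : zetaRing N ≤ S) (hQ : Q.IsIn S) :
    Q.root ∈ psIn S := by
  obtain ⟨Θ, hΘ, h1, h2⟩ := B.exists_root_series Q.toBasePt hS hQ.1 hQ.2 Q.hth
  rwa [B.root_series_unique Q.toBasePt Q.root_spec.1 h1 (Q.root_spec.2.trans h2.symm)]

theorem Pt.exp_mem (Q : B.Pt) {S : Subring ℂ} (hS : zetaRing N ≤ S) (hQ : Q.IsIn S)
    {Z : Fam N N} (hZ : Z ∈ intFam N N S) : Q.exp Z ∈ psIn S := by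
  show (B.coordPoly Z).eval₂ _ _ ∈ _
  rw [eval₂_eq_sum_range]
  exact sum_mem fun k _ => mul_mem (B.evR_mem _ hQ.1 (B.coordPoly_coeff_mem hS hZ k))
    (pow_mem (Q.root_mem hS hQ) k)

theorem Pt.val_mem (Q : B.Pt) {S : Subring ℂ} (hS : zetaRing N ≤ S) (hQ : Q.IsIn S)
    {Z : Fam N N} (hZ : Z ∈ intFam N N S) : Q.val Z ∈ S := by
  obtain ⟨g, hg⟩ := Q.exp_mem hS hQ hZ
  rw [Pt.val, RingHom.comp_apply, ← hg, ← PowerSeries.coeff_zero_eq_constantCoeff_apply,
    PowerSeries.coeff_map]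
  exact (PowerSeries.coeff 0 g).2

variable (B)

/-- The point of `(v, τ)`. -/
def ptOf (v : PrimVec N) (τ : ℍ) : B.Pt where
  toBasePt := B.ptBase (primRed B.hr v) τ
  th := B.theta.1 v τ
  hth := by
    rw [← eval_map, B.evC_ptBase, B.map_charFam, eval_prod]
    exact Finset.prod_eq_zero (mem_primFibre.mpr rfl) (by simp)

theorem val_ptOf (v : PrimVec N) (τ : ℍ) : (B.ptOf v τ).val = famEval v τ := by
  ext Z
  have key : ∀ Y, (B.ptOf v τ).val (famPull B.hr Y) = famEval v τ (famPull B.hr Y) := fun Y => by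
    rw [Pt.val_pull, ptOf, B.evC_ptBase]
    rfl
  conv_lhs => rw [B.interp Z]
  conv_rhs => rw [B.interp Z]
  simp only [map_sum, map_mul, map_pow, key, Pt.val_theta]
  rfl

theorem exists_ptOf (Q : B.Pt) (w : PrimVec r) :
    ∃ (v : PrimVec N) (τ : ℍ), primRed B.hr v = w ∧ B.ptOf v τ = Q := by
  obtain ⟨β, θ, hθ⟩ := Q
  obtain ⟨τ, hτ⟩ := B.exists_ptBase β w
  subst hτ
  have h := hθ
  rw [← eval_map, B.evC_ptBase, B.map_charFam, eval_prod, Finset.prod_eq_zero_iff] at h
  obtain ⟨v, hv, hv'⟩ := h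
  rw [mem_primFibre] at hv
  refine ⟨v, τ, hv, ?_⟩
  subst hv
  simp only [eval_sub, eval_X, eval_C, sub_eq_zero] at hv'
  subst hv'
  rfl

end Fermat.Agent.DS.G1.BaseSys
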