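import Fermat.Agent.DS.G1.Core.Coord
import Fermat.Agent.DS.G1.Core.PlaceLemmas
import Mathlib.RingTheory.Henselian
import Mathlib.RingTheory.AdicCompletion.Completeness
import Mathlib.FieldTheory.IsAlgClosed.Basic

/-!
# The residue field of a place and reduction of series
-/

set_option autoImplicit false

noncomputable section

open Polynomial

namespace Fermat.Agent.DS.G1.PlaceRing

open ModularCurve BaseSys

variable {p : ℕ} (P : PlaceRing p)

/-- The ring is integrally closed in `ℂ`. -/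
theorem mem_of_monic_root {f : ℂ[X]} (hm : f.Monic) (hf : ∀ k, f.coeff k ∈ P.A) {x : ℂ}
    (hx : f.eval x = 0) : x ∈ P.A := by
  let K := algebraicClosure ℚ ℂ
  have hA : ∀ k, IsAlgebraic ℚ (f.coeff k) := fun k => P.algebraic _ (hf k)
  have halg : IsAlgebraic ℚ x := by
    obtain ⟨f₀, hf₀⟩ := (Polynomial.mem_lifts (f := algebraMap K ℂ) f).mp
      ((Polynomial.lifts_iff_coeff_lifts f).mpr
        fun k => ⟨(⟨f.coeff k, (mem_algebraicClosure_iff).mpr (hA k)⟩ : K), rfl⟩)
    have h1 : IsAlgebraic K x := ⟨f₀, fun h => hm.ne_zero (by rw [← hf₀, h, Polynomial.map_zero]),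
      by rw [aeval_def, ← eval_map, hf₀, hx]⟩
    have : Algebra.IsAlgebraic ℚ K := algebraicClosure.isAlgebraic ℚ ℂ
    exact h1.restrictScalars ℚ
  by_contra hxA
  have hxi := (P.total x halg).resolve_left hxA
  have hx0 : x ≠ 0 := fun h => hxA (h ▸ zero_mem _)
  have hxm : x⁻¹ ∈ P.maxIdeal := ⟨hxi, Or.inr (by rwa [inv_inv])⟩
  refine P.one_not_mem_maxIdeal ?_
  rw [eval_eq_sum_range, Finset.sum_range_succ, hm.coeff_natDegree, one_mul] at hx
  have h1 : (1 : ℂ) = -∑ k ∈ Finset.range f.natDegree,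
      f.coeff k * x⁻¹ ^ (f.natDegree - k) := by
    have h2 := eq_neg_of_add_eq_zero_right hx
    calc (1 : ℂ) = x ^ f.natDegree * x⁻¹ ^ f.natDegree := by
          rw [← mul_pow, mul_inv_cancel₀ hx0, one_pow]
      _ = -∑ k ∈ Finset.range f.natDegree, f.coeff k * x ^ k * x⁻¹ ^ f.natDegree := by
          rw [h2, neg_mul, Finset.sum_mul]
      _ = _ := by
          refine congrArg _ (Finset.sum_congr rfl fun k hk => ?_)
          have hk' := Finset.mem_range.mp hk
          rw [mul_assoc]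
          congr 1
          conv_lhs => rw [show f.natDegree = k + (f.natDegree - k) by omega, pow_add]
          rw [← mul_assoc, ← mul_pow, mul_inv_cancel₀ hx0, one_pow, one_mul]
  rw [h1]
  refine P.neg_mem_maxIdeal (P.sum_mem_maxIdeal _ fun k hk => P.mul_mem_maxIdeal (hf k) ?_)
  obtain ⟨j, hj⟩ := Nat.exists_eq_succ_of_ne_zero
    (Nat.sub_ne_zero_of_lt (Finset.mem_range.mp hk))
  rw [hj, pow_succ]
  exact P.mul_mem_maxIdeal (pow_mem hxi j) hxm

/-- The maximal ideal, as an ideal. -/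
def maxId : Ideal P.A where
  carrier := {x | (x : ℂ) ∈ P.maxIdeal}
  zero_mem' := P.zero_mem_maxIdeal
  add_mem' := fun ha hb => P.add_mem_maxIdeal ha hb
  smul_mem' := fun c _ hx => P.mul_mem_maxIdeal c.2 hx

theorem mem_maxId {x : P.A} : x ∈ P.maxId ↔ (x : ℂ) ∈ P.maxIdeal := Iff.rfl

instance maxId_isMaximal : P.maxId.IsMaximal := by
  refine Ideal.isMaximal_iff.mpr ⟨fun h => P.one_not_mem_maxIdeal h, fun J x hJ hx hxJ => ?_⟩
  have hinv := P.inv_mem_of_not_mem x.2 hx
  have : (⟨_, hinv⟩ : P.A) * x = 1 :=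
    Subtype.ext (inv_mul_cancel₀ (P.ne_zero_of_not_mem hx))
  exact this ▸ J.mul_mem_left _ hxJ

/-- The residue field. -/
abbrev Res : Type := P.A ⧸ P.maxId

instance : Field P.Res := Ideal.Quotient.field P.maxId

/-- The reduction. -/
def res : P.A →+* P.Res := Ideal.Quotient.mk P.maxId

theorem res_eq_zero {x : P.A} : P.res x = 0 ↔ (x : ℂ) ∈ P.maxIdeal :=
  Ideal.Quotient.eq_zero_iff_mem

theorem res_surjective : Function.Surjective P.res := Ideal.Quotient.mk_surjective

instance : IsAlgClosed P.Res := IsAlgClosed.of_exists_root _ fun f hm hirr => by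
  obtain ⟨F, hF, hdeg, hFm⟩ := lifts_and_degree_eq_and_monic
    ((Polynomial.mem_lifts f).mpr (Polynomial.map_surjective P.res P.res_surjective f)) hm
  have hne : (F.map P.A.subtype).degree ≠ 0 := by
    rw [degree_map_eq_of_injective Subtype.val_injective, hdeg]
    exact (degree_pos_of_irreducible hirr).ne'
  obtain ⟨x, hx⟩ := IsAlgClosed.exists_root _ hne
  have hxA : x ∈ P.A := P.mem_of_monic_root (hFm.map _) (fun k => by simp) hx
  refine ⟨P.res ⟨x, hxA⟩, ?_⟩
  have h0 : F.eval ⟨x, hxA⟩ = 0 := Subtype.ext (by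
    rw [IsRoot.def, eval_map, show x = P.A.subtype ⟨x, hxA⟩ from rfl, eval₂_at_apply] at hx
    exact hx)
  rw [← hF, eval_map, eval₂_at_apply, h0, map_zero]

theorem coeffMap_subtype_injective :
    Function.Injective (coeffMap P.A.subtype : LaurentSeries P.A →+* LaurentSeries ℂ) := by
  intro s t h
  ext n
  simpa using congrArg (fun u : LaurentSeries ℂ => u.coeff n) h

/-- The reduction of series. -/
def serRes : serIn P.A →+* LaurentSeries P.Res :=
  (coeffMap P.res).comp (RingEquiv.ofBijective (coeffMap P.A.subtype).rangeRestrict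
    ⟨fun _ _ h => P.coeffMap_subtype_injective (congrArg Subtype.val h),
      (coeffMap P.A.subtype).rangeRestrict_surjective⟩).symm.toRingHom

theorem serRes_coeff {s : LaurentSeries ℂ} (hs : s ∈ serIn P.A) (n : ℤ) :
    (P.serRes ⟨s, hs⟩).coeff n = P.res ⟨s.coeff n, mem_serIn.mp hs n⟩ := by
  set e := RingEquiv.ofBijective (coeffMap P.A.subtype).rangeRestrict
    ⟨fun _ _ h => P.coeffMap_subtype_injective (congrArg Subtype.val h),
      (coeffMap P.A.subtype).rangeRestrict_surjective⟩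
  have h : coeffMap P.A.subtype (e.symm ⟨s, hs⟩) = s :=
    congrArg Subtype.val (e.apply_symm_apply ⟨s, hs⟩)
  show (coeffMap P.res (e.symm ⟨s, hs⟩)).coeff n = _
  rw [coeffMap_coeff]
  refine congrArg P.res (Subtype.ext ?_)
  show _ = s.coeff n
  conv_rhs => rw [← h]
  simp

theorem serRes_eq_zero {s : serIn P.A} : P.serRes s = 0 ↔ ∀ n, s.1.coeff n ∈ P.maxIdeal := by
  constructor
  · intro h n
    rw [← P.res_eq_zero (x := ⟨_, mem_serIn.mp s.2 n⟩), ← P.serRes_coeff s.2 n,
      show (⟨s.1, s.2⟩ : serIn P.A) = s from rfl, h, HahnSeries.coeff_zero]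
  · intro h
    ext n
    rw [show s = ⟨s.1, s.2⟩ from rfl, P.serRes_coeff s.2, HahnSeries.coeff_zero, P.res_eq_zero]
    exact h n

theorem serCongr_iff {s t : serIn P.A} : P.SerCongr s t ↔ P.serRes s = P.serRes t := by
  rw [← sub_eq_zero, ← map_sub, P.serRes_eq_zero]
  simp [SerCongr]

theorem hasUnitCoeff_iff {s : serIn P.A} : P.HasUnitCoeff s ↔ P.serRes s ≠ 0 := by
  rw [ne_eq, P.serRes_eq_zero, not_forall]
  rfl

theorem serRes_C {c : ℂ} (hc : c ∈ P.A) :
    P.serRes ⟨HahnSeries.C c, C_mem_serIn hc⟩ = HahnSeries.C (P.res ⟨c, hc⟩) := by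
  ext n
  rw [P.serRes_coeff, HahnSeries.C_apply (P.res ⟨c, hc⟩)]
  by_cases hn : n = 0
  · subst hn
    rw [HahnSeries.coeff_single_same]
    exact congrArg P.res (Subtype.ext (HahnSeries.coeff_single_same 0 c))
  · rw [HahnSeries.coeff_single_of_ne hn, P.res_eq_zero]
    show (HahnSeries.C c).coeff n ∈ _
    rw [HahnSeries.C_apply, HahnSeries.coeff_single_of_ne hn]
    exact P.zero_mem_maxIdeal

/-- The expansion at a vector of an integral family. -/
def famSer {M N : ℕ} [NeZero N] (v : PrimVec M) : intFam M N P.A →+* serIn P.A where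
  toFun X := ⟨famExp v X.1, mem_serIn.mpr (mem_intFam.mp X.2 v)⟩
  map_one' := Subtype.ext (map_one (famExp v))
  map_mul' X Y := Subtype.ext (map_mul (famExp v) X.1 Y.1)
  map_zero' := Subtype.ext (map_zero (famExp v))
  map_add' X Y := Subtype.ext (map_add (famExp v) X.1 Y.1)

/-- The reduction of the expansion at a vector. -/
def famRes {M N : ℕ} [NeZero N] (v : PrimVec M) : intFam M N P.A →+* LaurentSeries P.Res :=
  P.serRes.comp (P.famSer v)

theorem famRes_apply {M N : ℕ} [NeZero N] (v : PrimVec M) (X : intFam M N P.A) :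
    P.famRes v X = P.serRes ⟨famExp v X.1, mem_serIn.mpr (mem_intFam.mp X.2 v)⟩ := rfl

/-! ### Roots of series -/

/-- Units of `A⟦q⟧` are `l`-th powers when `l` is invertible. -/
theorem exists_pow_eq_of_unit {l : ℕ} (hl : 0 < l) (hlu : (l : ℂ) ∉ P.maxIdeal)
    {u : PowerSeries ℂ} (hu : u ∈ psIn P.A) (h0 : PowerSeries.constantCoeff u ∉ P.maxIdeal) :
    ∃ w ∈ psIn P.A, w ^ l = u := by
  obtain ⟨g, rfl⟩ := hu
  set c := PowerSeries.constantCoeff g
  have hc : PowerSeries.constantCoeff (PowerSeries.map P.A.subtype g) = (c : ℂ) := by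
    rw [← PowerSeries.coeff_zero_eq_constantCoeff_apply, PowerSeries.coeff_map,
      PowerSeries.coeff_zero_eq_constantCoeff_apply]
    rfl
  rw [hc] at h0
  obtain ⟨z, hz⟩ := IsAlgClosed.exists_pow_nat_eq (c : ℂ) hl
  have hzA : z ∈ P.A := by
    refine P.mem_of_monic_root (f := X ^ l - C (c : ℂ)) (monic_X_pow_sub_C _ hl.ne')
      (fun k => ?_) (by simp [hz])
    rw [coeff_sub, coeff_X_pow, coeff_C]
    refine sub_mem ?_ ?_ <;> split_ifs
    exacts [one_mem _, zero_mem _, c.2, zero_mem _]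
  let z' : P.A := ⟨z, hzA⟩
  let a₀ : PowerSeries P.A := PowerSeries.C z'
  set f : (PowerSeries P.A)[X] := X ^ l - C g
  have h1 : f.eval a₀ ∈ Ideal.span {(PowerSeries.X : PowerSeries P.A)} := by
    refine Ideal.mem_span_singleton.mpr (PowerSeries.X_dvd_iff.mpr ?_)
    rw [eval_sub, eval_pow, eval_X, eval_C, map_sub, map_pow, PowerSeries.constantCoeff_C,
      sub_eq_zero]
    exact Subtype.ext hz
  have hnot : ((l : P.A) * z' ^ (l - 1) : ℂ) ∉ P.maxIdeal := by
    refine P.mul_not_mem_maxIdeal (natCast_mem _ _) (pow_mem hzA _) hlu fun h => ?_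
    refine h0 ?_
    rw [← hz, show l = l - 1 + 1 by omega, pow_succ']
    exact P.mul_mem_maxIdeal hzA h
  have h2 : IsUnit (Ideal.Quotient.mk (Ideal.span {(PowerSeries.X : PowerSeries P.A)})
      (f.derivative.eval a₀)) := by
    refine IsUnit.map _ (PowerSeries.isUnit_iff_constantCoeff.mpr ?_)
    have : PowerSeries.constantCoeff (f.derivative.eval a₀) = (l : P.A) * z' ^ (l - 1) := by
      simp [f, a₀, derivative_X_pow]
    rw [this]
    exact .of_mul_eq_one ⟨_, P.inv_mem_of_not_mem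
      (mul_mem (natCast_mem _ _) (pow_mem hzA _)) hnot⟩
      (Subtype.ext (by
        push_cast
        exact mul_inv_cancel₀ (P.ne_zero_of_not_mem hnot)))
  obtain ⟨a, ha, -⟩ := HenselianRing.is_henselian f (monic_X_pow_sub_C _ hl.ne') a₀ h1 h2
  refine ⟨PowerSeries.map P.A.subtype a, ⟨a, rfl⟩, ?_⟩
  rw [IsRoot.def, eval_sub, eval_pow, eval_X, eval_C, sub_eq_zero] at ha
  rw [← map_pow, ha]

theorem res_natCast_ne_zero {n : ℕ} (h : (n : ℂ) ∉ P.maxIdeal) : (n : P.Res) ≠ 0 := by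
  rw [← map_natCast P.res, ne_eq, P.res_eq_zero]
  simpa using h

/-- An `l`-th root can be moved into the class of a given approximate root. -/
theorem exists_root_congr {l : ℕ} (hl : 0 < l) (hlu : (l : ℂ) ∉ P.maxIdeal)
    (a G : serIn P.A) (hx : P.serRes a ≠ 0) (h : P.serRes (a ^ l) = P.serRes (G ^ l)) :
    ∃ a' : serIn P.A, a' ^ l = a ^ l ∧ P.serRes a' = P.serRes G := by
  obtain ⟨t, ht⟩ : ∃ t : LaurentSeries P.Res, P.serRes G = t * P.serRes a :=
    ⟨P.serRes G * (P.serRes a)⁻¹, by rw [inv_mul_cancel_right₀ hx]⟩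
  rw [map_pow, map_pow, ht, mul_pow] at h
  have htl : t ^ l = 1 :=
    (mul_left_eq_self₀.mp h.symm).resolve_right (pow_ne_zero l hx)
  have hζ := Complex.isPrimitiveRoot_exp l hl.ne'
  set ζ := Complex.exp (2 * Real.pi * Complex.I / l)
  have hζA : ζ ∈ P.A := P.mem_of_monic_root (f := X ^ l - 1) (monic_X_pow_sub_C _ hl.ne')
    (fun k => by
      rw [coeff_sub, coeff_X_pow, coeff_one]
      exact sub_mem (by split_ifs <;> simp) (by split_ifs <;> simp))
    (by simp [hζ.pow_eq_one])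
  haveI : NeZero l := ⟨hl.ne'⟩
  obtain ⟨i, hi⟩ : ∃ i : ℕ, t = HahnSeries.C (P.res ⟨ζ ^ i, pow_mem hζA i⟩) := by
    have e : (X ^ l - 1 : P.A[X]) =
        ∏ i ∈ Finset.range l, (X - C ((⟨ζ, hζA⟩ : P.A) ^ i)) := by
      refine Polynomial.map_injective P.A.subtype Subtype.val_injective ?_
      rw [Polynomial.map_prod]
      simp only [Polynomial.map_sub, Polynomial.map_pow, Polynomial.map_X, Polynomial.map_one,
        Polynomial.map_C]
      simpa using X_pow_sub_C_eq_prod hζ hl (one_pow l) (α := (1 : ℂ))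
    have e' := congrArg (fun f => f.eval₂ ((HahnSeries.C).comp P.res) t) e
    simp only [eval₂_sub, eval₂_X_pow, eval₂_one, htl, sub_self, eval₂_finsetProd, eval₂_X,
      eval₂_C] at e'
    obtain ⟨i, -, hi⟩ := Finset.prod_eq_zero_iff.mp e'.symm
    exact ⟨i, sub_eq_zero.mp hi⟩
  refine ⟨⟨_, C_mem_serIn (pow_mem hζA i)⟩ * a, ?_, by rw [map_mul, P.serRes_C (pow_mem hζA i), ← hi, ← ht]⟩
  rw [mul_pow]
  refine (congrArg (· * a ^ l) (Subtype.ext ?_)).trans (one_mul _)
  show (HahnSeries.C (ζ ^ i) : LaurentSeries ℂ) ^ l = 1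
  rw [← map_pow, ← pow_mul, mul_comm, pow_mul, hζ.pow_eq_one, one_pow, map_one]

end Fermat.Agent.DS.G1.PlaceRing
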