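import Fermat.Agent.DS.G1.Core.Setup
import Fermat.Agent.DS.G1.Core.Residue
import Mathlib.Algebra.Ring.GeomSum

/-!
# A family is nonzero modulo the maximal ideal at all cusps or at none

The expansions of `b` are transcendental over the residue field, so the coefficients of the
characteristic polynomial of a family vanish modulo the maximal ideal at one vector iff they do at
all.  An idempotent modulo the maximal ideal then lifts to a family, so it is constant.
-/

set_option autoImplicit false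

noncomputable section

open Polynomial

namespace Fermat.Agent.DS.G1

/-- Congruences modulo `π` improve under `p ^ n`-th powers when `π ∣ p`. -/
theorem dvd_pow_prime_pow_sub {R : Type*} [CommRing R] {π a b : R} {p : ℕ} (hpπ : π ∣ (p : R))
    (h : π ∣ a - b) : ∀ n : ℕ, π ^ (n + 1) ∣ a ^ p ^ n - b ^ p ^ n
  | 0 => by simpa using h
  | n + 1 => by
    have ih := dvd_pow_prime_pow_sub hpπ h n
    rw [pow_succ p n, pow_mul, pow_mul, ← geom_sum₂_mul, pow_succ' π (n + 1)]
    refine mul_dvd_mul ((dvd_geom_sum₂_iff_of_dvd_sub ?_).mpr (hpπ.mul_right _)) ih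
    exact (dvd_pow_self π n.succ_ne_zero).trans ih

namespace BaseSys

variable {r N p : ℕ} [NeZero N] (B : BaseSys r N) {P : PlaceRing p}

theorem relDeriv_ne_zero : B.relDeriv ≠ 0 := by
  intro h
  have h1 : B.relDeriv * B.evb B.dP =
      B.evb (derivative (B.c4P ^ 3) * B.dP - B.c4P ^ 3 * derivative B.dP) := by
    rw [relDeriv, B.jFam_eq, map_sub, map_mul, map_mul]
    linear_combination (-(B.evb (B.c4P ^ 3)) * B.evb (derivative B.dP)) * B.evb_dP_mul_dInv
  rw [h, zero_mul, eq_comm] at h1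
  have h2 := B.evb_injective (h1.trans (map_zero B.evb).symm)
  have h3 : B.c4P ^ 2 * (C (B.kappa : ℂ) * X ^ B.mExp * B.c6P) = 0 := by
    rw [← B.deriv_map, ← h2, derivative_pow]
    simp only [Nat.cast_ofNat, show (3 : ℕ) - 1 = 2 from rfl, map_ofNat]
    ring
  have hne : ∀ {G : ℤ[X]}, G.leadingCoeff ∣ (r : ℤ) ^ B.eExp →
      G.map (Int.castRingHom ℂ) ≠ 0 := fun {G} hG hG0 => by
    rw [Polynomial.map_eq_zero_iff (RingHom.injective_int _)] at hG0
    exact (B.inv_mem_of_dvd hG).2 (by rw [hG0, leadingCoeff_zero, Int.cast_zero])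
  simp only [mul_eq_zero, pow_eq_zero_iff', C_eq_zero, X_ne_zero, false_and, or_false] at h3
  rcases h3 with ⟨h4, -⟩ | h4 | h6
  · exact hne B.lead4_dvd h4
  · exact (B.inv_mem_of_dvd B.kappa_dvd).2 h4
  · exact hne B.lead6_dvd h6

/-- A primitive polynomial in `b` has a unit coefficient at every vector. -/
theorem hasUnitCoeff_evbSer (hS : zetaRing N ≤ P.A) (w : PrimVec r) {Q : ℂ[X]}
    (hQ : Q ∈ polyIn P.A) (hQ0 : ∃ k, Q.coeff k ∉ P.maxIdeal) :
    P.HasUnitCoeff (B.evbSer w Q) := by
  let τ : P.A[X] →+* serIn P.A :=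
    ((B.evbSer w).comp (mapRingHom P.A.subtype)).codRestrict _
      fun Q => B.evbSer_mem hS w ⟨Q, rfl⟩
  let ρ : P.Res[X] →+* LaurentSeries P.Res := eval₂RingHom HahnSeries.C (P.serRes (τ X))
  have hτC : ∀ c : P.A, P.serRes (τ (C c)) = HahnSeries.C (P.res c) := fun c => by
    rw [← P.serRes_C c.2]
    refine congrArg P.serRes (Subtype.ext ?_)
    show B.evbSer w ((C c).map P.A.subtype) = _
    rw [Polynomial.map_C, evbSer_C]
    rfl
  have hρ : ρ.comp (mapRingHom P.res) = P.serRes.comp τ := by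
    refine Polynomial.ringHom_ext (fun c => ?_) ?_
    · simp only [RingHom.comp_apply, coe_mapRingHom, Polynomial.map_C]
      rw [hτC]
      exact eval₂_C _ _
    · simp only [RingHom.comp_apply, coe_mapRingHom, Polynomial.map_X]
      exact eval₂_X _ _
  obtain ⟨Q₀, rfl⟩ := hQ
  obtain ⟨k, hk⟩ := hQ0
  simp only [coe_mapRingHom, Polynomial.coeff_map] at hk
  show P.HasUnitCoeff (τ Q₀).1
  rw [P.hasUnitCoeff_iff]
  intro h0
  have h1 : ρ (Q₀.map P.res) = 0 := (RingHom.congr_fun hρ Q₀).trans h0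
  have hne : Q₀.map P.res ≠ 0 := fun hz => hk (by
    rw [show (P.A.subtype (Q₀.coeff k)) = ((Q₀.coeff k : P.A) : ℂ) from rfl, ← P.res_eq_zero,
      ← Polynomial.coeff_map, hz, Polynomial.coeff_zero])
  -- a root: `b` reduces to a constant
  rw [Splits.eq_prod_roots (IsAlgClosed.splits (Q₀.map P.res)), map_mul, mul_eq_zero] at h1
  have hlc : ρ (C (Q₀.map P.res).leadingCoeff) ≠ 0 := by
    show eval₂ (HahnSeries.C (Γ := ℤ) (R := P.Res)) _ (C _) ≠ 0
    rw [eval₂_C]
    exact fun h => leadingCoeff_ne_zero.mpr hne (HahnSeries.C_injective (h.trans (map_zero _).symm))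
  have h2 := h1.resolve_left hlc
  rw [map_multiset_prod, Multiset.prod_eq_zero_iff, Multiset.map_map, Multiset.mem_map] at h2
  obtain ⟨γ, -, hγ⟩ := h2
  obtain ⟨β, rfl⟩ := P.res_surjective γ
  have hlin : P.serRes (τ (X - C β)) = 0 := by
    rw [← RingHom.comp_apply, ← hρ]
    simpa using hγ
  by_cases hd : B.dP.eval (β : ℂ) ∈ P.maxIdeal
  · -- then the discriminant reduces to zero
    obtain ⟨D₀, hD₀⟩ := B.dP_mem_polyIn (S := P.A)
    have hD : P.serRes (τ D₀) = 0 := by
      rw [← modByMonic_add_div D₀ (X - C β), map_add, map_mul, map_add, map_mul, hlin, zero_mul,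
        add_zero, modByMonic_X_sub_C_eq_C_eval, hτC]
      rw [show P.res (D₀.eval β) = 0 from ?_, map_zero]
      rw [P.res_eq_zero]
      rw [← hD₀, coe_mapRingHom, show (β : ℂ) = P.A.subtype β from rfl, eval_map, eval₂_at_apply]
        at hd
      exact hd
    have hmem : famExp w B.dInv ∈ serIn P.A :=
      mem_serIn.mpr (mem_intFam.mp (intFam_mono hS B.dInv_mem_intFam) w)
    have hone : τ D₀ * ⟨_, hmem⟩ = 1 := Subtype.ext (by
      show B.evbSer w (mapRingHom P.A.subtype D₀) * _ = 1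
      rw [hD₀, evbSer, RingHom.comp_apply, ← map_mul, evb_dP_mul_dInv, map_one])
    have := congrArg P.serRes hone
    rw [map_mul, hD, zero_mul, map_one] at this
    exact zero_ne_one this
  · have h3 := B.hasUnitCoeff_linear hS w β.2 hd
    rw [show B.evbSer w (X - C (β : ℂ)) = (τ (X - C β)).1 by
      show _ = B.evbSer w ((X - C β).map P.A.subtype)
      rw [Polynomial.map_sub, Polynomial.map_X, Polynomial.map_C]
      rfl, P.hasUnitCoeff_iff] at h3
    exact h3 hlin

/-- A polynomial reducing to zero gives series reducing to zero. -/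
theorem coeff_evbSer_mem (hS : zetaRing N ≤ P.A) (w : PrimVec r) {Q : ℂ[X]}
    (h : ∀ k, Q.coeff k ∈ P.maxIdeal) (i : ℤ) : (B.evbSer w Q).coeff i ∈ P.maxIdeal := by
  rw [Q.as_sum_range, map_sum, HahnSeries.coeff_sum]
  refine P.sum_mem_maxIdeal _ fun k _ => ?_
  rw [← C_mul_X_pow_eq_monomial, map_mul, evbSer_C, HahnSeries.C_mul_eq_smul,
    HahnSeries.coeff_smul, smul_eq_mul, mul_comm]
  exact P.mul_mem_maxIdeal
    (mem_serIn.mp (B.evbSer_mem hS w (pow_mem X_mem_polyIn k)) i) (h k)

/-- Cayley–Hamilton for the characteristic polynomial over level `r`. -/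
theorem sum_charFam_mul_pow (Z : Fam N N) :
    ∑ i ∈ Finset.range (B.sheetDeg + 1), famPull B.hr ((B.charFam Z).coeff i) * Z ^ i = 0 := by
  have := B.neZero_r
  refine fam_ext_eval fun v τ => ?_
  simp only [map_sum, map_mul, map_pow, map_zero, B.famEval_pull]
  have h := congrArg (Polynomial.eval (famEval v τ Z)) (B.map_charFam Z (primRed B.hr v) τ)
  rw [eval_prod, Finset.prod_eq_zero (mem_primFibre.mpr rfl) (by simp),
    eval_eq_sum_range' (n := B.sheetDeg + 1)
      (natDegree_map_le.trans_lt (by rw [(B.monic_charFam Z).2]; omega))] at h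
  simpa [Polynomial.coeff_map] using h

/-- An idempotent modulo the maximal ideal, approximated by a family over powers of a primitive
polynomial in `b`, is constant. -/
theorem false_of_idem {r N p : ℕ} [NeZero N] (B : BaseSys r N) (hp : p.Prime)
    (P : PlaceRing p) (hS : zetaRing N ≤ P.A) {s : ℂ[X]} (hs : s ∈ polyIn P.A)
    (hz : ∃ k, s.coeff k ∉ P.maxIdeal) {W : Fam N N} (hW : W ∈ intFam N N P.A)
    (hSf : famPull B.hr (B.evb s) ∈ intFam N N P.A) (Z : Set (PrimVec N)) [DecidablePred (· ∈ Z)]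
    (hWres : ∀ u, P.famRes u ⟨W, hW⟩ =
      (if u ∈ Z then 0 else 1) * P.famRes u ⟨_, hSf⟩)
    {v v₀ : PrimVec N} (hv : v ∈ Z) (hv₀ : v₀ ∉ Z) : False := by
  have := B.neZero_r
  have hpull : ∀ {S : Subring ℂ}, ∀ Y ∈ intFam r N S, famPull B.hr Y ∈ intFam N N S :=
    fun Y hY => mem_intFam.mpr fun u i => by rw [famExp_famPull]; exact mem_intFam.mp hY _ i
  let Sf : Fam N N := famPull B.hr (B.evb s)
  let φ : PrimVec N → LaurentSeries ℂ := fun u => if u ∈ Z then 0 else 1
  have hφA : ∀ u, φ u ∈ serIn P.A := fun u => by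
    simp only [φ]
    split_ifs
    exacts [zero_mem _, one_mem _]
  -- a coefficient field
  have hkbA : P.A ≤ DS.Kb.toSubfield.toSubring := fun x hx => mem_kb_iff.mpr (P.algebraic x hx)
  have hs0 : s ≠ 0 := fun h0 => by
    obtain ⟨k, hk⟩ := hz
    exact hk (by rw [h0, Polynomial.coeff_zero]; exact P.zero_mem_maxIdeal)
  obtain ⟨D⟩ := exists_coeffData B hp P hS {W}
    (fun Z hZ => by rw [Finset.mem_singleton.mp hZ]; exact intFam_mono hkbA hW)
    (fun k => P.algebraic _ (mem_polyIn.mp hs k)) hs0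
  set O := coeffRing P D.K
  have hO : ∀ {M' K' : ℕ} [NeZero K'] {Y : Fam M' K'}, Y ∈ intFam M' K' P.A →
      Y ∈ intFam M' K' D.K.toSubring → Y ∈ intFam M' K' O := fun h h' =>
    mem_intFam.mpr fun u i => ⟨mem_intFam.mp h' u i, mem_intFam.mp h u i⟩
  have hWO : W ∈ intFam N N O := hO hW (D.fam_mem W (Finset.mem_singleton_self _))
  have hsO : s ∈ polyIn O :=
    mem_polyIn.mpr fun k => ⟨mem_polyIn.mp D.poly_mem k, mem_polyIn.mp hs k⟩
  have hSfO : Sf ∈ intFam N N O := hpull _ (B.repRing_le D.zeta_le (B.evb_mem_repRing hsO))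
  have hπA : D.π ∈ P.A := P.maxIdeal_subset D.uniformiser_max
  have hpπ : ∃ y ∈ P.A, (p : ℂ) = D.π * y := by
    obtain ⟨y, hy, he⟩ := D.dvd_uniformiser p ⟨natCast_mem _ p, natCast_mem _ p⟩
      P.natCast_mem_maxIdeal
    exact ⟨y, coeffRing_le hy, he⟩
  let φ' : PrimVec N → ℂ := fun u => if u ∈ Z then 0 else 1
  have hφ : ∀ u, φ u = HahnSeries.C (φ' u) := fun u => by
    simp only [φ, φ']
    split_ifs <;> simp
  have hφ' : ∀ u, φ' u ∈ O := fun u => by
    simp only [φ']
    split_ifs
    exacts [zero_mem _, one_mem _]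
  -- congruences modulo the uniformiser
  have hcong : ∀ u, P.SerDvd D.π (famExp u W - φ u * famExp u Sf) := by
    intro u
    refine (P.serDvd_iff D.uniformiser_ne).mpr fun i => ?_
    have hWu : famExp u W ∈ serIn O := mem_serIn.mpr (mem_intFam.mp hWO u)
    have hSu : φ u * famExp u Sf ∈ serIn O :=
      mul_mem (hφ u ▸ C_mem_serIn (hφ' u)) (mem_serIn.mpr (mem_intFam.mp hSfO u))
    have hmax : P.serRes (P.famSer u ⟨W, hW⟩ - ⟨φ u, hφA u⟩ * P.famSer u ⟨Sf, hSf⟩) = 0 := by
      rw [map_sub, map_mul, sub_eq_zero]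
      refine (hWres u).trans (congrArg (· * _) ?_)
      by_cases hu : u ∈ Z
      · rw [if_pos hu, show (⟨φ u, hφA u⟩ : serIn P.A) = 0 from Subtype.ext (if_pos hu), map_zero]
      · rw [if_neg hu, show (⟨φ u, hφA u⟩ : serIn P.A) = 1 from Subtype.ext (if_neg hu), map_one]
    obtain ⟨y, hy, hye⟩ := D.dvd_uniformiser _ (mem_serIn.mp (sub_mem hWu hSu) i)
      (P.serRes_eq_zero.mp hmax i)
    exact ⟨y, coeffRing_le hy, hye⟩
  -- the family lifting the idempotent
  obtain ⟨Φ, -, hΦ⟩ : ∃ Φ ∈ intFam N N P.A,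
      ∀ u, famExp u Φ = famExp (primRed B.hr u) B.relDeriv * φ u := by
    refine B.exists_fam_of_approx hp P hS D.uniformiser_max D.uniformiser_ne φ hφA hs hz
      fun n => ⟨p ^ n, 0, W ^ p ^ n, pow_mem hW _, fun u => ?_, fun Q hQ hQs => ?_⟩
    · have hR : ∀ {x y : serIn P.A}, P.SerDvd D.π (x.1 - y.1) →
          P.SerDvd (D.π ^ n) ((x ^ p ^ n).1 - (y ^ p ^ n).1) := by
        rintro x y ⟨t, ht, he⟩
        have h1 : (⟨_, C_mem_serIn hπA⟩ : serIn P.A) ∣ x - y := ⟨⟨t, ht⟩, Subtype.ext he⟩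
        have h2 : (⟨_, C_mem_serIn hπA⟩ : serIn P.A) ∣ (p : serIn P.A) := by
          obtain ⟨y', hy', he'⟩ := hpπ
          refine ⟨⟨_, C_mem_serIn hy'⟩, Subtype.ext ?_⟩
          rw [Subring.coe_mul]
          show ((p : serIn P.A) : LaurentSeries ℂ) = _
          rw [SubringClass.coe_natCast, ← map_natCast (HahnSeries.C (Γ := ℤ) (R := ℂ)), he',
            map_mul]
        obtain ⟨w, hw⟩ := (pow_dvd_pow _ n.le_succ).trans (dvd_pow_prime_pow_sub h2 h1 n)
        refine ⟨w.1, w.2, ?_⟩
        have := congrArg Subtype.val hw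
        simp only [AddSubgroupClass.coe_sub, Subring.coe_mul, SubmonoidClass.coe_pow] at this
        rw [map_pow, ← this]
        rfl
      have h := hR (x := ⟨φ u, hφA u⟩ * P.famSer u ⟨Sf, hSf⟩) (y := P.famSer u ⟨W, hW⟩) (by
        obtain ⟨t, ht, he⟩ := hcong u
        exact ⟨-t, neg_mem ht, by rw [mul_neg, ← he, neg_sub]; rfl⟩)
      simp only [Subring.coe_mul, SubmonoidClass.coe_pow, mul_pow] at h
      convert h using 1
      · rw [pow_zero, mul_one, map_pow, map_pow, map_pow, mul_comm]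
        congr 1
        by_cases hu : u ∈ Z
        · rw [show φ u = 0 from if_pos hu, zero_pow (pow_ne_zero n hp.ne_zero), zero_mul, zero_mul]
        · rw [show φ u = 1 from if_neg hu, one_pow, one_mul, one_mul]
          rfl
    · have hQO : Q.IsIn O := by
        have hb : Q.beta ∈ D.K := D.root_mem _ hQs
        exact ⟨⟨⟨hb, hQ.1.1⟩, ⟨D.K.inv_mem (eval_mem_of_polyIn B.dP_mem_polyIn hb), hQ.1.2⟩⟩,
          ⟨D.sheet_mem Q hQs, hQ.2⟩⟩
      obtain ⟨x, hx⟩ := Q.exp_mem D.zeta_le hQO hWO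
      obtain ⟨σ, hσ⟩ := taylorAt_mem_psIn hQO.1.1 hsO
      -- `W (W - S)` is divisible by the uniformiser
      have hY : ∀ u i, ∃ y ∈ O, (famExp u (W * (W - Sf))).coeff i = D.π * y := fun u i => by
        refine D.dvd_uniformiser _ (mem_intFam.mp (mul_mem hWO (sub_mem hWO hSfO)) u i) ?_
        have h0 : P.famRes u ⟨_, mul_mem hW (sub_mem hW hSf)⟩ = 0 := by
          rw [show (⟨W * (W - Sf), mul_mem hW (sub_mem hW hSf)⟩ : intFam N N P.A) =
            ⟨W, hW⟩ * (⟨W, hW⟩ - ⟨Sf, hSf⟩) from rfl, map_mul, map_sub, hWres u]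
          split_ifs <;> simp [Sf]
        exact P.serRes_eq_zero.mp h0 i
      have hY' : famConst N N D.π⁻¹ * (W * (W - Sf)) ∈ intFam N N O :=
        mem_intFam.mpr fun u i => by
          obtain ⟨y, hy, he⟩ := hY u i
          rwa [map_mul, famExp_famConst, HahnSeries.C_mul_eq_smul, HahnSeries.coeff_smul,
            smul_eq_mul, he, inv_mul_cancel_left₀ D.uniformiser_ne]
      obtain ⟨y, hy⟩ := Q.exp_mem D.zeta_le hQO hY'
      have hQc : ∀ c : ℂ, Q.exp (famConst N N c) = PowerSeries.C c := fun c => by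
        rw [← B.evR_const Q.toBasePt c, ← Q.exp_pull]
        rfl
      have hQS : Q.exp Sf = taylorAt Q.beta s := by rw [Q.exp_pull, B.evR_evb]
      have hprod : PowerSeries.map O.subtype (x * (x - σ)) =
          PowerSeries.C D.π * PowerSeries.map O.subtype y := by
        rw [map_mul, map_sub, hx, hσ, hy, Q.exp.map_mul (famConst N N D.π⁻¹) (W * (W - Sf)), hQc,
          Q.exp.map_mul W (W - Sf), Q.exp.map_sub W Sf, hQS, ← mul_assoc,
          ← map_mul, mul_inv_cancel₀ D.uniformiser_ne, map_one, one_mul]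
      let rO : O →+* P.Res := P.res.comp (Subring.inclusion coeffRing_le)
      have hzero : PowerSeries.map rO x = 0 ∨ PowerSeries.map rO (x - σ) = 0 := by
        refine mul_eq_zero.mp ?_
        rw [← map_mul]
        ext j
        rw [PowerSeries.coeff_map, map_zero]
        refine P.res_eq_zero.mpr ?_
        have h1 := congrArg (PowerSeries.coeff j) hprod
        rw [PowerSeries.coeff_map, PowerSeries.coeff_C_mul, PowerSeries.coeff_map] at h1
        show (((x * (x - σ)).coeff j : O) : ℂ) ∈ P.maxIdeal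
        rw [show (((x * (x - σ)).coeff j : O) : ℂ) = D.π * (y.coeff j : ℂ) from h1, mul_comm]
        exact P.mul_mem_maxIdeal (coeffRing_le (y.coeff j).2) D.uniformiser_max
      obtain ⟨g, hg, hgx⟩ : ∃ g : O, ((g : ℂ) = 0 ∨ (g : ℂ) = 1) ∧
          ∀ j, (((x - PowerSeries.C g * σ).coeff j : O) : ℂ) ∈ P.maxIdeal := by
        rcases hzero with h | h
        · refine ⟨0, Or.inl rfl, fun j => ?_⟩
          rw [map_zero, zero_mul, sub_zero]
          exact P.res_eq_zero.mp ((PowerSeries.coeff_map rO j x).symm.trans (by rw [h, map_zero]))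
        · refine ⟨1, Or.inr rfl, fun j => ?_⟩
          rw [map_one, one_mul]
          exact P.res_eq_zero.mp
            ((PowerSeries.coeff_map rO j (x - σ)).symm.trans (by rw [h, map_zero]))
      have hdiv : (PowerSeries.C (⟨D.π, hπA⟩ : P.A)) ∣
          PowerSeries.map (Subring.inclusion coeffRing_le) (PowerSeries.C g * σ) -
            PowerSeries.map (Subring.inclusion coeffRing_le) x := by
        choose c hc hce using fun j =>
          D.dvd_uniformiser _ ((x - PowerSeries.C g * σ).coeff j).2 (hgx j)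
        refine ⟨PowerSeries.mk fun j => ⟨-c j, neg_mem (coeffRing_le (hc j))⟩, ?_⟩
        ext j
        rw [← map_sub, ← neg_sub, PowerSeries.coeff_map, PowerSeries.coeff_C_mul,
          PowerSeries.coeff_mk, map_neg, map_neg]
        show -((((x - PowerSeries.C g * σ).coeff j : O)) : ℂ) = D.π * -c j
        rw [hce, mul_neg]
      have hpdiv : (PowerSeries.C (⟨D.π, hπA⟩ : P.A)) ∣ (p : PowerSeries P.A) := by
        obtain ⟨y', hy', he'⟩ := hpπ
        refine ⟨PowerSeries.C ⟨y', hy'⟩, ?_⟩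
        rw [← map_mul, ← map_natCast (PowerSeries.C (R := P.A))]
        exact congrArg _ (Subtype.ext he')
      obtain ⟨w, hw⟩ := (pow_dvd_pow _ n.le_succ).trans (dvd_pow_prime_pow_sub hpdiv hdiv n)
      refine ⟨PowerSeries.C (g : ℂ), mem_psIn_iff.mpr fun j => ?_, fun j => ?_⟩
      · rw [PowerSeries.coeff_C]
        split_ifs
        exacts [coeffRing_le g.2, zero_mem _]
      · have hw' := congrArg (fun t => PowerSeries.coeff j (PowerSeries.map P.A.subtype t)) hw
        refine ⟨(w.coeff j : P.A), (w.coeff j).2, ?_⟩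
        have hmm : ∀ t : PowerSeries O, PowerSeries.map P.A.subtype
            (PowerSeries.map (Subring.inclusion coeffRing_le) t) = PowerSeries.map O.subtype t :=
          fun t => by ext i; simp
        have hgp : PowerSeries.C (g : ℂ) ^ p ^ n = PowerSeries.C (g : ℂ) := by
          rcases hg with h | h
          · simp [h, zero_pow (pow_ne_zero n hp.ne_zero)]
          · simp [h]
        simp only [map_sub, map_pow, map_mul, hmm, hσ, PowerSeries.map_C, mul_pow,
          Subring.coe_subtype, Subring.coe_inclusion, hgp] at hw'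
        rw [← map_pow PowerSeries.C D.π] at hw'
        conv_rhs at hw' => rw [PowerSeries.coeff_C_mul, PowerSeries.coeff_map]
        rw [pow_zero, mul_one, show taylorAt Q.beta (s ^ p ^ n) = taylorAt Q.beta s ^ p ^ n from
          map_pow (taylorHom Q.beta) s _, map_pow, mul_comm, map_sub]
        rw [← hx]
        exact hw'
  -- the family is constant
  have hidem : Φ * (Φ - famPull B.hr B.relDeriv) = 0 := by
    refine fam_ext_exp fun u => ?_
    rw [map_mul, map_sub, hΦ, famExp_famPull, map_zero]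
    simp only [φ]
    split_ifs <;> simp
  have hrel := fun u => fam_ne_zero_exp B.relDeriv_ne_zero (primRed B.hr u)
  rcases mul_eq_zero.mp hidem with h | h
  · have := hΦ v₀
    rw [h, map_zero, show φ v₀ = 1 from if_neg hv₀, mul_one] at this
    exact hrel v₀ this.symm
  · have := hΦ v
    rw [sub_eq_zero.mp h, famExp_famPull,
      show φ v = 0 from if_pos hv, mul_zero] at this
    exact hrel v this


/-- If one expansion has a unit coefficient, so has every expansion. -/
theorem hasUnitCoeff_all {r N p : ℕ} [NeZero N] (B : BaseSys r N) (hp : p.Prime)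
    (P : PlaceRing p) (hS : zetaRing N ≤ P.A) {X : Fam N N} (hX : X ∈ intFam N N P.A)
    {v₀ : PrimVec N} (h₀ : P.HasUnitCoeff (famExp v₀ X)) (v : PrimVec N) :
    P.HasUnitCoeff (famExp v X) := by
  classical
  have := B.neZero_r
  by_contra hv
  have hpull : ∀ {S : Subring ℂ}, ∀ Y ∈ intFam r N S, famPull B.hr Y ∈ intFam N N S :=
    fun Y hY => mem_intFam.mpr fun u i => by rw [famExp_famPull]; exact mem_intFam.mp hY _ i
  choose T hT m hm using fun i => B.exists_rep_of_mem (B.coeff_charFam_mem hS hX i)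
  have hcT : ∀ i, (B.charFam X).coeff i * B.evb (B.dP ^ m i) = B.evb (T i) := fun i => by
    rw [hm i, map_pow, mul_assoc, ← mul_pow, mul_comm B.dInv, evb_dP_mul_dInv, one_pow, mul_one]
  let xv : PrimVec N → LaurentSeries P.Res := fun u => P.famRes u ⟨X, hX⟩
  have hxv : ∀ u, xv u ≠ 0 ↔ P.HasUnitCoeff (famExp u X) := fun u =>
    (P.hasUnitCoeff_iff (s := P.famSer u ⟨X, hX⟩)).symm
  have hdP : B.evb B.dP ∈ intFam r N P.A := B.repRing_le hS (B.evb_mem_repRing B.dP_mem_polyIn)
  -- the first coefficient which is nonzero modulo the maximal ideal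
  have hD : ∀ k w, famExp w (B.dInv ^ k) ∈ serIn P.A := fun k w =>
    mem_serIn.mpr (mem_intFam.mp (pow_mem (intFam_mono hS B.dInv_mem_intFam) k) w)
  have hex : ∃ i, ∃ k, (T i).coeff k ∉ P.maxIdeal := by
    refine ⟨B.sheetDeg, ?_⟩
    by_contra hall
    push Not at hall
    have hone : famExp (base r) (B.dInv ^ m B.sheetDeg) *
        B.evbSer (base r) (T B.sheetDeg) = 1 := by
      rw [evbSer, RingHom.comp_apply, ← hcT, B.coeff_charFam_deg, one_mul, ← map_mul, map_pow,
        ← mul_pow, mul_comm B.dInv, evb_dP_mul_dInv, one_pow, map_one]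
    have h0 := serMul_mem_maxIdeal (hD (m B.sheetDeg) (base r))
      (B.coeff_evbSer_mem hS (base r) hall) 0
    rw [hone, HahnSeries.coeff_one, if_pos rfl] at h0
    exact P.one_not_mem_maxIdeal h0
  set z := Nat.find hex
  have hz : ∃ k, (T z).coeff k ∉ P.maxIdeal := Nat.find_spec hex
  have hzmin : ∀ i < z, ∀ k, (T i).coeff k ∈ P.maxIdeal := fun i hi k =>
    not_not.mp fun hk => Nat.find_min hex hi ⟨k, hk⟩
  have hzd : z ≤ B.sheetDeg := by
    by_contra hlt
    obtain ⟨k, hk⟩ := hz
    refine hk ?_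
    have h1 := hcT z
    rw [coeff_eq_zero_of_natDegree_lt (by rw [(B.monic_charFam X).2]; omega), zero_mul,
      eq_comm] at h1
    rw [B.evb_injective (h1.trans (map_zero _).symm), Polynomial.coeff_zero]
    exact P.zero_mem_maxIdeal
  -- the approximate idempotent
  have hc : ∀ i, famPull B.hr ((B.charFam X).coeff i) ∈ intFam N N P.A := fun i =>
    hpull _ (B.repRing_le hS (B.coeff_charFam_mem hS hX i))
  let H : Fam N N := ∑ i ∈ Finset.range (B.sheetDeg + 1 - z),
    famPull B.hr ((B.charFam X).coeff (z + i)) * X ^ i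
  have hH : H ∈ intFam N N P.A := sum_mem fun i _ => mul_mem (hc _) (pow_mem hX i)
  set s := T z
  set Sf : Fam N N := famPull B.hr (B.evb s)
  set W : Fam N N :=
    (famPull B.hr ((B.charFam X).coeff z) - H) * famPull B.hr (B.evb (B.dP ^ m z))
  have hSf : Sf ∈ intFam N N P.A := hpull _ (B.repRing_le hS (B.evb_mem_repRing (hT z)))
  have hdPm : famPull B.hr (B.evb (B.dP ^ m z)) ∈ intFam N N P.A :=
    hpull _ (by rw [map_pow]; exact pow_mem hdP _)
  have hW : W ∈ intFam N N P.A := mul_mem (sub_mem (hc z) hH) hdPm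
  have hlow : ∀ u, ∀ i < z, P.famRes u ⟨_, hc i⟩ = 0 := by
    intro u i hi
    rw [P.famRes_apply, P.serRes_eq_zero]
    intro j
    show (famExp u (famPull B.hr _)).coeff j ∈ _
    rw [famExp_famPull, hm i, map_mul, mul_comm]
    exact serMul_mem_maxIdeal (hD (m i) _)
      (B.coeff_evbSer_mem hS (primRed B.hr u) (hzmin i hi)) j
  have hWres : ∀ u, P.famRes u ⟨W, hW⟩ = (if xv u = 0 then 0 else 1) * P.famRes u ⟨Sf, hSf⟩ := by
    intro u
    have hSW : (⟨Sf, hSf⟩ : intFam N N P.A) = ⟨_, hc z⟩ * ⟨_, hdPm⟩ :=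
      Subtype.ext (by
        show famPull B.hr (B.evb s) = famPull B.hr _ * famPull B.hr _
        rw [← map_mul, hcT z])
    have hH' : (⟨H, hH⟩ : intFam N N P.A) =
        ∑ i ∈ Finset.range (B.sheetDeg + 1 - z), ⟨_, hc (z + i)⟩ * ⟨X, hX⟩ ^ i :=
      Subtype.ext (by simp [H, AddSubmonoidClass.coe_finsetSum])
    have hW' : (⟨W, hW⟩ : intFam N N P.A) =
        (⟨_, hc z⟩ - ⟨H, hH⟩) * ⟨_, hdPm⟩ := rfl
    rw [hW', hSW, map_mul, map_mul, map_sub, hH', map_sum]
    simp only [map_mul, map_pow]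
    change (_ - ∑ i ∈ _, _ * xv u ^ i) * _ = _
    split_ifs with hu
    · rw [Finset.sum_eq_single_of_mem 0 (Finset.mem_range.mpr (by omega)) fun i _ hi => by
        rw [hu, zero_pow hi, mul_zero]]
      simp
    · have hCH : ∑ i ∈ Finset.range (B.sheetDeg + 1),
          P.famRes u ⟨_, hc i⟩ * xv u ^ i = 0 := by
        have h0 : ∑ i ∈ Finset.range (B.sheetDeg + 1),
            (⟨_, hc i⟩ : intFam N N P.A) * ⟨X, hX⟩ ^ i = 0 :=
          Subtype.ext (by
            simp only [AddSubmonoidClass.coe_finsetSum, Subring.coe_mul, SubmonoidClass.coe_pow,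
              ZeroMemClass.coe_zero]
            exact B.sum_charFam_mul_pow X)
        have h1 := congrArg (P.famRes u) h0
        rw [map_sum, map_zero] at h1
        simp only [map_mul, map_pow] at h1
        exact h1
      rw [show B.sheetDeg + 1 = z + (B.sheetDeg + 1 - z) by omega, Finset.sum_range_add,
        Finset.sum_eq_zero (fun i hi => by rw [hlow u i (Finset.mem_range.mp hi), zero_mul]),
        zero_add] at hCH
      have hfac : ∑ i ∈ Finset.range (B.sheetDeg + 1 - z),
          P.famRes u ⟨_, hc (z + i)⟩ * xv u ^ i = 0 := by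
        refine (mul_eq_zero.mp ?_).resolve_left (pow_ne_zero z hu)
        rw [Finset.mul_sum, ← hCH]
        exact Finset.sum_congr rfl fun i _ => by rw [pow_add]; ring
      rw [hfac, sub_zero, one_mul]
  refine B.false_of_idem hp P hS (hT z) hz hW hSf {u | xv u = 0} (fun u => ?_)
    (v := v) (v₀ := v₀) (not_not.mp (mt (hxv v).mp hv)) ((hxv v₀).mpr h₀)
  exact hWres u

end BaseSys

end Fermat.Agent.DS.G1
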