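import Fermat.Agent.DS.G1.Core.Root
import Fermat.Agent.DS.G1.Core.UnitCoeff
import Fermat.Agent.DS.G1.Core.Descend
import Fermat.Agent.DS.G1.BaseExist
import Fermat.Agent.DS.G1.Classes.Basic
import Fermat.Agent.DS.AutC

/-!
# Injectivity of the reduction modulo `p` on classes
-/

set_option autoImplicit false

noncomputable section

open UpperHalfPlane

namespace Fermat.Agent.DS.G1

open ModularCurve

variable {M l p : ℕ} [NeZero M] [NeZero l] [hl : Fact l.Prime] [hp : Fact p.Prime]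

omit hl [NeZero l] in
theorem zetaRing_le_place {N : ℕ} [NeZero N] (hpN : ¬ p ∣ N) (P : PlaceRing p) :
    zetaRing N ≤ P.A := by
  refine zetaRing_le ?_ ?_
  · refine P.mem_of_isRoot_monic (G := Polynomial.X ^ N - 1) (fun k => ?_)
      (Polynomial.monic_X_pow_sub_C _ (NeZero.ne N)) ?_
    · rw [Polynomial.coeff_sub, Polynomial.coeff_X_pow, Polynomial.coeff_one]
      exact sub_mem (by split_ifs <;> simp) (by split_ifs <;> simp)
    · simp [(Complex.isPrimitiveRoot_exp N (NeZero.ne N)).pow_eq_one, zetaN]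
  · exact P.inv_mem_of_not_mem (natCast_mem _ N) (by
      simpa using P.intCast_not_mem_maxIdeal hp.out (a := (N : ℤ))
        fun h => hpN (Int.natCast_dvd_natCast.mp h))

theorem order_qExpand (d : ℕ) [NeZero d] {f : LaurentSeries ℂ} (hf : f ≠ 0) :
    (qExpand ℂ d f).order = (d : ℤ) * f.order := by
  have hne : qExpand ℂ d f ≠ 0 := fun h => hf (qExpand_injective d (h.trans (map_zero _).symm))
  refine le_antisymm (HahnSeries.order_le_of_coeff_ne_zero ?_) ?_
  · rw [qExpand_coeff_mul]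
    exact HahnSeries.coeff_order_eq_zero.not.mpr hf
  · have hc := HahnSeries.coeff_order_eq_zero.not.mpr hne
    by_cases hd : ((d : ℕ) : ℤ) ∣ (qExpand ℂ d f).order
    · obtain ⟨k, hk⟩ := hd
      rw [hk, qExpand_coeff_mul] at hc
      rw [hk]
      exact mul_le_mul_of_nonneg_left (HahnSeries.order_le_of_coeff_ne_zero hc) (Int.natCast_nonneg d)
    · exact absurd (qExpand_coeff_of_not_dvd d f hd) hc

theorem levelUp_famConst {N : ℕ} [NeZero N] (h : M ∣ N) (c : ℂ) :
    levelUp h (famConst M M c) = famConst N N c :=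
  rfl

omit hl [NeZero l] in
/-- A family with algebraic expansions has a multiple with integral expansions, nonzero modulo
the maximal ideal at every cusp. -/
theorem exists_normalize (hpM : ¬ p ∣ M) (P : PlaceRing p) {X : Fam M M} (hX0 : X ≠ 0)
    (hX : X ∈ intFam M M Kb.toSubfield.toSubring) :
    ∃ c : ℂ, c ≠ 0 ∧ IsAlgebraic ℚ c ∧ famConst M M c * X ∈ intFam M M P.A ∧
      ∀ v, P.HasUnitCoeff (famExp v (famConst M M c * X)) := by
  classical
  haveI : Fact (Nat.Prime 5) := ⟨by norm_num⟩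
  obtain ⟨r, N, _, h, hr, hrN, hpN, -⟩ := exists_aux_level M (l := 5) le_rfl hpM
  obtain ⟨B⟩ := exists_baseSys hr hrN
  haveI : NeZero (N / M) :=
    ⟨(Nat.div_pos (Nat.le_of_dvd (NeZero.pos N) h) (NeZero.pos M)).ne'⟩
  have hS := zetaRing_le_place hpN P
  set Z := levelUp h X
  obtain ⟨d⟩ := exists_coeffData B hp.out P hS {Z}
    (fun Y hY => by
      rw [Finset.mem_singleton] at hY
      subst hY
      exact levelUp_mem h hX)
    (s := 1) (fun k => by
      rw [Polynomial.coeff_one]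
      split_ifs
      exacts [isAlgebraic_one, isAlgebraic_zero]) one_ne_zero
  set O := coeffRing P d.K
  obtain ⟨c, hc, hc0, hcZ⟩ :=
    exists_famConst_mul_mem B d.algebraic d.zeta_le (d.fam_mem Z (Finset.mem_singleton_self _))
  set Y := famConst N N c * Z
  have hZ0 : Z ≠ 0 := fun h0 => hX0 (levelUp_injective h (h0.trans (map_zero _).symm))
  have hY0 : Y ≠ 0 := mul_ne_zero (fun h0 => hc0 ((famConst N N).injective
    (h0.trans (map_zero _).symm))) hZ0
  let Q : ℕ → Prop := fun i => ∃ v n, ¬ ∃ y ∈ O, (famExp v Y).coeff n = d.π ^ (i + 1) * y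
  have hex : ∃ i, Q i := by
    by_contra hall
    push_neg at hall
    refine fam_ne_zero_exp hY0 (base N) ?_
    ext n
    rw [HahnSeries.coeff_zero]
    refine P.eq_zero_of_forall_dvd hp.out d.uniformiser_max (mem_intFam.mp hcZ _ n).2 fun i => ?_
    rcases i with _ | i
    · exact ⟨_, (mem_intFam.mp hcZ (base N) n).2, by rw [pow_zero, one_mul]⟩
    · obtain ⟨y, hy, hy'⟩ := (not_not.mp fun hn => hall i ⟨base N, n, hn⟩ :
        ∃ y ∈ O, (famExp (base N) Y).coeff n = d.π ^ (i + 1) * y)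
      exact ⟨y, hy.2, hy'⟩
  obtain ⟨v₀, n₀, hn₀⟩ := Nat.find_spec hex
  set i₀ := Nat.find hex with hi₀
  have hdiv : ∀ v n, ∃ y ∈ O, (famExp v Y).coeff n = d.π ^ i₀ * y := by
    intro v n
    rcases Nat.eq_zero_or_pos i₀ with h0 | h0
    · exact ⟨_, mem_intFam.mp hcZ v n, by rw [h0, pow_zero, one_mul]⟩
    · have hmin := Nat.find_min hex (show i₀ - 1 < i₀ by omega)
      obtain ⟨y, hy, hy'⟩ := (not_not.mp fun hn => hmin ⟨v, n, hn⟩ :
        ∃ y ∈ O, (famExp v Y).coeff n = d.π ^ (i₀ - 1 + 1) * y)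
      exact ⟨y, hy, by rw [hy', show i₀ - 1 + 1 = i₀ by omega]⟩
  set c' := c * (d.π ^ i₀)⁻¹
  have hY' : ∀ v n, (famExp v (famConst N N c' * Z)).coeff n = (d.π ^ i₀)⁻¹ * (famExp v Y).coeff n := by
    intro v n
    show (famExp v (famConst N N c' * Z)).coeff n =
      (d.π ^ i₀)⁻¹ * (famExp v (famConst N N c * Z)).coeff n
    rw [map_mul (famExp v), map_mul (famExp v), famExp_famConst, famExp_famConst,
      HahnSeries.C_mul_eq_smul,
      HahnSeries.C_mul_eq_smul, HahnSeries.coeff_smul, HahnSeries.coeff_smul, smul_eq_mul,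
      smul_eq_mul]
    simp only [c']
    ring
  have hπ : d.π ^ i₀ ≠ 0 := pow_ne_zero _ d.uniformiser_ne
  have hint : famConst N N c' * Z ∈ intFam N N P.A := mem_intFam.mpr fun v n => by
    obtain ⟨y, hy, hy'⟩ := hdiv v n
    rw [hY', hy', inv_mul_cancel_left₀ hπ]
    exact hy.2
  have hu₀ : P.HasUnitCoeff (famExp v₀ (famConst N N c' * Z)) := by
    refine ⟨n₀, fun hm => hn₀ ?_⟩
    obtain ⟨y, hy, hy'⟩ := hdiv v₀ n₀
    rw [hY', hy', inv_mul_cancel_left₀ hπ] at hm
    obtain ⟨z, hz, hz'⟩ := d.dvd_uniformiser y hy hm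
    exact ⟨z, hz, by rw [hy', hz', pow_succ, mul_assoc]⟩
  have hall := B.hasUnitCoeff_all hp.out P hS hint hu₀
  have hlift : levelUp h (famConst M M c' * X) = famConst N N c' * Z := by
    rw [map_mul, levelUp_famConst]
  refine ⟨c', mul_ne_zero hc0 (inv_ne_zero hπ), (d.algebraic c hc.1).mul
    ((d.algebraic _ d.uniformiser_mem.1).pow i₀).inv, mem_intFam.mpr fun w n => ?_, fun w => ?_⟩
  · obtain ⟨v, rfl⟩ := primRed_surjective h w
    have := mem_intFam.mp hint v ((N / M : ℕ) * n)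
    rwa [← hlift, famExp_levelUp, qExpand_coeff_mul] at this
  · obtain ⟨v, rfl⟩ := primRed_surjective h w
    obtain ⟨n, hn⟩ := hall v
    rw [← hlift, famExp_levelUp] at hn
    by_cases hd : ((N / M : ℕ) : ℤ) ∣ n
    · obtain ⟨k, rfl⟩ := hd
      rw [qExpand_coeff_mul] at hn
      exact ⟨k, hn⟩
    · rw [qExpand_coeff_of_not_dvd _ _ hd] at hn
      exact absurd P.zero_mem_maxIdeal hn

/-- If the reduction of `X` is an `l`-th power at every cusp, the class of `X` vanishes. -/
theorem class_eq_zero_of_congr (hl5 : 5 ≤ l) (hlM : l ∣ M) (hpM : ¬ p ∣ M) (P : PlaceRing p)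
    {X G : Fam M M} {χ : parHom M (ZMod l)} (hX : X ∈ intFam M M P.A) (hG : G ∈ intFam M M P.A)
    (hχ : HasClass l X χ) (hu : ∀ v, P.HasUnitCoeff (famExp v X))
    (hcongr : ∀ v, P.SerCongr (famExp v X) (famExp v G ^ l)) : χ = 0 := by
  classical
  have hpl : p ≠ l := fun e => hpM (e ▸ hlM)
  obtain ⟨r, N, _, h, hr, hrN, hpN, hdeg⟩ := exists_aux_level M hl5 hpM
  obtain ⟨B⟩ := exists_baseSys hr hrN
  haveI : NeZero (N / M) :=
    ⟨(Nat.div_pos (Nat.le_of_dvd (NeZero.pos N) h) (NeZero.pos M)).ne'⟩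
  have hnice := hχ.nice hl5
  have hlu : (l : ℂ) ∉ P.maxIdeal := by
    simpa using P.intCast_not_mem_maxIdeal hp.out (a := (l : ℤ)) fun h0 =>
      hpl ((Nat.prime_dvd_prime_iff_eq hp.out hl.out).mp (Int.natCast_dvd_natCast.mp h0))
  have hX0 : levelUp h X ≠ 0 := fun h0 =>
    hnice.ne_zero (levelUp_injective h (h0.trans (map_zero _).symm))
  obtain ⟨D, Φ, hD, he⟩ := B.exists_pow_eq_of_congr hp.out (zetaRing_le_place hpN P) hl.out.one_lt
    hlu ((Nat.coprime_primes hp.out hl.out).mpr hpl) (levelUp_mem h hX) (levelUp_mem h hG)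
    (fun v => by
      obtain ⟨n, hn⟩ := hu (primRed h v)
      exact ⟨(N / M : ℕ) * n, by rwa [famExp_levelUp, qExpand_coeff_mul]⟩)
    (fun v => by
      rw [famExp_levelUp, order_qExpand _ (fam_ne_zero_exp hnice.ne_zero _)]
      refine Dvd.dvd.mul_left ?_ _
      have hM : (M : ℤ) ≠ 0 := Int.natCast_ne_zero.mpr (NeZero.ne M)
      refine (mul_dvd_mul_iff_right hM).mp (hnice.cusps (primRed h v) M (Or.inl ?_))
      rw [rowMul_T_zpow, Int.cast_natCast, ZMod.natCast_self, zero_mul, add_zero]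
      funext i
      fin_cases i <;> rfl)
    (fun Q => by
      obtain ⟨v, τ, -, rfl⟩ := B.exists_ptOf Q (base r)
      rw [B.order_exp_ptOf hX0]
      exact hnice.points (primRed h v) τ)
    (fun v n => by
      rw [famExp_levelUp, famExp_levelUp, ← map_pow]
      by_cases hd : ((N / M : ℕ) : ℤ) ∣ n
      · obtain ⟨k, rfl⟩ := hd
        rw [qExpand_coeff_mul, qExpand_coeff_mul]
        exact hcongr _ k
      · rw [qExpand_coeff_of_not_dvd _ _ hd, qExpand_coeff_of_not_dvd _ _ hd, sub_zero]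
        exact P.zero_mem_maxIdeal)
  set k := (primFibre h (base M)).card
  have hnorm : ∀ τ, (famNorm h (levelUp h X)).1 (base M) τ = (X ^ k).1 (base M) τ := by
    intro τ
    show (∏ v ∈ primFibre h (base M), (levelUp h X).1 v) τ = _
    rw [Finset.prod_congr rfl fun v hv => by rw [levelUp_apply, mem_primFibre.mp hv],
      Finset.prod_const]
    rfl
  have hDn : famNorm h D ≠ 0 := fun h0 => by
    have h1 := famExp_famNorm (h := h) D (base M)
    rw [h0, map_zero] at h1
    obtain ⟨v, -, hv⟩ := Finset.prod_eq_zero_iff.mp h1.symm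
    exact fam_ne_zero_exp hD v hv
  have hk0 : k • χ = 0 := (hχ.pow k).eq_zero_of_mul_pow hDn (G := famNorm h Φ) fun τ => by
    have := congrArg (fun Z => famEval (base M) τ (famNorm h Z)) he
    simp only [map_mul, map_pow] at this
    rw [← hnorm]
    exact this
  refine Subtype.ext (AddMonoidHom.ext fun x => ?_)
  have h1 : (k : ZMod l) * (χ : Additive (CongruenceSubgroup.Gamma1 M) →+ ZMod l) x = 0 := by
    rw [← nsmul_eq_mul]
    exact congrArg (fun ψ : parHom M (ZMod l) =>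
      (ψ : Additive (CongruenceSubgroup.Gamma1 M) →+ ZMod l) x) hk0
  exact (mul_eq_zero.mp h1).resolve_left fun h0 =>
    hdeg (base M) ((ZMod.natCast_eq_zero_iff _ _).mp h0)

end Fermat.Agent.DS.G1
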