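import Fermat.Agent.DS.G1.Core.Basic
import Mathlib.Algebra.Polynomial.Div
import Mathlib.FieldTheory.IsAlgClosed.Basic

/-!
# Level `r` families are polynomials in `b` and the inverse discriminant
-/

set_option autoImplicit false

noncomputable section

open UpperHalfPlane Function Polynomial
open scoped MatrixGroups Manifold Polynomial

namespace Fermat.Agent.DS.G1.BaseSys

open Fermat.Agent.Igusa ModularCurve

variable {r N : ℕ} [NeZero N] (B : BaseSys r N) (S : Subring ℂ)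

/-- Polynomials with coefficients in `S`. -/
def polyIn : Subring ℂ[X] := (Polynomial.mapRingHom S.subtype).range

variable {S}

theorem mem_polyIn {P : ℂ[X]} : P ∈ polyIn S ↔ ∀ k, P.coeff k ∈ S := by
  constructor
  · rintro ⟨Q, rfl⟩ k
    simp
  · intro h
    exact (Polynomial.mem_lifts P).mp
      ((Polynomial.lifts_iff_coeff_lifts P).mpr fun k => ⟨⟨_, h k⟩, rfl⟩)

theorem C_mem_polyIn {c : ℂ} (h : c ∈ S) : C c ∈ polyIn S := ⟨C ⟨c, h⟩, by simp⟩

theorem X_mem_polyIn : (X : ℂ[X]) ∈ polyIn S := ⟨X, by simp⟩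

theorem intMap_mem_polyIn (P : ℤ[X]) : P.map (Int.castRingHom ℂ) ∈ polyIn S :=
  mem_polyIn.mpr fun k => by simpa using intCast_mem S _

theorem eval_mem_of_polyIn {P : ℂ[X]} (hP : P ∈ polyIn S) {β : ℂ} (hβ : β ∈ S) :
    P.eval β ∈ S := by
  rw [eval_eq_sum, sum_def]
  exact sum_mem fun k _ => mul_mem (mem_polyIn.mp hP k) (pow_mem hβ k)

theorem divByMonic_mem_polyIn {P q : ℂ[X]} (hP : P ∈ polyIn S) (hq : q ∈ polyIn S)
    (hm : q.Monic) : P /ₘ q ∈ polyIn S ∧ P %ₘ q ∈ polyIn S := by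
  obtain ⟨P0, rfl⟩ := hP
  obtain ⟨q0, rfl⟩ := hq
  have hm0 : q0.Monic := Polynomial.monic_of_injective Subtype.val_injective hm
  exact ⟨⟨P0 /ₘ q0, map_divByMonic _ hm0⟩, ⟨P0 %ₘ q0, map_modByMonic _ hm0⟩⟩

variable (S)

/-- The ring generated over `S` by `b` and the inverse discriminant. -/
def repRing : Subring (Fam r N) :=
  Subring.closure (famConst r N '' (S : Set ℂ) ∪ {B.b, B.dInv})

variable {S}

theorem b_mem_repRing : B.b ∈ B.repRing S :=
  Subring.subset_closure (Or.inr (Or.inl rfl))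

theorem evb_mem_repRing {P : ℂ[X]} (hP : P ∈ polyIn S) : B.evb P ∈ B.repRing S := by
  rw [evb, coe_eval₂RingHom, eval₂_eq_sum]
  refine sum_mem fun k _ => mul_mem ?_ (pow_mem B.b_mem_repRing k)
  exact Subring.subset_closure (Or.inl ⟨_, mem_polyIn.mp hP k, rfl⟩)

theorem dInv_mem_repRing : B.dInv ∈ B.repRing S :=
  Subring.subset_closure (Or.inr (Or.inr rfl))

theorem const_mem_repRing {c : ℂ} (h : c ∈ S) : famConst r N c ∈ B.repRing S :=
  Subring.subset_closure (Or.inl ⟨c, h, rfl⟩)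

/-- A representation `P(b) / Δ(b)^m`. -/
def IsRep (Y : Fam r N) (P : ℂ[X]) (m : ℕ) : Prop := Y = B.evb P * B.dInv ^ m

theorem dP_mem_polyIn : B.dP ∈ polyIn S := intMap_mem_polyIn _

theorem c4P_mem_polyIn : B.c4P ∈ polyIn S := intMap_mem_polyIn _

theorem c6P_mem_polyIn : B.c6P ∈ polyIn S := intMap_mem_polyIn _

variable {B} in
theorem IsRep.shift {Y : Fam r N} {P : ℂ[X]} {m : ℕ} (h : B.IsRep Y P m) (k : ℕ) :
    B.IsRep Y (P * B.dP ^ k) (m + k) := by
  rw [IsRep, map_mul, map_pow, pow_add, mul_assoc, mul_left_comm (B.evb B.dP ^ k),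
    ← mul_pow, evb_dP_mul_dInv, one_pow, mul_one]
  exact h

theorem exists_rep_of_mem {Y : Fam r N} (hY : Y ∈ B.repRing S) :
    ∃ P ∈ polyIn S, ∃ m, B.IsRep Y P m := by
  induction hY using Subring.closure_induction with
  | mem x hx =>
    rcases hx with ⟨c, hc, rfl⟩ | rfl | rfl
    · exact ⟨C c, C_mem_polyIn hc, 0, by simp [IsRep]⟩
    · exact ⟨X, X_mem_polyIn, 0, by simp [IsRep]⟩
    · exact ⟨1, one_mem _, 1, by simp [IsRep]⟩
  | zero => exact ⟨0, zero_mem _, 0, by simp [IsRep]⟩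
  | one => exact ⟨1, one_mem _, 0, by simp [IsRep]⟩
  | add x y _ _ ihx ihy =>
    obtain ⟨P, hP, m, hm⟩ := ihx
    obtain ⟨Q, hQ, n, hn⟩ := ihy
    refine ⟨P * B.dP ^ n + Q * B.dP ^ m, add_mem (mul_mem hP (pow_mem B.dP_mem_polyIn n))
      (mul_mem hQ (pow_mem B.dP_mem_polyIn m)), m + n, ?_⟩
    rw [IsRep, map_add, add_mul]
    exact congrArg₂ (· + ·) (hm.shift n) ((hn.shift m).trans (by rw [add_comm n m]))
  | neg x _ ihx =>
    obtain ⟨P, hP, m, hm⟩ := ihx
    exact ⟨-P, neg_mem hP, m, by rw [IsRep, map_neg, neg_mul, ← hm]⟩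
  | mul x y _ _ ihx ihy =>
    obtain ⟨P, hP, m, hm⟩ := ihx
    obtain ⟨Q, hQ, n, hn⟩ := ihy
    exact ⟨P * Q, mul_mem hP hQ, m + n, by rw [IsRep, hm, hn, map_mul, pow_add]; ring⟩

variable {B} in
theorem IsRep.unique {Y : Fam r N} {P Q : ℂ[X]} {m n : ℕ} (hP : B.IsRep Y P m)
    (hQ : B.IsRep Y Q n) : P * B.dP ^ n = Q * B.dP ^ m := by
  refine B.evb_injective ?_
  have h1 := hP.shift n
  have h2 := hQ.shift m
  rw [IsRep] at h1 h2
  rw [add_comm n m, h1] at h2
  haveI := B.neZero_r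
  have hd : B.dInv ≠ 0 := fun h => by simpa [h] using B.evb_dP_mul_dInv
  exact mul_right_cancel₀ (pow_ne_zero _ hd) h2

/-! ### Structure -/

theorem dInv_mem_intFam : B.dInv ∈ intFam r N (zetaRing N) := by
  obtain ⟨U, V, hU, hV, h⟩ := B.bezout_map
  have hev : ∀ {P : ℂ[X]}, (∀ k, P.coeff k ∈ zetaRing N) → B.evb P ∈ intFam r N (zetaRing N) := by
    intro P hP
    rw [evb, coe_eval₂RingHom, eval₂_eq_sum]
    refine sum_mem fun k _ => mul_mem ?_ (pow_mem B.b_mem k)
    exact mem_intFam.mpr fun v => mem_serIn.mp (by rw [famExp_famConst]; exact C_mem_serIn (hP k))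
  have hj : jFam r N ∈ intFam r N (zetaRing N) :=
    mem_intFam.mpr fun v => mem_serIn.mp (by rw [famExp_jFam]; exact jS_mem _)
  have hd : B.dInv = B.evb U * jFam r N + B.evb V := by
    have h' := congrArg B.evb h
    simp only [map_add, map_mul, map_one] at h'
    rw [B.jFam_eq]
    linear_combination (B.evb U * B.evb (B.c4P ^ 3) + B.evb V * B.evb B.dP - 1) * 0 -
      B.dInv * h' + B.evb V * B.evb_dP_mul_dInv
  rw [hd]
  exact add_mem (mul_mem (hev hU) hj) (hev hV)

theorem repRing_le (hS : zetaRing N ≤ S) : B.repRing S ≤ intFam r N S :=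
  Subring.closure_le.mpr <| by
    rintro x (⟨c, hc, rfl⟩ | rfl | rfl)
    · exact mem_intFam.mpr fun v => mem_serIn.mp (by rw [famExp_famConst]; exact C_mem_serIn hc)
    · exact intFam_mono hS B.b_mem
    · exact intFam_mono hS B.dInv_mem_intFam

theorem jFam_mem_repRing : jFam r N ∈ B.repRing S := by
  rw [B.jFam_eq]
  exact mul_mem (B.evb_mem_repRing (pow_mem B.c4P_mem_polyIn 3)) B.dInv_mem_repRing

include B in
theorem half_ne_neg (w : PrimVec r) : w.1 ≠ -w.1 := by
  intro h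
  haveI : Fact (2 < r) := ⟨B.three_le⟩
  have h2 : (2 : ZMod r) = 0 := by
    obtain ⟨x, y, hxy⟩ := w.2
    have h0 : w.1 0 + w.1 0 = 0 := by nth_rw 2 [h]; simp
    have h1 : w.1 1 + w.1 1 = 0 := by nth_rw 2 [h]; simp
    linear_combination (-2 : ZMod r) * hxy + x * h0 + y * h1
  have := B.three_le
  rw [show (2 : ZMod r) = ((2 : ℕ) : ZMod r) from rfl, ZMod.natCast_eq_zero_iff] at h2
  have := Nat.le_of_dvd (by norm_num) h2
  omega

/-- The sum over representatives modulo sign, as a level one family. -/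
def halfTrace (Y : Fam r N) : Fam 1 N :=
  haveI := B.neZero_r
  famConst 1 N (1 / 2) * famTrace (one_dvd r) Y

theorem halfTrace_apply (Y : Fam r N) (z : PrimVec 1) :
    (B.halfTrace Y).1 z = ∑ w ∈ B.half, Y.1 w := by
  classical
  haveI := B.neZero_r
  have hfib : primFibre (one_dvd r) z = B.half ∪ B.half.image fun w => rowMul w (-1) := by
    ext v
    simp only [mem_primFibre, Finset.mem_union, Finset.mem_image]
    refine iff_of_true (subsingleton_primVec_one.elim _ _) ?_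
    obtain ⟨u, ⟨hu, h | h⟩, -⟩ := B.half_pm v
    · exact Or.inl (Subtype.ext h ▸ hu)
    · exact Or.inr ⟨u, hu, Subtype.ext (by rw [rowMul_neg, rowMul_one, h])⟩
  have hdis : Disjoint B.half (B.half.image fun w => rowMul w (-1)) := by
    rw [Finset.disjoint_left]
    intro w hw hw'
    obtain ⟨u, hu, huw⟩ := Finset.mem_image.mp hw'
    obtain ⟨x, -, huniq⟩ := B.half_pm w
    have hwu : w.1 = -u.1 := by rw [← huw, rowMul_neg, rowMul_one]
    have e1 := huniq w ⟨hw, Or.inl rfl⟩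
    have e2 := huniq u ⟨hu, Or.inr hwu⟩
    rw [e2, ← e1] at hwu
    exact B.half_ne_neg w hwu
  funext τ
  change (famConst 1 N (1 / 2)).1 z τ * (∑ v ∈ primFibre (one_dvd r) z, Y.1 v) τ = _
  rw [hfib, Finset.sum_union hdis,
    Finset.sum_image fun a _ b _ e => rowMul_injective _ e]
  have he : ∀ w ∈ B.half, Y.1 (rowMul w (-1)) = Y.1 w := fun w _ =>
    fam_neg Y (by rw [rowMul_neg, rowMul_one])
  rw [Finset.sum_congr rfl he, Pi.add_apply, famConst_apply]
  ring

theorem famExp_halfTrace (Y : Fam r N) (z : PrimVec 1) :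
    famExp z (B.halfTrace Y) = ∑ w ∈ B.half, famExp w Y := by
  have : famAt z (B.halfTrace Y) = ∑ w ∈ B.half, famAt w Y :=
    Subtype.ext (by simp [halfTrace_apply, AddSubmonoidClass.coe_finsetSum])
  simp [famExp, this, map_sum]

theorem halfTrace_mem (hS : zetaRing N ≤ S) {Y : Fam r N} (hY : Y ∈ intFam r N S)
    (z : PrimVec 1) : famExp z (B.halfTrace Y) ∈ serIn S := by
  rw [famExp_halfTrace]
  exact sum_mem fun w _ => mem_serIn.mpr (mem_intFam.mp hY w)

/-- The divided difference of `P` at `(x, y)`. -/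
theorem eval_sub_eq {R : Type*} [CommRing R] (P : ℂ[X]) (φ : ℂ →+* R) (x y : R) :
    P.eval₂ φ x - P.eval₂ φ y = (x - y) * ∑ k ∈ Finset.range (P.natDegree + 1),
      φ (P.coeff k) * ∑ i ∈ Finset.range k, x ^ i * y ^ (k - 1 - i) := by
  rw [eval₂_eq_sum_range, eval₂_eq_sum_range, ← Finset.sum_sub_distrib, Finset.mul_sum]
  refine Finset.sum_congr rfl fun k _ => ?_
  rw [← mul_sub, ← geom_sum₂_mul]
  ring

theorem derivative_eq_sum (P : ℂ[X]) (x : ℂ) :
    (derivative P).eval x = ∑ k ∈ Finset.range (P.natDegree + 1),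
      P.coeff k * ∑ i ∈ Finset.range k, x ^ i * x ^ (k - 1 - i) := by
  rw [derivative_apply, sum_over_range _ (fun n => by simp), eval_finsetSum]
  refine Finset.sum_congr rfl fun k _ => ?_
  rw [geom_sum₂_self]
  simp
  ring

theorem fam_ext_eval {M : ℕ} {X Y : Fam M N} (h : ∀ v τ, famEval v τ X = famEval v τ Y) : X = Y :=
  Subtype.ext (funext fun v => funext fun τ => h v τ)

/-- `Q'(b) Y` is a combination of powers of `b` with level one coefficients. -/
theorem derivative_mul_eq (Y : Fam r N) :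
    (B.evb (derivative (B.c4P ^ 3)) - jFam r N * B.evb (derivative B.dP)) * Y =
      ∑ k ∈ Finset.range ((B.c4P ^ 3).natDegree + B.dP.natDegree + 1),
        (famConst r N ((B.c4P ^ 3).coeff k) - jFam r N * famConst r N (B.dP.coeff k)) *
          ∑ i ∈ Finset.range k,
            B.b ^ i * famPull (one_dvd r) (B.halfTrace (Y * B.b ^ (k - 1 - i))) := by
  haveI := B.neZero_r
  refine fam_ext_eval fun w τ => ?_
  obtain ⟨u₀, ⟨hu₀, hwu⟩, -⟩ := B.half_pm w
  have hw : ∀ Z : Fam r N, Z.1 w τ = Z.1 u₀ τ := fun Z => by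
    rcases hwu with h | h
    · rw [Subtype.ext h]
    · rw [fam_neg Z h]
  set j₀ := MF.kleinJ τ
  set P := B.relP j₀ with hP
  set b₀ := B.b.1 u₀ τ
  set n := (B.c4P ^ 3).natDegree + B.dP.natDegree + 1
  have hcoef : ∀ k, P.coeff k = (B.c4P ^ 3).coeff k - j₀ * B.dP.coeff k := fun k => by
    simp [hP, relP]
  have hdeg : P.natDegree + 1 ≤ n := by
    have h1 : (C j₀ * B.dP).natDegree ≤ B.dP.natDegree := natDegree_C_mul_le _ _
    have h2 := natDegree_sub_le (B.c4P ^ 3) (C j₀ * B.dP)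
    simp only [hP, relP, n]
    omega
  -- the kernel vanishes off `u₀`
  let G : ℂ → ℂ := fun y => ∑ k ∈ Finset.range n,
    P.coeff k * ∑ i ∈ Finset.range k, b₀ ^ i * y ^ (k - 1 - i)
  have hext : ∀ y, G y = ∑ k ∈ Finset.range (P.natDegree + 1),
      P.coeff k * ∑ i ∈ Finset.range k, b₀ ^ i * y ^ (k - 1 - i) := fun y => by
    symm
    refine Finset.sum_subset (Finset.range_subset_range.mpr hdeg) fun k _ hk => ?_
    rw [coeff_eq_zero_of_natDegree_lt (by simpa using hk), zero_mul]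
  have hroot : ∀ u ∈ B.half, P.eval (B.b.1 u τ) = 0 := fun u hu => by
    rw [hP, B.relP_eq, eval_mul, eval_prod, Finset.prod_eq_zero hu (by simp), mul_zero]
  have hd0 : G b₀ = (derivative P).eval b₀ := by rw [hext, derivative_eq_sum]
  have hoff : ∀ u ∈ B.half, u ≠ u₀ → G (B.b.1 u τ) = 0 := by
    intro u hu hne
    by_cases hb : B.b.1 u τ = b₀
    · rw [hb, hd0, hP, B.relP_eq, derivative_C_mul, eval_mul, derivative_prod_finset,
        eval_finsetSum, Finset.sum_eq_zero, mul_zero]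
      intro i _
      obtain ⟨x, hx, hxi⟩ : ∃ x ∈ B.half.erase i, B.b.1 x τ = b₀ := by
        by_cases hiu : i = u
        · exact ⟨u₀, Finset.mem_erase.mpr ⟨hiu ▸ hne.symm, hu₀⟩, rfl⟩
        · exact ⟨u, Finset.mem_erase.mpr ⟨Ne.symm hiu, hu⟩, hb⟩
      rw [eval_mul, eval_prod, Finset.prod_eq_zero hx (by simp [hxi]), zero_mul]
    · have h := eval_sub_eq P (RingHom.id ℂ) b₀ (B.b.1 u τ)
      rw [eval₂_id, eval₂_id, hroot u₀ hu₀, hroot u hu, sub_zero, zero_eq_mul] at h
      rw [hext]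
      simpa using h.resolve_left (sub_ne_zero.mpr (Ne.symm hb))
  -- evaluate
  have hL : (derivative P).eval b₀ * Y.1 u₀ τ = ∑ u ∈ B.half, G (B.b.1 u τ) * Y.1 u τ := by
    rw [Finset.sum_eq_single_of_mem u₀ hu₀ (fun u hu hne => by rw [hoff u hu hne, zero_mul]), hd0]
  simp only [map_mul, map_sub, map_sum, map_pow]
  simp only [famEval_apply, B.evb_apply, jFam_apply, famConst_apply, famPull_apply,
    halfTrace_apply, Finset.sum_apply]
  rw [hw Y, hw B.b]
  have hder : (derivative P).eval b₀ = (derivative (B.c4P ^ 3)).eval b₀ -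
      j₀ * (derivative B.dP).eval b₀ := by
    simp [hP, relP]
  rw [← hder, hL]
  simp only [G, Finset.sum_mul, Finset.mul_sum, hcoef]
  rw [Finset.sum_comm]
  refine Finset.sum_congr rfl fun k _ => ?_
  rw [Finset.sum_comm]
  refine Finset.sum_congr rfl fun i _ => Finset.sum_congr rfl fun u _ => ?_
  show _ = _ * (B.b.1 u₀ τ ^ i * (Y.1 u τ * B.b.1 u τ ^ (k - 1 - i)))
  ring

theorem halfTrace_pull_mem (hS : zetaRing N ≤ S) {Y : Fam r N} (hY : Y ∈ intFam r N S) :
    famPull (one_dvd r) (B.halfTrace Y) ∈ B.repRing S := by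
  obtain ⟨P, hP, hPe, -⟩ := exists_evJS_eq (B.halfTrace Y) (base 1) (B.halfTrace_mem hS hY _)
  rw [hPe, hom_eval₂, eval₂_eq_sum]
  refine sum_mem fun k _ => mul_mem ?_ (pow_mem ?_ k)
  · exact B.const_mem_repRing (hP k)
  · exact B.jFam_mem_repRing

/-- Every level `r` family with coefficients in `S` lies in `repRing S`. -/
theorem mem_repRing_of_mem_intFam (hS : zetaRing N ≤ S) {Y : Fam r N} (hY : Y ∈ intFam r N S) :
    Y ∈ B.repRing S := by
  haveI := B.neZero_r
  have hb : B.b ∈ intFam r N S := intFam_mono hS B.b_mem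
  have hQY : (B.evb (derivative (B.c4P ^ 3)) - jFam r N * B.evb (derivative B.dP)) * Y ∈
      B.repRing S := by
    rw [derivative_mul_eq]
    refine sum_mem fun k _ => mul_mem (sub_mem ?_ (mul_mem B.jFam_mem_repRing ?_))
      (sum_mem fun i _ => mul_mem (pow_mem B.b_mem_repRing i) ?_)
    · exact B.const_mem_repRing (mem_polyIn.mp (pow_mem B.c4P_mem_polyIn 3) k)
    · exact B.const_mem_repRing (mem_polyIn.mp B.dP_mem_polyIn k)
    · exact B.halfTrace_pull_mem hS (mul_mem hY (pow_mem hb _))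
  -- remove the constant `κ` and the power of `b`
  obtain ⟨hκS, hκ⟩ := B.inv_mem_of_dvd B.kappa_dvd
  obtain ⟨q, hq⟩ := B.X_dvd
  have hbinv : B.b * (B.evb (q.map (Int.castRingHom ℂ)) * B.dInv) = 1 := by
    rw [← mul_assoc, ← B.evb_X, ← map_mul]
    convert! B.evb_dP_mul_dInv using 3
    rw [dP, hq, Polynomial.map_mul, Polynomial.map_X]
  have hCY : B.evb (B.c4P ^ 2 * B.c6P) * Y ∈ B.repRing S := by
    have hQD : (B.evb (derivative (B.c4P ^ 3)) - jFam r N * B.evb (derivative B.dP)) *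
        B.evb B.dP = famConst r N (B.kappa : ℂ) * B.b ^ B.mExp *
          B.evb (B.c4P ^ 2 * B.c6P) := by
      have h := congrArg (fun P => B.evb (B.c4P ^ 2 * P)) B.deriv_map
      simp only [map_mul, map_pow, evb_C, evb_X, map_sub, map_ofNat] at h
      rw [derivative_pow, B.jFam_eq]
      simp only [map_mul, map_pow, evb_C, Nat.cast_ofNat, map_ofNat, show (3 : ℕ) - 1 = 2 from rfl]
      linear_combination h + (- (B.evb B.c4P ^ 3) * B.evb (derivative B.dP)) * B.evb_dP_mul_dInv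
    have h : B.evb (B.c4P ^ 2 * B.c6P) * Y = famConst r N (B.kappa : ℂ)⁻¹ *
        (B.evb (q.map (Int.castRingHom ℂ)) * B.dInv) ^ B.mExp * B.evb B.dP *
        ((B.evb (derivative (B.c4P ^ 3)) - jFam r N * B.evb (derivative B.dP)) * Y) := by
      have e1 : famConst r N (B.kappa : ℂ)⁻¹ * famConst r N (B.kappa : ℂ) = 1 := by
        rw [← map_mul, inv_mul_cancel₀ hκ, map_one]
      have e2 : B.b ^ B.mExp * (B.evb (q.map (Int.castRingHom ℂ)) * B.dInv) ^ B.mExp = 1 := by
        rw [← mul_pow, hbinv, one_pow]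
      calc B.evb (B.c4P ^ 2 * B.c6P) * Y
          = (famConst r N (B.kappa : ℂ)⁻¹ * famConst r N (B.kappa : ℂ)) *
            (B.b ^ B.mExp * (B.evb (q.map (Int.castRingHom ℂ)) * B.dInv) ^ B.mExp) *
            (B.evb (B.c4P ^ 2 * B.c6P) * Y) := by rw [e1, e2, one_mul, one_mul]
        _ = famConst r N (B.kappa : ℂ)⁻¹ *
            (B.evb (q.map (Int.castRingHom ℂ)) * B.dInv) ^ B.mExp *
            (famConst r N (B.kappa : ℂ) * B.b ^ B.mExp * B.evb (B.c4P ^ 2 * B.c6P)) * Y := by ring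
        _ = _ := by rw [← hQD]; ring
    rw [h]
    exact mul_mem (mul_mem (mul_mem (B.const_mem_repRing (hS hκS))
      (pow_mem (mul_mem (B.evb_mem_repRing (intMap_mem_polyIn _)) B.dInv_mem_repRing) _))
      (B.evb_mem_repRing B.dP_mem_polyIn)) hQY
  -- cancel the zeros of `c₄² c₆`
  obtain ⟨T, hT, m, hm⟩ := B.exists_rep_of_mem hCY
  set E := B.c4P ^ 2 * B.c6P with hE
  have hlead : ∀ {P : ℤ[X]}, P.leadingCoeff ∣ (r : ℤ) ^ B.eExp →
      (P.map (Int.castRingHom ℂ)).leadingCoeff⁻¹ ∈ S ∧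
        (P.map (Int.castRingHom ℂ)).leadingCoeff ≠ 0 := by
    intro P hP
    rw [leadingCoeff_map_of_injective (RingHom.injective_int _)]
    exact ⟨hS (B.inv_mem_of_dvd hP).1, (B.inv_mem_of_dvd hP).2⟩
  obtain ⟨h4S, h4⟩ := hlead B.lead4_dvd
  obtain ⟨h6S, h6⟩ := hlead B.lead6_dvd
  have hE0 : E ≠ 0 := mul_ne_zero (pow_ne_zero 2 (leadingCoeff_ne_zero.mp h4))
    (leadingCoeff_ne_zero.mp h6)
  have hES : E ∈ polyIn S := mul_mem (pow_mem B.c4P_mem_polyIn 2) B.c6P_mem_polyIn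
  set e := E.leadingCoeff with he
  have heS : e⁻¹ ∈ S := by
    rw [he, hE, leadingCoeff_mul, leadingCoeff_pow, mul_inv, ← inv_pow]
    exact mul_mem (pow_mem h4S 2) h6S
  have he0 : e ≠ 0 := leadingCoeff_ne_zero.mpr hE0
  have hTY : B.evb T = B.evb E * (Y * B.evb B.dP ^ m) := by
    rw [← mul_assoc, hm, mul_assoc, ← mul_pow, mul_comm B.dInv, evb_dP_mul_dInv, one_pow, mul_one]
  obtain ⟨T', hT'⟩ : E ∣ T := by
    rcases eq_or_ne T 0 with rfl | hT0
    · exact dvd_zero _
    refine (IsAlgClosed.splits E).dvd_of_roots_le_roots hE0 (Multiset.le_iff_count.mpr fun β => ?_)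
    rw [count_roots, count_roots]
    by_cases hβ : B.dP.eval β = 0
    · rw [rootMultiplicity_eq_zero (fun h => ?_)]
      · exact Nat.zero_le _
      simp only [hE, IsRoot.def, eval_mul, eval_pow, mul_eq_zero] at h
      rcases h with h | h
      · exact B.dP_eval_ne_zero_of_c4 ((pow_eq_zero_iff two_ne_zero).mp h) hβ
      · exact B.dP_eval_ne_zero_of_c6 h hβ
    · obtain ⟨τ, hτ⟩ := B.exists_b_eq (base r) hβ
      set Z := Y * B.evb B.dP ^ m
      have hZa : AnalyticAt ℂ (Z.1 (base r) ∘ ofComplex) (τ : ℂ) :=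
        MF.analyticAt_ofComplex_comp (Z.2.1 _).1 τ
      have h1 := B.order_eval_b (base r) τ hT0
      have heq : (fun x => T.eval (B.bAt (base r) x)) =
          (fun x => E.eval (B.bAt (base r) x)) * (Z.1 (base r) ∘ ofComplex) := by
        funext x
        have := congrArg (famEval (base r) (ofComplex x)) hTY
        simp only [map_mul, famEval_apply, B.evb_apply] at this
        simpa [bAt, Z] using this
      rw [heq, analyticOrderAt_mul (analyticAt_eval (B.analyticAt_bAt _ τ) _) hZa,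
        B.order_eval_b (base r) τ hE0, hτ] at h1
      have : (E.rootMultiplicity β : ℕ∞) ≤ (T.rootMultiplicity β : ℕ∞) := h1 ▸ le_self_add
      exact_mod_cast this
  have hT'S : T' ∈ polyIn S := by
    have hmonE : (C e⁻¹ * E).Monic := by
      rw [Monic, leadingCoeff_mul, leadingCoeff_C, ← he, inv_mul_cancel₀ he0]
    have h1 := (divByMonic_mem_polyIn hT (mul_mem (C_mem_polyIn heS) hES) hmonE).1
    have h2 : T /ₘ (C e⁻¹ * E) = C e * T' := by
      have : T = (C e⁻¹ * E) * (C e * T') := by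
        rw [hT', mul_mul_mul_comm, ← C_mul, inv_mul_cancel₀ he0, C_1, one_mul]
      rw [this, mul_divByMonic_cancel_left _ hmonE]
    rw [h2] at h1
    have h3 := mul_mem (C_mem_polyIn heS) h1
    rwa [← mul_assoc, ← C_mul, inv_mul_cancel₀ he0, C_1, one_mul] at h3
  have hYe : Y = B.evb T' * B.dInv ^ m := by
    refine mul_left_cancel₀ (fun h => hE0 (B.evb_injective (h.trans (map_zero _).symm))) ?_
    rw [← mul_assoc (B.evb E) (B.evb T'), ← map_mul, ← hT', hm]
  rw [hYe]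
  exact mul_mem (B.evb_mem_repRing hT'S) (pow_mem B.dInv_mem_repRing m)

end Fermat.Agent.DS.G1.BaseSys
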