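import Fermat.Agent.DS.G1.Core.RootSeries
import Fermat.Agent.DS.G1.Core.UnitCoeff
import Fermat.Agent.DS.G1.Core.Glue
import Fermat.Agent.DS.G1.Classes.Defs

/-!
# A family congruent to an `l`-th power is an `l`-th power up to `l`-th powers
-/

set_option autoImplicit false

noncomputable section

open Polynomial UpperHalfPlane

namespace Fermat.Agent.DS.G1

open ModularCurve BaseSys

variable {p : ℕ} {P : PlaceRing p}

theorem intFam_Kb_of_mem {M N : ℕ} [NeZero N] {Z : Fam M N} (hZ : Z ∈ intFam M N P.A) :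
    Z ∈ intFam M N DS.Kb.toSubfield.toSubring :=
  intFam_mono (fun _ hx => DS.isAlgebraic_iff_mem_Kb.mp (P.algebraic _ hx)) hZ

theorem mem_intFam_coeffRing {N : ℕ} [NeZero N] {K : Subfield ℂ} {Z : Fam N N}
    (h : Z ∈ intFam N N K.toSubring) (h' : Z ∈ intFam N N P.A) :
    Z ∈ intFam N N (coeffRing P K) :=
  mem_intFam.mpr fun v n => ⟨mem_intFam.mp h v n, mem_intFam.mp h' v n⟩

namespace BaseSys

variable {r N : ℕ} [NeZero N] (B : BaseSys r N)

theorem famExp_charFam_coeff (Z : Fam N N) (w : PrimVec r) {k : ℕ} (hk : k < B.sheetDeg + 1) :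
    famExp w ((B.charFam Z).coeff k) =
      (∏ v ∈ primFibre B.hr w, (X - C (famExp v Z))).coeff k := by
  rw [← map_fibrePoly, Polynomial.coeff_map]
  have : (B.charFam Z).coeff k = famCoeff B.hr Z k := by
    rw [charFam, finsetSum_coeff]
    simp only [coeff_C_mul_X_pow, Finset.sum_ite_eq, Finset.mem_range, if_pos hk]
  rw [this]
  rfl

/-- The equation of a family over level `r`. -/
theorem evTheta_charFam_eval (Z : Fam N N) :
    ∑ k ∈ Finset.range (B.sheetDeg + 1), famPull B.hr ((B.charFam Z).coeff k) * Z ^ k = 0 := by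
  refine fam_ext_eval fun v τ => ?_
  rw [map_zero, map_sum]
  simp only [map_mul, map_pow, B.famEval_pull]
  have h : ((B.charFam Z).map (famEval (primRed B.hr v) τ)).eval (Z.1 v τ) = 0 := by
    rw [B.map_charFam, eval_prod]
    exact Finset.prod_eq_zero (mem_primFibre.mpr rfl) (by simp)
  rw [eval_map, eval₂_eq_sum_range, (B.monic_charFam Z).2] at h
  exact h

/-- An integral family, nonzero modulo the place at every cusp, divides an integral polynomial in
`b`, nonzero modulo the place. -/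
theorem exists_cofactor (hS : zetaRing N ≤ P.A) {Z : Fam N N} (hZ : Z ∈ intFam N N P.A)
    (hu : ∀ v, P.HasUnitCoeff (famExp v Z)) :
    ∃ T ∈ polyIn P.A, ∃ Z' ∈ intFam N N P.A,
      (∃ k, T.coeff k ∉ P.maxIdeal) ∧ Z * Z' = famPull B.hr (B.evb T) := by
  classical
  haveI := B.neZero_r
  have hc : ∀ k, (B.charFam Z).coeff k ∈ B.repRing P.A := B.coeff_charFam_mem hS hZ
  obtain ⟨T, hT, m, hm⟩ := B.exists_rep_of_mem (hc 0)
  have hpull : ∀ Y ∈ B.repRing P.A, famPull B.hr Y ∈ intFam N N P.A := fun Y hY =>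
    mem_intFam.mpr fun v n => by
      rw [famExp_famPull]
      exact mem_intFam.mp (B.repRing_le hS hY) _ n
  set W : Fam N N := -∑ k ∈ Finset.range B.sheetDeg,
    famPull B.hr ((B.charFam Z).coeff (k + 1)) * Z ^ k
  have hW : Z * W = famPull B.hr ((B.charFam Z).coeff 0) := by
    have h := B.evTheta_charFam_eval Z
    rw [Finset.sum_range_succ', pow_zero, mul_one] at h
    rw [mul_neg, Finset.mul_sum, neg_eq_iff_add_eq_zero, ← h]
    exact congrArg (· + _) (Finset.sum_congr rfl fun k _ => by ring)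
  refine ⟨T, hT, W * famPull B.hr (B.evb (B.dP ^ m)), mul_mem (neg_mem (sum_mem fun k _ =>
    mul_mem (hpull _ (hc _)) (pow_mem hZ k))) (hpull _ (B.evb_mem_repRing
      (pow_mem B.dP_mem_polyIn m))), ?_, ?_⟩
  · by_contra hall
    push_neg at hall
    -- reduce at one cusp
    have hser : ∀ v, famExp v Z ∈ serIn P.A := fun v => mem_serIn.mpr (mem_intFam.mp hZ v)
    set w := base r
    let c₀ : intFam r N P.A := ⟨_, B.repRing_le hS (hc 0)⟩
    have h1 : P.famRes w c₀ =
        ∏ v ∈ primFibre B.hr w, -P.serRes ⟨famExp v Z, hser v⟩ := by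
      rw [P.famRes_apply]
      simp only [← map_neg]
      rw [← map_prod]
      refine congrArg _ (Subtype.ext ?_)
      rw [SubmonoidClass.coe_finsetProd]
      show famExp w ((B.charFam Z).coeff 0) = _
      rw [B.famExp_charFam_coeff Z w (Nat.succ_pos _), coeff_zero_prod]
      simp
    have h2 : P.famRes w c₀ = 0 := by
      let bT : intFam r N P.A := ⟨B.evb T, B.repRing_le hS (B.evb_mem_repRing hT)⟩
      let dI : intFam r N P.A := ⟨B.dInv, B.repRing_le hS B.dInv_mem_repRing⟩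
      rw [show c₀ = bT * dI ^ m from Subtype.ext hm, map_mul]
      refine mul_eq_zero_of_left ?_ _
      rw [P.famRes_apply]
      refine P.serRes_eq_zero.mpr fun n => ?_
      show (famExp w (B.evb T)).coeff n ∈ P.maxIdeal
      rw [evb, coe_eval₂RingHom, eval₂_eq_sum_range, map_sum, HahnSeries.coeff_sum]
      refine P.sum_mem_maxIdeal _ fun k _ => ?_
      rw [map_mul, famExp_famConst, HahnSeries.C_mul_eq_smul, HahnSeries.coeff_smul, smul_eq_mul,
        mul_comm]
      exact P.mul_mem_maxIdeal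
        (mem_intFam.mp (pow_mem (intFam_mono hS B.b_mem) k) w n) (hall k)
    rw [h2] at h1
    obtain ⟨v, -, hv⟩ := Finset.prod_eq_zero_iff.mp h1.symm
    exact (P.hasUnitCoeff_iff (s := ⟨_, hser v⟩)).mp (hu v) (neg_eq_zero.mp hv)
  · rw [← mul_assoc, hW, ← map_mul, hm, map_pow, mul_assoc, ← mul_pow, mul_comm B.dInv,
      evb_dP_mul_dInv, one_pow, mul_one]

/-- A taylor expansion of a primitive polynomial at an integral point is primitive. -/
theorem hasUnitCoeff_taylorAt {T : ℂ[X]} (hT : T ∈ polyIn P.A) (hT0 : ∃ k, T.coeff k ∉ P.maxIdeal)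
    {β : ℂ} (hβ : β ∈ P.A) : ∃ k, PowerSeries.coeff k (taylorAt β T) ∉ P.maxIdeal := by
  obtain ⟨T₀, rfl⟩ := hT
  by_contra hall
  push_neg at hall
  obtain ⟨k, hk⟩ := hT0
  refine hk ?_
  have h0 : (taylor ⟨β, hβ⟩ T₀).map P.res = 0 := by
    ext n
    rw [Polynomial.coeff_map, coeff_zero, P.res_eq_zero]
    have := hall n
    rw [taylorAt, Polynomial.coeff_coe, show β = P.A.subtype ⟨β, hβ⟩ from rfl, coe_mapRingHom,
      ← map_taylor, Polynomial.coeff_map] at this
    exact this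
  rw [map_taylor] at h0
  have h1 : T₀.map P.res = 0 := taylor_injective _ (h0.trans (map_zero _).symm)
  have h2 := congrArg (fun f => f.coeff k) h1
  rw [coeff_zero, Polynomial.coeff_map, P.res_eq_zero] at h2
  rw [coe_mapRingHom, Polynomial.coeff_map]
  exact h2

end BaseSys

/-- Divisibility of a difference of `p`-power powers. -/
theorem pow_dvd_sub_pow_pow {R : Type*} [CommRing R] {π x y : R} (hp : π ∣ (p : R))
    (h : π ∣ x - y) : ∀ n : ℕ, π ^ (n + 1) ∣ x ^ p ^ n - y ^ p ^ n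
  | 0 => by simpa using h
  | n + 1 => by
    have ih := pow_dvd_sub_pow_pow hp h n
    rw [pow_succ p n, pow_mul x, pow_mul y, ← geom_sum₂_mul, pow_succ' π (n + 1)]
    refine mul_dvd_mul ?_ ih
    exact (dvd_geom_sum₂_iff_of_dvd_sub ((dvd_pow_self π n.succ_ne_zero).trans ih)).mpr
      (dvd_mul_of_dvd_left hp _)

variable {r N : ℕ} [NeZero N] {B : BaseSys r N} {F : Finset (Fam N N)} {s : ℂ[X]}

/-- Multiples of the uniformiser among integral series. -/
theorem CoeffData.C_dvd_of_serRes (d : CoeffData B P F s) {x : serIn P.A}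
    (hx : x.1 ∈ serIn (coeffRing P d.K)) (h : P.serRes x = 0) :
    (⟨HahnSeries.C d.π, C_mem_serIn d.uniformiser_mem.2⟩ : serIn P.A) ∣ x := by
  obtain ⟨t, ht, he⟩ := (P.serDvd_iff d.uniformiser_ne).mpr fun i => by
    obtain ⟨y, hy, hy'⟩ := d.dvd_uniformiser _ (mem_serIn.mp hx i) (P.serRes_eq_zero.mp h i)
    exact ⟨y, hy.2, hy'⟩
  exact ⟨⟨t, ht⟩, Subtype.ext he⟩

/-- An exact root close to an approximate root is congruent to it modulo the uniformiser. -/
theorem exists_root_dvd (d : CoeffData B P F s) (hp : p.Prime) {l : ℕ} (hl : 0 < l)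
    (hlu : (l : ℂ) ∉ P.maxIdeal) {a G : serIn P.A} (ha : P.serRes a ≠ 0)
    (hd : (⟨HahnSeries.C d.π, C_mem_serIn d.uniformiser_mem.2⟩ : serIn P.A) ∣ a ^ l - G ^ l) :
    ∃ a' : serIn P.A, a' ^ l = a ^ l ∧
      (⟨HahnSeries.C d.π, C_mem_serIn d.uniformiser_mem.2⟩ : serIn P.A) ∣ a' - G := by
  set πs : serIn P.A := ⟨HahnSeries.C d.π, C_mem_serIn d.uniformiser_mem.2⟩
  have hπ0 : P.serRes πs = 0 := by
    rw [P.serRes_C d.uniformiser_mem.2, (P.res_eq_zero (x := ⟨_, d.uniformiser_mem.2⟩)).mpr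
      d.uniformiser_max, map_zero]
  have hcong : P.serRes (a ^ l) = P.serRes (G ^ l) := by
    obtain ⟨t, ht⟩ := hd
    rw [← sub_eq_zero, ← map_sub, ht, map_mul, hπ0, zero_mul]
  obtain ⟨a', ha', hG⟩ := P.exists_root_congr hl hlu a G ha hcong
  refine ⟨a', ha', ?_⟩
  rw [← ha', ← geom_sum₂_mul] at hd
  set S := ∑ i ∈ Finset.range l, a' ^ i * G ^ (l - 1 - i)
  have hG0 : P.serRes G ≠ 0 := by
    intro h
    rw [map_pow, map_pow, h, zero_pow hl.ne'] at hcong
    exact ha (pow_eq_zero_iff hl.ne' |>.mp hcong)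
  have hS : P.serRes S ≠ 0 := by
    rw [map_sum]
    simp only [map_mul, map_pow, hG]
    rw [geom_sum₂_self]
    refine mul_ne_zero ?_ (pow_ne_zero _ hG0)
    intro h
    refine P.res_natCast_ne_zero hlu ((HahnSeries.C (Γ := ℤ) (R := P.Res)).injective ?_)
    rw [map_natCast, map_zero, h]
  obtain ⟨t, ht⟩ := hd
  obtain ⟨t', ht', he⟩ := P.serDvd_of_mul hp d.uniformiser_max d.uniformiser_ne 1 S.2
    ((P.hasUnitCoeff_iff).mpr hS) (a' - G).2 ⟨t.1, t.2, by
      rw [pow_one]; exact congrArg Subtype.val ht⟩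
  rw [pow_one] at he
  exact ⟨⟨t', ht'⟩, Subtype.ext he⟩

/-- The congruence used for the approximations. -/
theorem root_approx {R : Type*} [CommRing R] {π a G X Z : R} {l e t n : ℕ}
    (he : l * e + 1 = p ^ n * t) (hp : π ∣ (p : R)) (h : π ∣ a - G) (hX : a ^ l = X) :
    π ^ n ∣ (X * Z) ^ e * a - G ^ (p ^ n * t) * Z ^ e := by
  have e1 : (X * Z) ^ e * a = Z ^ e * a ^ (p ^ n * t) := by
    rw [← he, ← hX, mul_pow, ← pow_mul, pow_add, pow_one]
    ring
  rw [e1, mul_comm (G ^ _) (Z ^ e), ← mul_sub, pow_mul, pow_mul]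
  exact ((pow_dvd_pow π (Nat.le_succ n)).trans
    ((pow_dvd_sub_pow_pow hp h n).trans (sub_dvd_pow_sub_pow _ _ t))).mul_left _

theorem exists_exponents {l : ℕ} (hl : 1 < l) (hco : Nat.Coprime p l) (n : ℕ) :
    ∃ e t : ℕ, l * e + 1 = p ^ n * t := by
  obtain ⟨t, -, ht⟩ := Nat.exists_mul_mod_eq_one_of_coprime (hco.pow_left n) hl
  exact ⟨p ^ n * t / l, t, by have := Nat.div_add_mod (p ^ n * t) l; omega⟩

/-- A family congruent to an `l`-th power at all cusps, with all orders divisible by `l`, is an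
`l`-th power up to `l`-th powers. -/
theorem BaseSys.exists_pow_eq_of_congr (B : BaseSys r N) (hp : p.Prime) (hS : zetaRing N ≤ P.A)
    {l : ℕ} (hl : 1 < l) (hlu : (l : ℂ) ∉ P.maxIdeal) (hco : Nat.Coprime p l) {X G : Fam N N}
    (hX : X ∈ intFam N N P.A) (hG : G ∈ intFam N N P.A) (hu : ∀ v, P.HasUnitCoeff (famExp v X))
    (hcusp : ∀ v, (l : ℤ) ∣ (famExp v X).order)
    (hpts : ∀ Q : B.Pt, ∃ m : ℕ, (Q.exp X).order = ((l * m : ℕ) : ℕ∞))
    (hcongr : ∀ v, P.SerCongr (famExp v X) (famExp v G ^ l)) :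
    ∃ D Φ : Fam N N, D ≠ 0 ∧ X * D ^ l = Φ ^ l := by
  classical
  haveI := B.neZero_r
  have hl0 : 0 < l := by omega
  obtain ⟨T, hT, X', hX', hTu, hXX'⟩ := B.exists_cofactor hS hX hu
  have hT0 : T ≠ 0 := by
    obtain ⟨k, hk⟩ := hTu
    exact fun h => hk (by rw [h, coeff_zero]; exact P.zero_mem_maxIdeal)
  obtain ⟨d⟩ := exists_coeffData B hp P hS {X, G, X'}
    (fun Z hZ => by
      simp only [Finset.mem_insert, Finset.mem_singleton] at hZ
      rcases hZ with rfl | rfl | rfl <;> exact intFam_Kb_of_mem ‹_›)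
    (fun k => P.algebraic _ (mem_polyIn.mp hT k)) hT0
  have hXK : X ∈ intFam N N d.K.toSubring := d.fam_mem _ (by simp)
  have hGK : G ∈ intFam N N d.K.toSubring := d.fam_mem _ (by simp)
  have hX'K : X' ∈ intFam N N d.K.toSubring := d.fam_mem _ (by simp)
  have hXO := mem_intFam_coeffRing hXK hX
  have hGO := mem_intFam_coeffRing hGK hG
  set O := coeffRing P d.K
  set XK : intFam N N d.K.toSubring := ⟨X, hXK⟩
  have hdvd : XK ∣ B.pullK d.zeta_field ⟨B.evb T, B.evb_mem_repRing d.poly_mem⟩ :=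
    ⟨⟨X', hX'K⟩, Subtype.ext hXX'.symm⟩
  set πs : serIn P.A := ⟨HahnSeries.C d.π, C_mem_serIn d.uniformiser_mem.2⟩
  have hπp : πs ∣ ((p : ℕ) : serIn P.A) := by
    obtain ⟨y, hy, hy'⟩ := d.dvd_uniformiser (p : ℂ) (natCast_mem O p) P.natCast_mem_maxIdeal
    refine ⟨⟨HahnSeries.C y, C_mem_serIn hy.2⟩, Subtype.ext ?_⟩
    show ((p : ℕ) : LaurentSeries ℂ) = HahnSeries.C d.π * HahnSeries.C y
    rw [← map_mul, ← hy', map_natCast]
  -- the roots at the cusps
  have hcusps : ∀ v, ∃ a : serIn P.A, (a : LaurentSeries ℂ) ^ l = famExp v X ∧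
      πs ∣ a - P.famSer v ⟨G, hG⟩ := by
    intro v
    obtain ⟨a₀, ha₀, ha₀l⟩ := d.exists_pow_eq_cusp hp hl0 hlu v (X := XK) hXO (hu v) (hcusp v)
      hpts hT0 hdvd
    have hres : P.serRes (⟨a₀, ha₀⟩ : serIn P.A) ≠ 0 := by
      intro h
      refine (P.hasUnitCoeff_iff (s := ⟨famExp v X, mem_serIn.mpr (mem_intFam.mp hX v)⟩)).mp
        (hu v) ?_
      rw [show (⟨famExp v X, _⟩ : serIn P.A) = ⟨a₀, ha₀⟩ ^ l from Subtype.ext ha₀l.symm, map_pow,
        h, zero_pow hl0.ne']
    obtain ⟨a, hal, had⟩ := exists_root_dvd d hp hl0 hlu (G := P.famSer v ⟨G, hG⟩) hres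
      (d.C_dvd_of_serRes (sub_mem (by
          show a₀ ^ l ∈ _
          rw [ha₀l]; exact mem_serIn.mpr (mem_intFam.mp hXO v))
        (pow_mem (mem_serIn.mpr (mem_intFam.mp hGO v)) l))
        (by
          refine P.serRes_eq_zero.mpr fun n => ?_
          show (a₀ ^ l - famExp v G ^ l).coeff n ∈ _
          rw [ha₀l, HahnSeries.coeff_sub]
          exact hcongr v n))
    exact ⟨a, (congrArg Subtype.val hal).trans ha₀l, had⟩
  choose a hal had using hcusps
  -- the family
  obtain ⟨Φ, -, hΦ⟩ := B.exists_fam_of_approx hp P hS d.uniformiser_max d.uniformiser_ne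
    (fun v => (a v : LaurentSeries ℂ)) (fun v => (a v).2) hT hTu fun n => by
    obtain ⟨e, t, het⟩ := exists_exponents hl hco n
    refine ⟨e, 0, G ^ (p ^ n * t) * X' ^ e, mul_mem (pow_mem hG _) (pow_mem hX' _),
      fun v => ?_, fun Q hQ hTQ => ?_⟩
    · obtain ⟨u, hu'⟩ := root_approx (X := P.famSer v ⟨X, hX⟩) (Z := P.famSer v ⟨X', hX'⟩) het hπp
        (had v) (Subtype.ext (hal v))
      refine ⟨u.1, u.2, ?_⟩
      have h := congrArg Subtype.val hu'
      simp only [AddSubgroupClass.coe_sub, Subring.coe_mul, SubmonoidClass.coe_pow] at h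
      rw [pow_zero, mul_one, map_pow, map_pow, ← famExp_famPull B.hr, ← hXX', map_mul, map_mul,
        map_pow, map_pow]
      rw [show (HahnSeries.C (d.π ^ n) : LaurentSeries ℂ) = HahnSeries.C d.π ^ n from map_pow _ _ _]
      exact h
    · have hβ : Q.beta ∈ d.K := d.root_mem _ hTQ
      have hQO : Q.IsIn O := ⟨⟨⟨hβ, hQ.1.1⟩, ⟨d.K.inv_mem (eval_mem_field
        B.dP_mem_polyIn hβ), hQ.1.2⟩⟩, ⟨d.sheet_mem Q hTQ, hQ.2⟩⟩
      let ser : PowerSeries ℂ →+* LaurentSeries ℂ := HahnSeries.ofPowerSeries ℤ ℂ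
      have hmem : ∀ {S : Subring ℂ} {f : PowerSeries ℂ}, f ∈ psIn S → ser f ∈ serIn S := by
        rintro S f ⟨g, rfl⟩
        exact ⟨HahnSeries.ofPowerSeries ℤ S g, coeffMap_ofPowerSeries S.subtype g⟩
      have hexp : ∀ {Z : Fam N N}, Z ∈ intFam N N P.A → ser (Q.exp Z) ∈ serIn P.A :=
        fun hZ => hmem (Q.exp_mem hS hQ hZ)
      have hprod : Q.exp X * Q.exp X' = taylorAt Q.beta T := by
        rw [← map_mul, hXX', Q.exp_pull, B.evR_evb]
      have huX : P.HasUnitCoeff (ser (Q.exp X)) := by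
        rw [P.hasUnitCoeff_iff (s := ⟨_, hexp hX⟩)]
        intro h
        obtain ⟨k, hk⟩ := hasUnitCoeff_taylorAt hT hTu hQ.1.1
        refine hk ?_
        have h2 : P.serRes ⟨ser (taylorAt Q.beta T), hmem (taylorAt_mem hQ.1.1 hT)⟩ = 0 := by
          rw [show (⟨ser (taylorAt Q.beta T), _⟩ : serIn P.A) = ⟨_, hexp hX⟩ * ⟨_, hexp hX'⟩ from
            Subtype.ext (by show ser _ = ser _ * ser _; rw [← map_mul, hprod]), map_mul, h, zero_mul]
        have h3 := P.serRes_eq_zero.mp h2 (k : ℤ)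
        rwa [HahnSeries.ofPowerSeries_apply_coeff] at h3
      obtain ⟨g₀, hg₀, hg₀l⟩ := d.exists_pow_eq_point hp hl0 hlu hQO (X := XK) hXO huX hpts hT0 hdvd
      have hres : P.serRes (⟨g₀, hg₀⟩ : serIn P.A) ≠ 0 := by
        intro h
        refine (P.hasUnitCoeff_iff (s := ⟨_, hexp hX⟩)).mp huX ?_
        rw [show (⟨ser (Q.exp X), _⟩ : serIn P.A) = ⟨g₀, hg₀⟩ ^ l from Subtype.ext hg₀l.symm,
          map_pow, h, zero_pow hl0.ne']
      -- the congruence at the point
      have hdiff : famConst N N d.π⁻¹ * (X - G ^ l) ∈ intFam N N P.A := by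
        refine mem_intFam.mpr fun v n => ?_
        rw [map_mul, famExp_famConst, HahnSeries.C_mul_eq_smul, HahnSeries.coeff_smul, map_sub,
          map_pow, HahnSeries.coeff_sub, smul_eq_mul]
        obtain ⟨y, hy, hy'⟩ := d.dvd_uniformiser _ (sub_mem (mem_intFam.mp hXO v n)
          (by rw [← map_pow]; exact mem_intFam.mp (pow_mem hGO l) v n)) (hcongr v n)
        rw [hy', inv_mul_cancel_left₀ d.uniformiser_ne]
        exact hy.2
      obtain ⟨g, hgl, hgd⟩ := exists_root_dvd d hp hl0 hlu (G := ⟨_, hexp hG⟩) hres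
        ⟨⟨_, hexp hdiff⟩, Subtype.ext (by
          show g₀ ^ l - ser (Q.exp G) ^ l = HahnSeries.C d.π * ser (Q.exp _)
          rw [hg₀l, map_mul Q.exp, map_mul ser, ← mul_assoc,
            show famConst N N d.π⁻¹ = famPull B.hr (famConst r N d.π⁻¹) from rfl, Q.exp_pull,
            B.evR_const, HahnSeries.ofPowerSeries_C, ← map_mul, mul_inv_cancel₀ d.uniformiser_ne,
            map_one, one_mul, map_sub, map_pow, map_sub, map_pow])⟩
      obtain ⟨u, hu'⟩ := root_approx (X := (⟨_, hexp hX⟩ : serIn P.A)) (Z := ⟨_, hexp hX'⟩) het hπp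
        hgd (hgl.trans (Subtype.ext hg₀l))
      -- back to power series
      have hord : ∀ i : ℤ, i < 0 → (g : LaurentSeries ℂ).coeff i = 0 := by
        intro i hi
        refine HahnSeries.coeff_eq_zero_of_lt_order (lt_of_lt_of_le hi ?_)
        obtain ⟨m, hm⟩ := hpts Q
        have h1 := congrArg (fun x : LaurentSeries ℂ => x.order)
          ((congrArg Subtype.val hgl).trans hg₀l)
        simp only [SubmonoidClass.coe_pow, HahnSeries.order_pow, nsmul_eq_mul] at h1
        have h2 := h1.trans (order_single_mul_ofPowerSeries hm)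
        by_contra hneg
        have : (l : ℤ) * (g : LaurentSeries ℂ).order < 0 :=
          mul_neg_of_pos_of_neg (by exact_mod_cast hl0) (not_le.mp hneg)
        omega
      set g' : PowerSeries ℂ := PowerSeries.mk fun k => (g : LaurentSeries ℂ).coeff (k : ℤ)
      have hg' : ser g' = g := by
        ext i
        rcases lt_or_ge i 0 with hi | hi
        · rw [hord i hi, HahnSeries.ofPowerSeries_apply]
          refine HahnSeries.embDomain_notin_range ?_
          rintro ⟨k, hk⟩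
          simp at hk
          omega
        · lift i to ℕ using hi
          rw [HahnSeries.ofPowerSeries_apply_coeff, PowerSeries.coeff_mk]
      refine ⟨g', mem_psIn_iff.mpr fun k => by
        rw [PowerSeries.coeff_mk]; exact mem_serIn.mp g.2 _, fun k => ⟨u.1.coeff (k : ℤ),
          mem_serIn.mp u.2 _, ?_⟩⟩
      have h := congrArg Subtype.val hu'
      simp only [AddSubgroupClass.coe_sub, Subring.coe_mul, SubmonoidClass.coe_pow] at h
      have key : ser (taylorAt Q.beta T ^ e * g' - Q.exp G ^ (p ^ n * t) * Q.exp X' ^ e) =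
          HahnSeries.C d.π ^ n * u.1 := by
        simp only [map_sub, map_mul, map_pow, hg', ← hprod]
        exact h
      have h3 := congrArg (fun x : LaurentSeries ℂ => x.coeff (k : ℤ)) key
      simp only [HahnSeries.ofPowerSeries_apply_coeff, ← map_pow, HahnSeries.C_mul_eq_smul,
        HahnSeries.coeff_smul, smul_eq_mul] at h3
      rw [← h3, pow_zero, mul_one, ← taylorHom_apply, map_pow, taylorHom_apply, map_mul, map_pow,
        map_pow]
      exact (HahnSeries.ofPowerSeries_apply_coeff _ _).symm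
  refine ⟨famPull B.hr B.relDeriv, Φ, ?_, fam_ext_exp fun v => ?_⟩
  · intro h
    refine B.relDeriv_ne_zero (famExp_injective (base r) ?_)
    have h' := congrArg (famExp (base N)) h
    rw [famExp_famPull, map_zero, primRed_base] at h'
    rw [h', map_zero]
  · rw [map_mul, map_pow, map_pow, famExp_famPull, hΦ v, ← hal v, mul_pow]
    exact mul_comm _ _

end Fermat.Agent.DS.G1
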