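import Fermat.Agent.DS.G1.Core.Sheets
import Fermat.Agent.DS.G1.Core.Bounded
import Fermat.Agent.DS.G1.Core.CoeffField
import Fermat.Agent.DS.G1.Core.Glue
import Fermat.Agent.DS.AutC

/-!
# Coefficient fields adapted to finitely many families
-/

set_option autoImplicit false

noncomputable section

open Polynomial

namespace Fermat.Agent.DS.G1

variable {p : ℕ} {P : PlaceRing p} {K : Subfield ℂ}

/-- A field with discrete place containing the coefficients of given families and the coordinates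
of the points above the zeros of `s`, together with a uniformiser. -/
structure CoeffData {r N : ℕ} [NeZero N] (B : BaseSys r N) (P : PlaceRing p)
    (F : Finset (Fam N N)) (s : ℂ[X]) where
  /-- The field. -/
  K : Subfield ℂ
  /-- The uniformiser. -/
  π : ℂ
  algebraic : ∀ x ∈ K, IsAlgebraic ℚ x
  zeta_le : zetaRing N ≤ coeffRing P K
  pid : IsPrincipalIdealRing (coeffRing P K)
  fam_mem : ∀ Z ∈ F, Z ∈ intFam N N K.toSubring
  poly_mem : s ∈ BaseSys.polyIn K.toSubring
  root_mem : ∀ β, s.eval β = 0 → β ∈ K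
  sheet_mem : ∀ Q : B.Pt, s.eval Q.beta = 0 → Q.th ∈ K
  uniformiser_mem : π ∈ coeffRing P K
  uniformiser_max : π ∈ P.maxIdeal
  uniformiser_ne : π ≠ 0
  dvd_uniformiser : ∀ x ∈ coeffRing P K, x ∈ P.maxIdeal → ∃ y ∈ coeffRing P K, x = π * y

/-- Algebraicity is membership in `Kb`. -/
theorem mem_kb_iff {x : ℂ} : x ∈ DS.Kb.toSubfield.toSubring ↔ IsAlgebraic ℚ x :=
  mem_algebraicClosure_iff

/-- A root of a nonzero polynomial with algebraic coefficients is algebraic. -/
theorem isAlgebraic_of_root {G : ℂ[X]} (hG : ∀ k, IsAlgebraic ℚ (G.coeff k)) (hG0 : G ≠ 0) {x : ℂ}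
    (hx : G.eval x = 0) : IsAlgebraic ℚ x := by
  let K := algebraicClosure ℚ ℂ
  obtain ⟨G₀, hG₀⟩ := (Polynomial.mem_lifts (f := algebraMap K ℂ) G).mp
    ((Polynomial.lifts_iff_coeff_lifts G).mpr fun k => ⟨(⟨G.coeff k,
      (mem_algebraicClosure_iff).mpr (hG k)⟩ : K), rfl⟩)
  have hne : G₀ ≠ 0 := fun h => hG0 (by rw [← hG₀, h, Polynomial.map_zero])
  have h1 : IsAlgebraic K x := ⟨G₀, hne, by rw [aeval_def, ← eval_map]; exact hG₀.symm ▸ hx⟩
  have : Algebra.IsAlgebraic ℚ K := algebraicClosure.isAlgebraic ℚ ℂ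
  exact h1.restrictScalars ℚ

/-- Coefficient data exist. -/
theorem exists_coeffData {r N : ℕ} [NeZero N] (B : BaseSys r N) (hp : p.Prime) (P : PlaceRing p)
    (hS : zetaRing N ≤ P.A) (F : Finset (Fam N N))
    (hF : ∀ Z ∈ F, Z ∈ intFam N N DS.Kb.toSubfield.toSubring)
    {s : ℂ[X]} (hs : ∀ k, IsAlgebraic ℚ (s.coeff k)) (hs0 : s ≠ 0) :
    Nonempty (CoeffData B P F s) := by
  classical
  have := B.neZero_r
  have hkb : zetaRing N ≤ DS.Kb.toSubfield.toSubring :=
    fun x hx => mem_kb_iff.mpr (P.algebraic x (hS hx))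
  have hrep : ∀ (Z : F) (k : ℕ), ∃ T ∈ BaseSys.polyIn DS.Kb.toSubfield.toSubring, ∃ m,
      B.IsRep (B.coord Z.1 k) T m :=
    fun Z k => B.exists_rep_of_mem (B.coord_mem hkb (hF Z.1 Z.2) k)
  choose T hT m hm using hrep
  let shs : ℂ → Finset ℂ := fun β =>
    if hd : B.dP.eval β ≠ 0 then (B.sheets ⟨β, hd⟩).image (fun Q => Q.th) else ∅
  let S : Finset ℂ := {zetaN N} ∪ s.support.image s.coeff ∪ s.roots.toFinset ∪
    s.roots.toFinset.biUnion shs ∪ (F.attach.biUnion fun Z =>
      (Finset.range B.sheetDeg).biUnion fun k => (T Z k).support.image (T Z k).coeff)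
  have hroot : ∀ β ∈ s.roots.toFinset, IsAlgebraic ℚ β := fun β hβ =>
    isAlgebraic_of_root hs hs0 ((mem_roots hs0).mp (Multiset.mem_toFinset.mp hβ))
  have hSalg : ∀ x ∈ S, IsAlgebraic ℚ x := by
    intro x hx
    simp only [S, Finset.mem_union, Finset.mem_singleton, Finset.mem_image, Finset.mem_biUnion]
      at hx
    rcases hx with (((rfl | ⟨k, -, rfl⟩) | hx) | ⟨β, hβ, hx⟩) | ⟨Z, -, k, -, i, -, rfl⟩
    · exact P.algebraic _ (hS (Subring.subset_closure (Or.inl rfl)))
    · exact hs k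
    · exact hroot x hx
    · simp only [shs] at hx
      split_ifs at hx with hd
      swap
      · simp at hx
      obtain ⟨Q, hQ, rfl⟩ := Finset.mem_image.mp hx
      have hb : Q.toBasePt.IsIn DS.Kb.toSubfield.toSubring := by
        rw [(BaseSys.mem_sheets B).mp hQ]
        have hβ' : β ∈ DS.Kb.toSubfield.toSubring := mem_kb_iff.mpr (hroot β hβ)
        exact ⟨hβ', DS.Kb.toSubfield.inv_mem
          (BaseSys.eval_mem_of_polyIn B.dP_mem_polyIn hβ')⟩
      refine isAlgebraic_of_root (G := B.sheetPoly.map (B.evC Q.toBasePt)) (fun j => ?_)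
        (B.monic_sheetPoly.map _).ne_zero (by rw [eval_map]; exact Q.hth)
      rw [Polynomial.coeff_map]
      exact mem_kb_iff.mp
        (B.evC_mem _ hb (B.coeff_charFam_mem hkb (intFam_mono hkb B.theta_mem) j))
    · exact mem_kb_iff.mp (BaseSys.mem_polyIn.mp (hT Z k) i)
  obtain ⟨K, hKS, hKalg, hKpid⟩ := exists_coeffField hp P S hSalg
  have hzA : zetaN N ∈ P.A := hS (Subring.subset_closure (Or.inl rfl))
  have hzK : zetaN N ∈ K := hKS _ (by simp [S])
  have hz : zetaRing N ≤ coeffRing P K := zetaRing_le ⟨hzK, hzA⟩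
    ⟨K.inv_mem (natCast_mem K N), hS (Subring.subset_closure (Or.inr rfl))⟩
  -- the maximal ideal of the coefficient ring
  let I : Ideal (coeffRing P K) :=
    { carrier := {x | (x : ℂ) ∈ P.maxIdeal}
      zero_mem' := P.zero_mem_maxIdeal
      add_mem' := fun ha hb => P.add_mem_maxIdeal ha hb
      smul_mem' := fun c _ hx => P.mul_mem_maxIdeal (coeffRing_le c.2) hx }
  obtain ⟨⟨π, hπ⟩⟩ := (hKpid.principal I)
  have hπm : (π : ℂ) ∈ P.maxIdeal :=
    show π ∈ I by rw [hπ]; exact Ideal.mem_span_singleton_self π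
  have hdvd : ∀ x ∈ coeffRing P K, x ∈ P.maxIdeal → ∃ y ∈ coeffRing P K, x = π * y := by
    intro x hx hxm
    have h : (⟨x, hx⟩ : coeffRing P K) ∈ I := hxm
    rw [hπ] at h
    obtain ⟨y, hy⟩ := Ideal.mem_span_singleton.mp h
    exact ⟨y, y.2, congrArg Subtype.val hy⟩
  have hπ0 : (π : ℂ) ≠ 0 := fun h0 => by
    obtain ⟨y, -, hy⟩ := hdvd _ ⟨natCast_mem K.toSubring p, natCast_mem P.A p⟩
      P.natCast_mem_maxIdeal
    rw [h0, zero_mul] at hy
    exact hp.ne_zero (by exact_mod_cast hy)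
  refine ⟨⟨K, π, hKalg, hz, hKpid, fun Z hZ => ?_, ?_, ?_, ?_, π.2, hπm, hπ0, hdvd⟩⟩
  · have hzK' : zetaRing N ≤ K.toSubring := hz.trans coeffRing_le_field
    rw [B.interp Z]
    refine sum_mem fun k hk => mul_mem ?_ (pow_mem (intFam_mono hzK' B.theta_mem) k)
    have hTK : T ⟨Z, hZ⟩ k ∈ BaseSys.polyIn K.toSubring := by
      refine BaseSys.mem_polyIn.mpr fun i => ?_
      by_cases hi : i ∈ (T ⟨Z, hZ⟩ k).support
      · refine hKS _ (Finset.mem_union_right _ ?_)
        exact Finset.mem_biUnion.mpr ⟨⟨Z, hZ⟩, Finset.mem_attach _ _,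
          Finset.mem_biUnion.mpr ⟨k, hk, Finset.mem_image_of_mem _ hi⟩⟩
      · rw [Polynomial.notMem_support_iff.mp hi]
        exact zero_mem _
    refine mem_intFam.mpr fun v i => ?_
    rw [famExp_famPull]
    refine mem_intFam.mp (B.repRing_le hzK' ?_) _ i
    rw [hm ⟨Z, hZ⟩ k]
    exact mul_mem (B.evb_mem_repRing hTK) (pow_mem B.dInv_mem_repRing _)
  · refine BaseSys.mem_polyIn.mpr fun i => ?_
    by_cases hi : i ∈ s.support
    · exact hKS _ (by simp only [S, Finset.mem_union]; exact Or.inl (Or.inl (Or.inl (Or.inr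
        (Finset.mem_image_of_mem _ hi)))))
    · rw [Polynomial.notMem_support_iff.mp hi]
      exact zero_mem _
  · intro β hβ
    refine hKS β ?_
    simp only [S, Finset.mem_union]
    exact Or.inl (Or.inl (Or.inr (Multiset.mem_toFinset.mpr ((mem_roots hs0).mpr hβ))))
  · intro Q hQ
    refine hKS _ ?_
    simp only [S, Finset.mem_union]
    refine Or.inl (Or.inr (Finset.mem_biUnion.mpr
      ⟨Q.beta, Multiset.mem_toFinset.mpr ((mem_roots hs0).mpr hQ), ?_⟩))
    simp only [shs, dif_pos Q.hbeta]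
    exact Finset.mem_image.mpr ⟨Q, (BaseSys.mem_sheets B).mpr rfl, rfl⟩

/-- A family over the field becomes integral after multiplication by a constant. -/
theorem exists_famConst_mul_mem {r N : ℕ} [NeZero N] (B : BaseSys r N)
    (hK : ∀ x ∈ K, IsAlgebraic ℚ x) (hS : zetaRing N ≤ coeffRing P K)
    {Z : Fam N N} (hZ : Z ∈ intFam N N K.toSubring) :
    ∃ c ∈ coeffRing P K, c ≠ 0 ∧ famConst N N c * Z ∈ intFam N N (coeffRing P K) := by
  have := B.neZero_r
  set O := coeffRing P K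
  have hconst : ∀ c ∈ O, famConst N N c ∈ intFam N N O := fun c hc =>
    mem_intFam.mpr fun v => mem_serIn.mp (by rw [famExp_famConst]; exact C_mem_serIn hc)
  have hpull : ∀ Y ∈ intFam r N O, famPull B.hr Y ∈ intFam N N O := fun Y hY =>
    mem_intFam.mpr fun v i => by rw [famExp_famPull]; exact mem_intFam.mp hY _ i
  let T : Subring (Fam N N) :=
    { carrier := {Z | ∃ c ∈ O, c ≠ 0 ∧ famConst N N c * Z ∈ intFam N N O}
      zero_mem' := ⟨1, one_mem _, one_ne_zero, by rw [mul_zero]; exact zero_mem _⟩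
      one_mem' := ⟨1, one_mem _, one_ne_zero, by rw [mul_one, map_one]; exact one_mem _⟩
      add_mem' := by
        rintro Y Y' ⟨c, hc, hc0, h⟩ ⟨d, hd, hd0, h'⟩
        refine ⟨c * d, mul_mem hc hd, mul_ne_zero hc0 hd0, ?_⟩
        have := add_mem (mul_mem (hconst d hd) h) (mul_mem (hconst c hc) h')
        convert this using 1
        rw [map_mul]
        ring
      mul_mem' := by
        rintro Y Y' ⟨c, hc, hc0, h⟩ ⟨d, hd, hd0, h'⟩
        refine ⟨c * d, mul_mem hc hd, mul_ne_zero hc0 hd0, ?_⟩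
        have := mul_mem h h'
        convert this using 1
        rw [map_mul]
        ring
      neg_mem' := by
        rintro Y ⟨c, hc, hc0, h⟩
        exact ⟨c, hc, hc0, by rw [mul_neg]; exact neg_mem h⟩ }
  have hone : ∀ Y ∈ intFam N N O, Y ∈ T := fun Y hY =>
    ⟨1, one_mem _, one_ne_zero, by rw [map_one, one_mul]; exact hY⟩
  refine B.mem_of_gens T (hS.trans coeffRing_le_field) (fun x hx => ?_)
    (hone _ (hpull _ (intFam_mono hS B.b_mem))) (hone _ (hpull _ (intFam_mono hS B.dInv_mem_intFam)))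
    (hone _ (intFam_mono hS B.theta_mem)) hZ
  obtain ⟨c, hc, hc0, hcx⟩ := exists_coeffRing_scale (P := P) hK hx
  exact ⟨c, hc, hc0, by rw [← map_mul]; exact hconst _ hcx⟩

end Fermat.Agent.DS.G1
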