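import Fermat.Agent.DS.G1.Core.PointMult
import Fermat.Agent.DS.G1.Core.Setup
import Fermat.Agent.DS.G1.Core.Residue

/-!
# Expansions of a family with divisible orders are powers of integral series
-/

set_option autoImplicit false

noncomputable section

open Polynomial

namespace Fermat.Agent.DS.G1

open ModularCurve BaseSys

variable {p : ℕ} {P : PlaceRing p}

theorem order_single_mul_ofPowerSeries {f : PowerSeries ℂ} {n : ℕ} (hn : f.order = (n : ℕ∞)) :
    (HahnSeries.ofPowerSeries ℤ ℂ f).order = (n : ℤ) := by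
  obtain ⟨h1, h2⟩ := PowerSeries.order_eq_nat.mp hn
  obtain ⟨g, rfl⟩ : (PowerSeries.X : PowerSeries ℂ) ^ n ∣ f := PowerSeries.X_pow_dvd_iff.mpr h2
  rw [PowerSeries.coeff_X_pow_mul', if_pos le_rfl, Nat.sub_self] at h1
  have hg : (HahnSeries.ofPowerSeries ℤ ℂ g).coeff 0 ≠ 0 := by
    rw [show (0 : ℤ) = ((0 : ℕ) : ℤ) from rfl, HahnSeries.ofPowerSeries_apply_coeff]
    exact h1
  have hg0 : HahnSeries.ofPowerSeries ℤ ℂ g ≠ 0 := fun h => hg (by rw [h]; rfl)
  rw [map_mul, map_pow, HahnSeries.ofPowerSeries_X, HahnSeries.single_pow, one_pow,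
    HahnSeries.order_mul (HahnSeries.single_ne_zero one_ne_zero) hg0,
    HahnSeries.order_single one_ne_zero]
  have h0 : (HahnSeries.ofPowerSeries ℤ ℂ g).order = 0 := by
    refine le_antisymm (HahnSeries.order_le_of_coeff_ne_zero hg) ?_
    by_contra hneg
    refine HahnSeries.coeff_order_eq_zero.not.mpr hg0 ?_
    generalize (HahnSeries.ofPowerSeries ℤ ℂ g).order = o at hneg ⊢
    rw [HahnSeries.ofPowerSeries_apply]
    refine HahnSeries.embDomain_notin_range ?_
    rintro ⟨k, hk⟩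
    simp at hk
    omega
  rw [h0, add_zero, nsmul_eq_mul, mul_one]

/-- Reduction of power series over a subring of the place. -/
theorem bdd_mem_serIn {O : Subring ℂ} (h : O ≤ P.A) (g : PowerSeries O) :
    (bddOfPS O g : LaurentSeries ℂ) ∈ serIn P.A :=
  serIn_mono h ⟨HahnSeries.ofPowerSeries ℤ O g, rfl⟩

variable {r N : ℕ} [NeZero N] {B : BaseSys r N} {F : Finset (Fam N N)} {s : ℂ[X]}

theorem CoeffData.zeta_field (d : CoeffData B P F s) : zetaRing N ≤ d.K.toSubring :=
  d.zeta_le.trans coeffRing_le_field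

/-- An `l`-th root with integral coefficients. -/
theorem CoeffData.exists_pow_eq (d : CoeffData B P F s) (hp : p.Prime) {l : ℕ} (hl : 0 < l)
    (hlu : (l : ℂ) ∉ P.maxIdeal) (E : intFam N N d.K.toSubring →+* LaurentSeries ℂ)
    (hEO : ∀ Z, Z.1 ∈ intFam N N (coeffRing P d.K) → E Z ∈ serIn (coeffRing P d.K))
    (hEc : ∀ c : d.K, E (constK c) = HahnSeries.C (c : ℂ)) {X : intFam N N d.K.toSubring}
    (hXO : X.1 ∈ intFam N N (coeffRing P d.K)) (hu : P.HasUnitCoeff (E X))
    (hord : (l : ℤ) ∣ (E X).order)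
    (hpts : ∀ Q : B.Pt, ∃ m : ℕ, (Q.exp X.1).order = ((l * m : ℕ) : ℕ∞))
    (hs0 : s ≠ 0)
    (hdvd : X ∣ B.pullK d.zeta_field ⟨B.evb s, B.evb_mem_repRing d.poly_mem⟩) :
    ∃ a ∈ serIn P.A, a ^ l = E X := by
  classical
  haveI := d.pid
  set O := coeffRing P d.K
  have hOA : O ≤ P.A := coeffRing_le
  have hE : ∀ Z, E Z ∈ bddSer O := fun Z => by
    obtain ⟨c, hc, hc0, hcZ⟩ := exists_famConst_mul_mem B d.algebraic d.zeta_le Z.2
    refine ⟨c, hc, hc0, ?_⟩
    have := hEO (constK ⟨c, hc.1⟩ * Z) hcZ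
    rwa [map_mul, hEc] at this
  let E' : intFam N N d.K.toSubring →+* bddSer O := E.codRestrict (bddSer O) hE
  set x := E X
  obtain ⟨g, hg'⟩ := exists_eq_single_mul O (hEO X hXO)
  set o := x.order
  have hg : x = HahnSeries.single o 1 * (bddOfPS O g : LaurentSeries ℂ) := hg'
  have hsingle : ∀ i : ℤ, (HahnSeries.single i (1 : ℂ)) ∈ serIn O := fun i => mem_serIn.mpr fun n => by
    rw [HahnSeries.coeff_single]
    split_ifs
    exacts [one_mem _, zero_mem _]
  -- the reduction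
  let red : PowerSeries O →+* LaurentSeries P.Res :=
    P.serRes.comp (((bddSer O).subtype.comp (bddOfPS O)).codRestrict (serIn P.A) (bdd_mem_serIn hOA))
  have hredx : red g ≠ 0 := by
    intro h
    refine (P.hasUnitCoeff_iff (s := ⟨x, serIn_mono hOA (hEO X hXO)⟩)).mp hu ?_
    have e : (⟨x, serIn_mono hOA (hEO X hXO)⟩ : serIn P.A) =
        ⟨_, serIn_mono hOA (hsingle o)⟩ * ⟨_, bdd_mem_serIn hOA g⟩ := Subtype.ext hg
    rw [e, map_mul]
    exact mul_eq_zero_of_right _ h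
  have hredC : red (PowerSeries.C (⟨d.π, d.uniformiser_mem⟩ : O)) = 0 := by
    refine P.serRes_eq_zero.mpr fun n => ?_
    show ((bddOfPS O (PowerSeries.C _) : LaurentSeries ℂ)).coeff n ∈ _
    rw [coe_bddOfPS, PowerSeries.map_C, HahnSeries.ofPowerSeries_C, HahnSeries.C_apply,
      HahnSeries.coeff_single]
    split_ifs
    exacts [d.uniformiser_max, P.zero_mem_maxIdeal]
  have hx0 : x ≠ 0 := by
    obtain ⟨n, hn⟩ := hu
    exact fun h => hn (by rw [h]; exact P.zero_mem_maxIdeal)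
  have hg0 : PowerSeries.constantCoeff g ≠ 0 := by
    intro h
    refine HahnSeries.coeff_order_eq_zero.not.mpr hx0 ?_
    show x.coeff o = 0
    rw [hg, HahnSeries.coeff_single_mul, sub_self, coe_bddOfPS,
      show (0 : ℤ) = ((0 : ℕ) : ℤ) from rfl, HahnSeries.ofPowerSeries_apply_coeff,
      PowerSeries.coeff_map, PowerSeries.coeff_zero_eq_constantCoeff_apply, h, map_zero, mul_zero]
  have hgne : g ≠ 0 := fun h => hg0 (by rw [h, map_zero])
  obtain ⟨a, u, hau⟩ := exists_pow_mul_unit hl g hgne fun f hf hfg => by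
    have hX : ¬ f ∣ PowerSeries.X := fun h => by
      have h2 : PowerSeries.X ∣ g :=
        ((hf.associated_of_dvd PowerSeries.X_prime h).symm.dvd).trans hfg
      exact hg0 (PowerSeries.X_dvd_iff.mp h2)
    have hC : ∀ c : O, c ≠ 0 → ¬ f ∣ PowerSeries.C c := by
      intro c hc hfc
      have hc' : (c : ℂ) ≠ 0 := fun h => hc (Subtype.ext h)
      by_cases hcm : (c : ℂ) ∈ P.maxIdeal
      · obtain ⟨k, e, he, hk⟩ := P.exists_dvd_pow hp d.uniformiser_max (hOA c.2) hc'
        have heK : e ∈ O := ⟨by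
          rw [show e = (c : ℂ)⁻¹ * d.π ^ k by rw [hk, inv_mul_cancel_left₀ hc']]
          exact d.K.mul_mem (d.K.inv_mem c.2.1) (d.K.pow_mem d.uniformiser_mem.1 k), he⟩
        have hfπ : f ∣ PowerSeries.C (⟨d.π, d.uniformiser_mem⟩ : O) := by
          refine hf.dvd_of_dvd_pow (n := k) (hfc.trans ⟨PowerSeries.C ⟨e, heK⟩, ?_⟩)
          rw [← map_pow, ← map_mul]
          exact congrArg _ (Subtype.ext hk)
        obtain ⟨g', hg'⟩ := hfπ
        have hredf : red f ≠ 0 := fun h => hredx (zero_dvd_iff.mp (h ▸ map_dvd red hfg))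
        have hg'0 : red g' = 0 := by
          have h := congrArg red hg'
          rw [hredC, map_mul] at h
          exact (mul_eq_zero.mp h.symm).resolve_left hredf
        have hdiv : ∀ n, ∃ y : O, PowerSeries.coeff n g' = ⟨d.π, d.uniformiser_mem⟩ * y := fun n => by
          have hn : ((PowerSeries.coeff n g' : O) : ℂ) ∈ P.maxIdeal := by
            have := P.serRes_eq_zero.mp hg'0 (n : ℤ)
            rw [show ((((bddSer O).subtype.comp (bddOfPS O)).codRestrict (serIn P.A)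
              (bdd_mem_serIn hOA) g' : serIn P.A) : LaurentSeries ℂ) = bddOfPS O g' from rfl,
              coe_bddOfPS, HahnSeries.ofPowerSeries_apply_coeff, PowerSeries.coeff_map] at this
            exact this
          obtain ⟨y, hy, hy'⟩ := d.dvd_uniformiser _ (PowerSeries.coeff n g').2 hn
          exact ⟨⟨y, hy⟩, Subtype.ext hy'⟩
        choose y hy using hdiv
        have hg'' : g' = PowerSeries.C ⟨d.π, d.uniformiser_mem⟩ * PowerSeries.mk y := by
          ext n : 1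
          rw [PowerSeries.coeff_C_mul, PowerSeries.coeff_mk, hy]
        rw [hg'', mul_left_comm] at hg'
        have hπne : PowerSeries.C (⟨d.π, d.uniformiser_mem⟩ : O) ≠ 0 := fun h => by
          have := congrArg PowerSeries.constantCoeff h
          rw [PowerSeries.constantCoeff_C, map_zero] at this
          exact d.uniformiser_ne (congrArg Subtype.val this)
        exact hf.not_isUnit (IsUnit.of_mul_eq_one _
          (mul_left_cancel₀ hπne ((mul_one _).trans hg')).symm)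
      · refine hf.not_isUnit (isUnit_of_dvd_unit hfc (IsUnit.map _ ?_))
        exact .of_mul_eq_one ⟨(c : ℂ)⁻¹, d.K.inv_mem c.2.1, P.inv_mem_of_not_mem (hOA c.2) hcm⟩
          (Subtype.ext (mul_inv_cancel₀ hc'))
    obtain ⟨n, hn⟩ := B.exists_emultiplicity_eq d.zeta_field E' (prime_bddOfPS hf hX hC) hpts
      d.poly_mem hs0 d.root_mem d.sheet_mem hdvd
    refine ⟨n, ?_⟩
    rw [← emultiplicity_bddOfPS hf hX hC, ← hn]
    refine emultiplicity_eq_of_associated_right ?_
    have hm : ∀ i : ℤ, HahnSeries.single i (1 : ℂ) ∈ bddSer O :=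
      fun i => serIn_le_bddSer O (hsingle i)
    refine ⟨⟨⟨_, hm o⟩, ⟨_, hm (-o)⟩, Subtype.ext ?_, Subtype.ext ?_⟩, Subtype.ext ?_⟩
    · rw [Subring.coe_mul, HahnSeries.single_mul_single, add_neg_cancel, one_mul]; rfl
    · rw [Subring.coe_mul, HahnSeries.single_mul_single, neg_add_cancel, one_mul]; rfl
    · rw [Subring.coe_mul, mul_comm]
      exact hg.symm
  -- the unit part
  have hu0 : ((PowerSeries.constantCoeff (u : PowerSeries O) : O) : ℂ) ∉ P.maxIdeal := by
    obtain ⟨v, hv⟩ := (PowerSeries.isUnit_iff_constantCoeff.mp u.isUnit).exists_right_inv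
    have hv' := congrArg Subtype.val hv
    rw [Subring.coe_mul] at hv'
    refine P.not_mem_maxIdeal_of_inv (left_ne_zero_of_mul (hv'.trans_ne one_ne_zero)) ?_
    rw [inv_eq_of_mul_eq_one_right hv']
    exact hOA v.2
  obtain ⟨w, hw, hwl⟩ := P.exists_pow_eq_of_unit hl hlu (u := PowerSeries.map O.subtype u)
    (mem_psIn_iff.mpr fun k => by rw [PowerSeries.coeff_map]; exact hOA (Subtype.coe_prop _))
    (by rwa [← PowerSeries.coeff_zero_eq_constantCoeff_apply, PowerSeries.coeff_map,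
      PowerSeries.coeff_zero_eq_constantCoeff_apply])
  obtain ⟨q, hq⟩ := hord
  refine ⟨HahnSeries.single q 1 * ((bddOfPS O a : LaurentSeries ℂ) *
    HahnSeries.ofPowerSeries ℤ ℂ w),
    mul_mem (serIn_mono hOA (hsingle q)) (mul_mem (bdd_mem_serIn hOA a) ?_), ?_⟩
  · obtain ⟨w', rfl⟩ := hw
    exact ⟨HahnSeries.ofPowerSeries ℤ P.A w', coeffMap_ofPowerSeries P.A.subtype w'⟩
  · rw [mul_pow, mul_pow, HahnSeries.single_pow, one_pow, ← map_pow, hwl, nsmul_eq_mul, ← hq, hg,
      hau, map_mul, map_pow, Subring.coe_mul, SubmonoidClass.coe_pow, coe_bddOfPS O (u : PowerSeries O)]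
    ring

/-- The expansion at a vector. -/
def CoeffData.cuspHom (d : CoeffData B P F s) (v : PrimVec N) :
    intFam N N d.K.toSubring →+* LaurentSeries ℂ :=
  (famExp v).comp (intFam N N d.K.toSubring).subtype

/-- The expansion at a point, as a Laurent series. -/
def CoeffData.pointHom (d : CoeffData B P F s) (Q : B.Pt) :
    intFam N N d.K.toSubring →+* LaurentSeries ℂ :=
  (HahnSeries.ofPowerSeries ℤ ℂ).comp (Q.exp.comp (intFam N N d.K.toSubring).subtype)

/-- The root at a cusp. -/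
theorem CoeffData.exists_pow_eq_cusp (d : CoeffData B P F s) (hp : p.Prime) {l : ℕ} (hl : 0 < l)
    (hlu : (l : ℂ) ∉ P.maxIdeal) (v : PrimVec N) {X : intFam N N d.K.toSubring}
    (hXO : X.1 ∈ intFam N N (coeffRing P d.K)) (hu : P.HasUnitCoeff (famExp v X.1))
    (hord : (l : ℤ) ∣ (famExp v X.1).order)
    (hpts : ∀ Q : B.Pt, ∃ m : ℕ, (Q.exp X.1).order = ((l * m : ℕ) : ℕ∞))
    (hs0 : s ≠ 0)
    (hdvd : X ∣ B.pullK d.zeta_field ⟨B.evb s, B.evb_mem_repRing d.poly_mem⟩) :
    ∃ a ∈ serIn P.A, a ^ l = famExp v X.1 :=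
  d.exists_pow_eq hp hl hlu (d.cuspHom v) (fun _ hZ => mem_serIn.mpr (mem_intFam.mp hZ v))
    (fun c => famExp_famConst (c : ℂ) v) hXO hu hord hpts hs0 hdvd

/-- The root at a point. -/
theorem CoeffData.exists_pow_eq_point (d : CoeffData B P F s) (hp : p.Prime) {l : ℕ} (hl : 0 < l)
    (hlu : (l : ℂ) ∉ P.maxIdeal) {Q : B.Pt} (hQ : Q.IsIn (coeffRing P d.K))
    {X : intFam N N d.K.toSubring}
    (hXO : X.1 ∈ intFam N N (coeffRing P d.K))
    (hu : P.HasUnitCoeff (HahnSeries.ofPowerSeries ℤ ℂ (Q.exp X.1)))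
    (hpts : ∀ Q : B.Pt, ∃ m : ℕ, (Q.exp X.1).order = ((l * m : ℕ) : ℕ∞))
    (hs0 : s ≠ 0)
    (hdvd : X ∣ B.pullK d.zeta_field ⟨B.evb s, B.evb_mem_repRing d.poly_mem⟩) :
    ∃ a ∈ serIn P.A, a ^ l = HahnSeries.ofPowerSeries ℤ ℂ (Q.exp X.1) := by
  refine d.exists_pow_eq hp hl hlu (d.pointHom Q) (fun Z hZ => ?_) (fun c => ?_) hXO hu ?_ hpts
    hs0 hdvd
  · obtain ⟨g, hg⟩ := Q.exp_mem d.zeta_le hQ hZ
    refine ⟨HahnSeries.ofPowerSeries ℤ _ g, (coeffMap_ofPowerSeries _ g).trans ?_⟩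
    rw [hg]
    rfl
  · show HahnSeries.ofPowerSeries ℤ ℂ (Q.exp (famConst N N (c : ℂ))) = _
    rw [show famConst N N (c : ℂ) = famPull B.hr (famConst r N (c : ℂ)) from rfl, Q.exp_pull,
      B.evR_const, HahnSeries.ofPowerSeries_C]
  · obtain ⟨m, hm⟩ := hpts Q
    show (l : ℤ) ∣ (HahnSeries.ofPowerSeries ℤ ℂ (Q.exp X.1)).order
    rw [order_single_mul_ofPowerSeries hm, Nat.cast_mul]
    exact dvd_mul_right _ _

end Fermat.Agent.DS.G1
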