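import Fermat.Agent.DS.G1.Core.Points

/-!
# Sheets over a base point, norms, orders
-/

set_option autoImplicit false

noncomputable section

open UpperHalfPlane Polynomial Function
open scoped MatrixGroups

namespace Fermat.Agent.DS.G1.BaseSys

open Fermat.Agent.Igusa ModularCurve

variable {r N : ℕ} [NeZero N] (B : BaseSys r N)

theorem natDegree_coordPoly_le (Z : Fam N N) : (B.coordPoly Z).natDegree ≤ B.sheetDeg :=
  natDegree_le_of_degree_le (B.degree_coordPoly Z).le

/-- A specialisation of `Φ` with known roots gives the characteristic polynomial of every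
family. -/
theorem map_charFam_of_roots {R : Type} [CommRing R] [IsDomain R] (g : Fam r N →+* R) {ι : Type}
    (T : Finset ι) (θ : ι → R) (hθ : B.sheetPoly.map g = ∏ i ∈ T, (X - C (θ i))) (Z : Fam N N) :
    (B.charFam Z).map g = ∏ i ∈ T, (X - C ((B.coordPoly Z).eval₂ g (θ i))) := by
  classical
  haveI := B.neZero_r
  set U := B.coordPoly Z
  set G : (Fam r N)[X] := resultant (B.sheetPoly.map C) (C X - U.map C) B.sheetDeg B.sheetDeg
    with hG
  have key : ∀ {R' : Type} [CommRing R'] [IsDomain R'] (g' : Fam r N →+* R') {κ : Type}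
      (T' : Finset κ) (θ' : κ → R'), B.sheetPoly.map g' = ∏ i ∈ T', (X - C (θ' i)) →
      G.map g' = ∏ i ∈ T', (X - C (U.eval₂ g' (θ' i))) := by
    intro R' _ _ g' κ T' θ' h'
    have hf : (B.sheetPoly.map C).map (mapRingHom g') = ∏ i ∈ T', (X - C (C (θ' i))) := by
      rw [map_map, show (mapRingHom g').comp (C : Fam r N →+* (Fam r N)[X]) = (C : R' →+* R'[X]).comp g'
        from RingHom.ext fun x => by simp, ← map_map, h', Polynomial.map_prod]
      simp
    have hd : (∏ i ∈ T', (X - C (C (θ' i)) : R'[X][X])).natDegree = B.sheetDeg := by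
      rw [← hf, (B.monic_sheetPoly.map C).natDegree_map, B.monic_sheetPoly.natDegree_map,
        (B.monic_charFam B.theta).2]
    have hgd : ((C X - U.map C).map (mapRingHom g') : R'[X][X]).natDegree ≤ B.sheetDeg := by
      refine natDegree_map_le.trans ((natDegree_sub_le _ _).trans ?_)
      rw [natDegree_C, max_eq_right (Nat.zero_le _)]
      exact natDegree_map_le.trans (B.natDegree_coordPoly_le Z)
    rw [← coe_mapRingHom, hG, ← resultant_map_map, hf]
    conv_lhs => arg 3; rw [← hd]
    rw [resultant_eq_prod_eval _ _ _ hgd (Splits.prod fun i _ => Splits.X_sub_C _),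
      (monic_prod_of_monic _ _ fun i _ => monic_X_sub_C _).leadingCoeff, one_pow, one_mul,
      roots_prod _ _ (Finset.prod_ne_zero_iff.mpr fun i _ => X_sub_C_ne_zero _)]
    simp only [roots_X_sub_C, Multiset.bind_singleton, Multiset.map_map, Finset.prod_map_val]
    refine Finset.prod_congr rfl fun i _ => ?_
    simp only [Function.comp_apply]
    rw [eval_map, eval₂_sub, eval₂_C, eval₂_map, coe_mapRingHom, map_X,
      show (mapRingHom g').comp (C : Fam r N →+* (Fam r N)[X]) = (C : R' →+* R'[X]).comp g'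
        from RingHom.ext fun x => by simp, ← hom_eval₂]
  have hGc : G = B.charFam Z := by
    ext k : 1
    refine fam_ext_eval fun w τ => ?_
    rw [← Polynomial.coeff_map, ← Polynomial.coeff_map, B.map_charFam,
      key (famEval w τ) (primFibre B.hr w) (fun v => B.theta.1 v τ) (B.map_charFam B.theta w τ)]
    refine congrArg (fun P : ℂ[X] => P.coeff k) (Finset.prod_congr rfl fun v hv => ?_)
    have h1 := B.famEval_evTheta U v τ
    rw [mem_primFibre.mp hv, evTheta_coordPoly, eval_map] at h1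
    rw [← h1]
    rfl
  rw [← hGc]
  exact key g T θ hθ

variable {B} in
theorem BasePt.ext' {β β' : B.BasePt} (h : β.beta = β'.beta) : β = β' := by
  cases β; cases β'; cases h; rfl

variable {B} in
theorem Pt.ext' {Q Q' : B.Pt} (h : Q.toBasePt = Q'.toBasePt) (h' : Q.th = Q'.th) : Q = Q' := by
  cases Q; cases Q'; cases h; cases h'; rfl

/-- The points over a base point. -/
def sheets (β : B.BasePt) : Finset B.Pt :=
  haveI := B.neZero_r
  letI := Classical.decEq B.Pt
  (primFibre B.hr (base r)).image fun v => B.ptOf v (B.exists_ptBase β (base r)).choose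

theorem mem_sheets {β : B.BasePt} {Q : B.Pt} : Q ∈ B.sheets β ↔ Q.toBasePt = β := by
  classical
  haveI := B.neZero_r
  set τ := (B.exists_ptBase β (base r)).choose
  have hτ : B.ptBase (base r) τ = β := (B.exists_ptBase β (base r)).choose_spec
  simp only [sheets, Finset.mem_image, mem_primFibre]
  constructor
  · rintro ⟨v, hv, rfl⟩
    show B.ptBase (primRed B.hr v) τ = β
    rw [hv, hτ]
  · intro hQ
    have h := Q.hth
    rw [hQ, ← hτ, ← eval_map, B.evC_ptBase, B.map_charFam, eval_prod,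
      Finset.prod_eq_zero_iff] at h
    obtain ⟨v, hv, hv'⟩ := h
    simp only [eval_sub, eval_X, eval_C, sub_eq_zero] at hv'
    refine ⟨v, mem_primFibre.mp hv, Pt.ext' ?_ hv'.symm⟩
    show B.ptBase (primRed B.hr v) τ = _
    rw [mem_primFibre.mp hv, hτ, hQ]

theorem card_sheets (β : B.BasePt) : (B.sheets β).card = B.sheetDeg := by
  classical
  haveI := B.neZero_r
  rw [sheets, Finset.card_image_of_injOn, B.card_fibre]
  intro v hv u hu h
  by_contra hne
  exact B.theta_ne v u hne (by rw [mem_primFibre.mp hv, mem_primFibre.mp hu]) _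
    (congrArg Pt.th h)

theorem sheetPoly_map_evR (β : B.BasePt) :
    B.sheetPoly.map (B.evR β) = ∏ Q ∈ B.sheets β, (X - C (Pt.root Q)) := by
  classical
  haveI := B.neZero_r
  have hm := B.monic_sheetPoly.map (B.evR β)
  have hinj : Set.InjOn Pt.root (B.sheets β : Set B.Pt) := by
    intro Q hQ Q' hQ' h
    refine Pt.ext' ((mem_sheets B).mp hQ |>.trans ((mem_sheets B).mp hQ').symm) ?_
    rw [← Q.root_spec.2, ← Q'.root_spec.2, h]
  set S := (B.sheets β).image Pt.root
  have hcard : S.card = (B.sheetPoly.map (B.evR β)).natDegree := by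
    rw [Finset.card_image_of_injOn hinj, B.card_sheets, B.natDegree_sheetPoly_map]
  have hle : S.val ≤ (B.sheetPoly.map (B.evR β)).roots := by
    refine (Multiset.le_iff_subset S.nodup).mpr fun x hx => ?_
    obtain ⟨Q, hQ, rfl⟩ := Finset.mem_image.mp hx
    rw [mem_roots hm.ne_zero, IsRoot.def, eval_map, ← (mem_sheets B).mp hQ]
    exact Q.root_spec.1
  have hroots : S.val = (B.sheetPoly.map (B.evR β)).roots :=
    Multiset.eq_of_le_of_card_le hle ((card_roots' _).trans hcard.ge)
  rw [← prod_multiset_X_sub_C_of_monic_of_roots_card_eq hm (by rw [← hroots]; exact hcard),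
    ← hroots, Finset.image_val_of_injOn hinj, Multiset.map_map]
  rfl

theorem charFam_map_evR (β : B.BasePt) (Z : Fam N N) :
    (B.charFam Z).map (B.evR β) = ∏ Q ∈ B.sheets β, (X - C (Q.exp Z)) := by
  rw [B.map_charFam_of_roots _ _ _ (B.sheetPoly_map_evR β) Z]
  refine Finset.prod_congr rfl fun Q hQ => ?_
  obtain rfl := (mem_sheets B).mp hQ
  rfl

theorem evR_famNorm (β : B.BasePt) (Z : Fam N N) :
    B.evR β (famNorm B.hr Z) = ∏ Q ∈ B.sheets β, Q.exp Z := by
  haveI := B.neZero_r
  have h0 : famNorm B.hr Z = (-1) ^ B.sheetDeg * (B.charFam Z).coeff 0 := by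
    refine fam_ext_eval fun w τ => ?_
    rw [map_mul, map_pow, map_neg, map_one, ← Polynomial.coeff_map, B.map_charFam, coeff_zero_prod]
    simp only [coeff_sub, coeff_X_zero, coeff_C_zero, zero_sub]
    rw [Finset.prod_neg, B.card_fibre, ← mul_assoc, ← mul_pow, neg_one_mul, neg_neg, one_pow,
      one_mul]
    simp [famNorm]
  rw [h0, map_mul, map_pow, map_neg, map_one, ← Polynomial.coeff_map, B.charFam_map_evR,
    coeff_zero_prod]
  simp only [coeff_sub, coeff_X_zero, coeff_C_zero, zero_sub]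
  rw [Finset.prod_neg, B.card_sheets, ← mul_assoc, ← mul_pow, neg_one_mul, neg_neg, one_pow,
    one_mul]

theorem evR_famTrace (β : B.BasePt) (Z : Fam N N) :
    B.evR β (famTrace B.hr Z) = ∑ Q ∈ B.sheets β, Q.exp Z := by
  haveI := B.neZero_r
  have hd := B.sheetDeg_pos
  have h0 : famTrace B.hr Z = -(B.charFam Z).coeff (B.sheetDeg - 1) := by
    refine fam_ext_eval fun w τ => ?_
    rw [map_neg, ← Polynomial.coeff_map, B.map_charFam, ← B.card_fibre w,
      prod_X_sub_C_coeff_card_pred _ _ (by rw [B.card_fibre]; exact hd), neg_neg]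
    simp [famTrace]
  rw [h0, map_neg, ← Polynomial.coeff_map, B.charFam_map_evR, ← B.card_sheets β,
    prod_X_sub_C_coeff_card_pred _ _ (by rw [B.card_sheets]; exact hd), neg_neg]

theorem famNorm_ne_zero {Z : Fam N N} (hZ : Z ≠ 0) : famNorm B.hr Z ≠ 0 := by
  haveI := B.neZero_r
  intro h
  have h1 := famExp_famNorm (h := B.hr) Z (base r)
  rw [h, map_zero] at h1
  obtain ⟨v, -, hv⟩ := Finset.prod_eq_zero_iff.mp h1.symm
  exact fam_ne_zero_exp hZ v hv

theorem exp_ne_zero {Z : Fam N N} (hZ : Z ≠ 0) (Q : B.Pt) : Q.exp Z ≠ 0 := by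
  intro h
  refine B.famNorm_ne_zero hZ (B.evR_injective Q.toBasePt ?_)
  rw [evR_famNorm, map_zero]
  exact Finset.prod_eq_zero ((mem_sheets B).mpr rfl) h

/-! ### Separating elements, orders -/

/-- The polynomial vanishing at the other sheets. -/
def sepPoly (Q : B.Pt) : ℂ[X] := (B.sheetPoly.map (B.evC Q.toBasePt)) /ₘ (X - C Q.th)

theorem sepPoly_mul (Q : B.Pt) :
    (X - C Q.th) * B.sepPoly Q = B.sheetPoly.map (B.evC Q.toBasePt) :=
  mul_divByMonic_eq_iff_isRoot.mpr (by rw [IsRoot.def, eval_map]; exact Q.hth)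

theorem sepPoly_eval (Q : B.Pt) :
    (B.sepPoly Q).eval Q.th = (derivative B.sheetPoly).eval₂ (B.evC Q.toBasePt) Q.th := by
  rw [← eval_map, ← derivative_map, ← B.sepPoly_mul, derivative_mul, eval_add, eval_mul, eval_mul]
  simp

theorem sepPoly_eval_ne_zero (Q : B.Pt) : (B.sepPoly Q).eval Q.th ≠ 0 := fun h => by
  simpa [← B.sepPoly_eval, h] using B.eval_derivative_mul _ _ Q.hth

theorem sepPoly_mem {S : Subring ℂ} (hS : zetaRing N ≤ S) (Q : B.Pt) (hQ : Q.IsIn S) :
    B.sepPoly Q ∈ polyIn S := by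
  refine (divByMonic_mem_polyIn (mem_polyIn.mpr fun k => ?_) ?_ (monic_X_sub_C _)).1
  · rw [Polynomial.coeff_map]
    exact B.evC_mem _ hQ.1 (B.coeff_charFam_mem hS (intFam_mono hS B.theta_mem) k)
  · exact sub_mem X_mem_polyIn (C_mem_polyIn hQ.2)

/-- A family equal to `sepPoly` at every point. -/
def sepFam (Q : B.Pt) : Fam N N := B.evTheta ((B.sepPoly Q).map (famConst r N))

theorem val_sepFam (Q Q' : B.Pt) : Q'.val (B.sepFam Q) = (B.sepPoly Q).eval Q'.th := by
  rw [sepFam, Pt.val, RingHom.comp_apply, Q'.exp_evTheta, hom_eval₂, eval₂_map, Q'.root_spec.2]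
  refine congrArg (fun f : ℂ →+* ℂ => (B.sepPoly Q).eval₂ f Q'.th) (RingHom.ext fun c => ?_)
  show PowerSeries.constantCoeff (B.evR _ (famConst r N c)) = c
  rw [B.evR_const, PowerSeries.constantCoeff_C]

theorem sepFam_mem {S : Subring ℂ} (hS : zetaRing N ≤ S) (Q : B.Pt) (hQ : Q.IsIn S) :
    B.sepFam Q ∈ intFam N N S := by
  rw [sepFam, evTheta, coe_eval₂RingHom, eval₂_eq_sum]
  refine sum_mem fun k _ => mul_mem ?_ (pow_mem (intFam_mono hS B.theta_mem) k)
  rw [Polynomial.coeff_map]
  exact mem_intFam.mpr fun v => mem_serIn.mp (by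
    rw [famExp_famPull, famExp_famConst]
    exact C_mem_serIn (mem_polyIn.mp (B.sepPoly_mem hS Q hQ) k))

/-- The function `b - β` at level `N`. -/
def bDiff (β : ℂ) : Fam N N := famPull B.hr (B.b - famConst r N β)

theorem exp_bDiff (Q : B.Pt) (β : ℂ) :
    Q.exp (B.bDiff β) = PowerSeries.X + PowerSeries.C (Q.beta - β) := by
  rw [bDiff, Q.exp_pull, map_sub, B.evR_b, B.evR_const, map_sub]
  ring

/-- At a zero, one can divide by `b - β` after multiplying by the separating family. -/
theorem exists_peel {S : Subring ℂ} (hS : zetaRing N ≤ S) (Q : B.Pt) (hQ : Q.IsIn S)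
    {Z : Fam N N} (hZ : Z ∈ intFam N N S) (h0 : Q.val Z = 0) :
    ∃ Z' ∈ intFam N N S, Z * B.sepFam Q = B.bDiff Q.beta * Z' := by
  classical
  haveI := B.neZero_r
  set W := Z * B.sepFam Q
  have hW : W ∈ intFam N N S := mul_mem hZ (B.sepFam_mem hS Q hQ)
  set U := B.coordPoly Z
  have hUth : (U.map (B.evC Q.toBasePt)).IsRoot Q.th := by
    rw [IsRoot.def, eval_map]
    rw [← h0]
    conv_rhs => rw [← B.evTheta_coordPoly Z]
    rw [Pt.val, RingHom.comp_apply, Q.exp_evTheta, constantCoeff_eval₂, Q.root_spec.2]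
  have hcoordW : B.coordPoly W = (U * (B.sepPoly Q).map (famConst r N)) %ₘ B.sheetPoly := by
    rw [B.coordPoly_mul]
    have hdeg : ((B.sepPoly Q).map (famConst r N)).degree < B.sheetDeg := by
      refine degree_map_le.trans_lt ?_
      have hm : (B.sheetPoly.map (B.evC Q.toBasePt)).Monic := B.monic_sheetPoly.map _
      refine (degree_divByMonic_lt _ _ hm.ne_zero (by rw [degree_X_sub_C]; exact zero_lt_one)).trans_le ?_
      rw [degree_eq_natDegree hm.ne_zero, B.natDegree_sheetPoly_map]
    rw [sepFam, B.coordPoly_evTheta hdeg]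
  have hvan : ∀ k, B.evC Q.toBasePt ((B.coordPoly W).coeff k) = 0 := by
    intro k
    rw [← Polynomial.coeff_map, hcoordW, map_modByMonic _ B.monic_sheetPoly, Polynomial.map_mul,
      map_map, show (B.evC Q.toBasePt).comp (famConst r N) = RingHom.id ℂ from RingHom.ext fun c =>
        by simp [evC, B.evR_const], map_id]
    obtain ⟨q, hq⟩ := dvd_iff_isRoot.mpr hUth
    rw [hq, mul_comm (X - C Q.th) q, mul_assoc, B.sepPoly_mul, mul_comm,
      (modByMonic_eq_zero_iff_dvd (B.monic_sheetPoly.map _)).mpr (dvd_mul_right _ _), coeff_zero]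
  have hdiv : ∀ k, ∃ T ∈ B.repRing S,
      (B.coordPoly W).coeff k = (B.b - famConst r N Q.beta) * T := by
    intro k
    obtain ⟨P, hP, m, hm⟩ := B.exists_rep_of_mem (B.coordPoly_coeff_mem hS hW k)
    have hroot : P.eval Q.beta = 0 := by
      have h1 := hvan k
      change PowerSeries.constantCoeff (B.evFun _ _) = 0 at h1
      rw [B.evFun_eq _ hm, map_mul, map_pow, constantCoeff_taylorAt,
        PowerSeries.constantCoeff_inv, constantCoeff_taylorAt] at h1
      exact (mul_eq_zero.mp h1).resolve_right (pow_ne_zero _ (inv_ne_zero Q.hbeta))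
    refine ⟨B.evb (P /ₘ (X - C Q.beta)) * B.dInv ^ m, mul_mem (B.evb_mem_repRing
      (divByMonic_mem_polyIn hP (sub_mem X_mem_polyIn (C_mem_polyIn hQ.1.1))
        (monic_X_sub_C _)).1) (pow_mem B.dInv_mem_repRing m), ?_⟩
    rw [hm, ← mul_assoc, ← B.evb_X, ← B.evb_C, ← map_sub, ← map_mul,
      mul_divByMonic_eq_iff_isRoot.mpr hroot]
  choose T hT hTe using hdiv
  refine ⟨∑ k ∈ Finset.range B.sheetDeg, famPull B.hr (T k) * B.theta ^ k, sum_mem fun k _ =>
    mul_mem ?_ (pow_mem (intFam_mono hS B.theta_mem) k), ?_⟩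
  · exact mem_intFam.mpr fun v n => by
      rw [famExp_famPull]
      exact mem_intFam.mp (B.repRing_le hS (hT k)) _ n
  · conv_lhs => rw [B.interp W]
    rw [Finset.mul_sum]
    refine Finset.sum_congr rfl fun k hk => ?_
    have hck : (B.coordPoly W).coeff k = B.coord W k := by
      simp [coordPoly, coeff_C_mul_X_pow, Finset.mem_range.mp hk]
    rw [← hck, hTe k, map_mul, bDiff, mul_assoc]

/-- The order of the expansion at a point is the analytic order. -/
theorem order_exp_ptOf {Z : Fam N N} (hZ : Z ≠ 0) (v : PrimVec N) (τ : ℍ) :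
    ((B.ptOf v τ).exp Z).order = analyticOrderAt (Z.1 v ∘ ofComplex) (τ : ℂ) := by
  haveI := B.neZero_r
  set Q := B.ptOf v τ
  obtain ⟨n, hn⟩ := ENat.ne_top_iff_exists.mp
    (fun h => B.exp_ne_zero hZ Q (PowerSeries.order_eq_top.mp h))
  rw [← hn]
  induction n generalizing Z with
  | zero =>
    have h0 : Q.val Z ≠ 0 := fun h =>
      PowerSeries.order_ne_zero_iff_constCoeff_eq_zero.mpr
        (h : PowerSeries.constantCoeff (Q.exp Z) = 0) hn.symm
    rw [B.val_ptOf] at h0
    rw [Nat.cast_zero, (MF.analyticAt_ofComplex_comp (Z.2.1 v).1 τ).analyticOrderAt_eq_zero.mpr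
      (by simpa using h0)]
  | succ n ih =>
    have hne : (Q.exp Z).order ≠ 0 := by rw [← hn]; exact_mod_cast Nat.succ_ne_zero n
    have h0 : Q.val Z = 0 := PowerSeries.order_ne_zero_iff_constCoeff_eq_zero.mp hne
    obtain ⟨Z', -, hZ'⟩ := B.exists_peel (S := ⊤) le_top Q
      ⟨⟨trivial, trivial⟩, Subring.mem_top _⟩ (by rw [intFam_top]; trivial) h0
    have hS0 : Q.val (B.sepFam Q) ≠ 0 := by
      rw [B.val_sepFam]; exact B.sepPoly_eval_ne_zero Q
    have hZ'0 : Z' ≠ 0 := by
      intro h
      rw [h, mul_zero, mul_eq_zero] at hZ'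
      rcases hZ' with h' | h'
      · exact hZ h'
      · exact hS0 (by rw [h', map_zero])
    have hSord : (Q.exp (B.sepFam Q)).order = 0 := by
      by_contra h
      exact hS0 (PowerSeries.order_ne_zero_iff_constCoeff_eq_zero.mp h)
    have e1 := congrArg (fun x => (Q.exp x).order) hZ'
    simp only [map_mul, PowerSeries.order_mul, hSord, add_zero, exp_bDiff, sub_self, map_zero,
      PowerSeries.order_X] at e1
    rw [← hn] at e1
    have hn' : (n : ℕ∞) = (Q.exp Z').order := by
      obtain ⟨m, hm⟩ := ENat.ne_top_iff_exists.mp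
        (fun h => B.exp_ne_zero hZ'0 Q (PowerSeries.order_eq_top.mp h))
      rw [← hm] at e1 ⊢
      norm_cast at e1 ⊢
      omega
    have h2 : analyticOrderAt ((fun x => (B.sepFam Q).1 v (ofComplex x))) (τ : ℂ) = 0 :=
      (MF.analyticAt_ofComplex_comp ((B.sepFam Q).2.1 v).1 τ).analyticOrderAt_eq_zero.mpr (by
        rw [B.val_ptOf] at hS0
        simpa using hS0)
    have heq : (Z.1 v ∘ ofComplex) * (fun x => (B.sepFam Q).1 v (ofComplex x)) =
        (fun x => B.bAt (primRed B.hr v) x - B.bAt (primRed B.hr v) τ) * (Z'.1 v ∘ ofComplex) := by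
      funext x
      have := congrArg (famEval v (ofComplex x)) hZ'
      simpa [bDiff, bAt, Q, ptOf, ptBase] using this
    have e2 := congrArg (fun f => analyticOrderAt f (τ : ℂ)) heq
    rw [analyticOrderAt_mul (MF.analyticAt_ofComplex_comp (Z.2.1 v).1 τ)
      (g := fun x => (B.sepFam Q).1 v (ofComplex x))
      (MF.analyticAt_ofComplex_comp ((B.sepFam Q).2.1 v).1 τ),
      analyticOrderAt_mul ((B.analyticAt_bAt _ τ).fun_sub analyticAt_const)
        (MF.analyticAt_ofComplex_comp (Z'.2.1 v).1 τ), h2, add_zero, B.order_bAt_sub,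
      ← ih hZ'0 hn'] at e2
    rw [e2, Nat.cast_succ, add_comm]

end Fermat.Agent.DS.G1.BaseSys
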